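/-
Program E2 (S14 via Thaine), (E2-p3), helper27: the case `p = 3` of
`Fermat.Agent.S14.Interface.NoOmegaInvExt`.

Route: Minkowski's discriminant bound.  If `L/K` is Galois and every nonzero prime of `𝓞 L` has
trivial inertia group in `Gal(L/K)`, then every prime has ramification index one, so no prime
divides the relative different `𝔇(𝓞 L / 𝓞 K)`, which is therefore the unit ideal, and
`|d_L| = |d_K| ^ [L : K]`.  For `K = ℚ(ζ_3)` (`d_K = -3`) and `[L : K] = 3` this gives
`|d_L| = 27` with `[L : ℚ] = 6`, against Minkowski's bound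
`|d_L| ≥ 4/9 (3π/4)^6 > 75`.

Only the degree hypothesis and the "unramified at every finite prime" hypothesis of
`NoOmegaInvExt 3` are used.

Exports (namespace `Fermat.Agent.Thaine.CaseThree`), `K ⊆ L` number fields, `[IsGalois K L]`:
* `ramificationIdx_eq_one_of_inertia_eq_bot` : `I(P) = 1 → e(P | 𝓞 K) = 1`;
* `differentIdeal_eq_top`   : everywhere unramified ⇒ `differentIdeal (𝓞 K) (𝓞 L) = ⊤`;
* `natAbs_discr_eq_pow`     : everywhere unramified ⇒ `|d_L| = |d_K| ^ [L : K]`;
* `noOmegaInvExt_three`     : `NoOmegaInvExt 3`.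
-/
import Mathlib
import Fermat.Agent.S14.Interface

set_option autoImplicit false
set_option linter.style.haveILetI false

open NumberField
open scoped Pointwise

namespace Fermat.Agent.Thaine.CaseThree

section general

variable {K L : Type*} [Field K] [Field L] [NumberField K] [NumberField L] [Algebra K L]
  [IsGalois K L]

/-- Trivial inertia group ⇒ ramification index one. -/
theorem ramificationIdx_eq_one_of_inertia_eq_bot (P : Ideal (𝓞 L)) [P.IsPrime] (hP : P ≠ ⊥)
    (h : P.inertia (L ≃ₐ[K] L) = ⊥) : P.ramificationIdx (𝓞 K) = 1 := by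
  set q : Ideal (𝓞 K) := P.under (𝓞 K) with hq
  haveI : P.LiesOver q := ⟨rfl⟩
  have hq0 : q ≠ ⊥ := by
    intro h
    exact hP (Ideal.eq_bot_of_comap_eq_bot h)
  haveI : q.IsMaximal := Ring.DimensionLEOne.maximalOfPrime hq0 inferInstance
  have h1 := Ideal.card_inertia_eq_ramificationIdxIn (G := L ≃ₐ[K] L) q P
  rw [Ideal.ramificationIdxIn_eq_ramificationIdx q P (L ≃ₐ[K] L), h] at h1
  rw [← h1]
  simp

/-- Everywhere unramified ⇒ the relative different is the unit ideal. -/
theorem differentIdeal_eq_top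
    (hunr : ∀ P : Ideal (𝓞 L), P.IsPrime → P ≠ ⊥ → P.inertia (L ≃ₐ[K] L) = ⊥) :
    differentIdeal (𝓞 K) (𝓞 L) = ⊤ := by
  by_contra hne
  obtain ⟨M, hM, hle⟩ := Ideal.exists_le_maximal _ hne
  haveI : M.IsPrime := hM.isPrime
  have hM0 : M ≠ ⊥ := by
    rintro rfl
    exact differentIdeal_ne_bot (A := 𝓞 K) (B := 𝓞 L) (le_bot_iff.mp hle)
  have hdvd : M ∣ differentIdeal (𝓞 K) (𝓞 L) := Ideal.dvd_iff_le.mpr hle
  have he := ramificationIdx_eq_one_of_inertia_eq_bot (K := K) M hM0 (hunr M inferInstance hM0)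
  have hun : Algebra.IsUnramifiedAt (𝓞 K) M := Ideal.ramificationIdx_eq_one_iff.mp he
  exact (not_dvd_differentIdeal_iff.mpr hun) hdvd

/-- Everywhere unramified ⇒ `|d_L| = |d_K| ^ [L : K]`. -/
theorem natAbs_discr_eq_pow
    (hunr : ∀ P : Ideal (𝓞 L), P.IsPrime → P ≠ ⊥ → P.inertia (L ≃ₐ[K] L) = ⊥) :
    (discr L).natAbs = (discr K).natAbs ^ Module.finrank K L := by
  have := natAbs_discr_eq_absNorm_differentIdeal_mul_natAbs_discr_pow K (𝓞 K) L (𝓞 L)
  rw [differentIdeal_eq_top hunr] at this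
  simpa using this

end general

theorem numeric_bound : (27 : ℝ) < 4 / 9 * (3 * Real.pi / 4) ^ 6 := by
  have hpi : (3.14 : ℝ) < Real.pi := Real.pi_gt_d2
  have h1 : (2.355 : ℝ) < 3 * Real.pi / 4 := by linarith
  have h2 : (2.355 : ℝ) ^ 6 < (3 * Real.pi / 4) ^ 6 := by
    gcongr
  have h3 : (27 : ℝ) < 4 / 9 * (2.355 : ℝ) ^ 6 := by norm_num
  linarith

/-- (E2-p3) There is no everywhere unramified Galois extension of degree `3` of `ℚ(ζ_3)`;
in particular `NoOmegaInvExt 3`. -/
theorem noOmegaInvExt_three : Fermat.Agent.S14.Interface.NoOmegaInvExt 3 := by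
  intro K L _ _ _ _ _ _ _ _ hdeg hunr _ _ _
  haveI : Fact (Nat.Prime 3) := ⟨Nat.prime_three⟩
  have hdK : discr K = -3 := by
    have := IsCyclotomicExtension.Rat.discr_prime 3 K
    simpa using this
  have hdL : (discr L).natAbs = 27 := by
    rw [natAbs_discr_eq_pow (K := K) hunr, hdeg, hdK]
    norm_num
  have hKrank : Module.finrank ℚ K = 2 := by
    rw [IsCyclotomicExtension.finrank K
      (Polynomial.cyclotomic.irreducible_rat (by norm_num : 0 < 3))]
    decide
  have hLrank : Module.finrank ℚ L = 6 := by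
    rw [← Module.finrank_mul_finrank ℚ K L, hKrank, hdeg]
  have hge := abs_discr_ge (K := L) (by rw [hLrank]; norm_num)
  rw [hLrank] at hge
  have habs : ((|discr L| : ℤ) : ℝ) = 27 := by
    rw [Int.abs_eq_natAbs, hdL]
    norm_num
  rw [habs] at hge
  exact absurd hge (not_le.mpr numeric_bound)

end Fermat.Agent.Thaine.CaseThree
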