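/-
Program E2 (S14 via Thaine's argument, no class field theory), helper20: common definitions and the
EXACT statements (as `Prop`s) of the independent pieces.  `K = ℚ(ζ_p)`.

Target: `Fermat.Agent.S14.Interface.NoOmegaInvExt p` for every prime `p ≥ 3`.
Pieces (each owner proves `theorem … : XStatement p K`):
* `KummerGen`  (E2-K)  : the Kummer generator `α` of a hypothetical `L/K`.
* `ThaineStatement` (E2-TH) : Thaine's principal ideal `(κ) = J^(l-1) ∏ 𝔮^(r 𝔮)`.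
* `U1Statement` (E2-U1) : Kummer's computation modulo `λ^3` (`p ∤ B₂`).
* `U2Statement` (E2-U2) : the `ω²`-eigenspace of `E/E^p` is spanned by `dt`.
* `FactG` (E2-AN) : analytic generation of the class group by good degree-one primes.
-/
import Mathlib

set_option autoImplicit false

namespace Fermat.Agent.Thaine.Defs

open NumberField IsDedekindDomain
open scoped Pointwise

variable (p : ℕ) [Fact p.Prime] (K : Type) [Field K] [NumberField K]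
  [IsCyclotomicExtension {p} ℚ K]

/-- The chosen primitive `p`-th root of unity of `𝓞 K`. -/
noncomputable def zetaI : 𝓞 K := (IsCyclotomicExtension.zeta_spec p ℚ K).toInteger

/-- `λ = 1 - ζ`. -/
noncomputable def lam : 𝓞 K := 1 - zetaI p K

/-- `σ` acts on `μ_p` through the exponent `k`. -/
def ActsBy (σ : K ≃ₐ[ℚ] K) (k : ℕ) : Prop := ∀ z : K, z ^ p = 1 → σ z = z ^ k

/-- The exponent `[c⁻²] ∈ {1, …, p-1}`. -/
def e2 (c : (ZMod p)ˣ) : ℕ := (((c⁻¹ : (ZMod p)ˣ) ^ 2 : (ZMod p)ˣ) : ZMod p).val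

/-- The `ω²`-projection of `1 - ζ`:  `dt = ∏_c (1 - ζ^c)^[c⁻²]`. -/
noncomputable def dt : 𝓞 K :=
  ∏ c : (ZMod p)ˣ, (1 - zetaI p K ^ (c : ZMod p).val) ^ e2 p c

/-- The mod `p` cyclotomic character `Gal(K/ℚ) ≃ (ℤ/p)ˣ`. -/
noncomputable def chi : (K ≃ₐ[ℚ] K) ≃* (ZMod p)ˣ :=
  IsCyclotomicExtension.autEquivPow K
    (Polynomial.cyclotomic.irreducible_rat (Fact.out : p.Prime).pos)

/-- The action of `Gal(K/ℚ)` on the class group. -/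
noncomputable def galCl (σ : K ≃ₐ[ℚ] K) : ClassGroup (𝓞 K) ≃* ClassGroup (𝓞 K) :=
  ClassGroup.mulEquiv (MulSemiringAction.toRingEquiv (K ≃ₐ[ℚ] K) (𝓞 K) σ)

/-- The operator `ε = ∑_σ [χ(σ)⁻²] σ` on the class group (multiplicatively). -/
noncomputable def eps (x : ClassGroup (𝓞 K)) : ClassGroup (𝓞 K) :=
  ∏ σ : K ≃ₐ[ℚ] K, galCl K σ x ^ e2 p (chi p K σ)

/-- (E2-K) the data of a Kummer generator of a hypothetical extension `L/K`. -/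
structure KummerGen (α : 𝓞 K) : Prop where
  ne_zero : α ≠ 0
  not_pow : ¬ ∃ x : K, x ^ p = (α : K)
  eigen : ∀ (σ : K ≃ₐ[ℚ] K) (k : ℕ), ActsBy p K σ k →
    ∃ x : K, x ≠ 0 ∧ σ (α : K) = (α : K) ^ (k ^ 2) * x ^ p
  ideal_pow : ∃ 𝔞 : Ideal (𝓞 K), Ideal.span {α} = 𝔞 ^ p
  unit_at_lam : α ∉ Ideal.span {lam p K}
  cong : ∃ n : ℤ, α - (n : 𝓞 K) ∈ Ideal.span {lam p K} ^ 3

/-- (E2-TH) Thaine's principal ideal attached to a prime `l ≡ 1 mod p` and a primitive root `g`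
mod `l`. -/
def ThaineStatement : Prop :=
  ∀ (l : ℕ) [Fact l.Prime], l % p = 1 → ∀ g : ℕ, orderOf (g : ZMod l) = l - 1 →
    ∃ (κ : 𝓞 K) (J : Ideal (𝓞 K)) (r : Ideal (𝓞 K) → ℕ), κ ≠ 0 ∧
      Ideal.span {κ} = J ^ (l - 1) *
        ∏ 𝔮 ∈ IsDedekindDomain.primesOverFinset (Ideal.span {(l : ℤ)}) (𝓞 K), 𝔮 ^ r 𝔮 ∧
      ∀ 𝔮 ∈ IsDedekindDomain.primesOverFinset (Ideal.span {(l : ℤ)}) (𝓞 K),
        (1 - zetaI p K) * (g : 𝓞 K) ^ r 𝔮 - 1 ∈ 𝔮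

/-- A good prime: degree one, not above `p`, and `dt` is not a `p`-th power residue. -/
def IsGoodPrime (𝔩 : Ideal (𝓞 K)) : Prop :=
  𝔩.IsPrime ∧ 𝔩 ≠ ⊥ ∧ (Ideal.absNorm 𝔩).Prime ∧ (p : 𝓞 K) ∉ 𝔩 ∧
    ¬ ∃ y : 𝓞 K, y ^ p - dt p K ∈ 𝔩

/-- (E2-TH') consequence of Thaine's relation in the class group. -/
def ThaineClassStatement : Prop :=
  ∀ (𝔩 : Ideal (𝓞 K)) (h : IsGoodPrime p K 𝔩),
    ∃ y : ClassGroup (𝓞 K),
      eps p K (ClassGroup.mk0 ⟨𝔩, mem_nonZeroDivisors_iff_ne_zero.mpr h.2.1⟩) = y ^ p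

/-- (E2-AN) FACT G: the good primes generate the class group modulo `p`-th powers. -/
def FactG : Prop :=
  ∀ B : Subgroup (ClassGroup (𝓞 K)), (∀ x : ClassGroup (𝓞 K), x ^ p ∈ B) →
    (∀ (𝔩 : Ideal (𝓞 K)) (h : IsGoodPrime p K 𝔩),
      ClassGroup.mk0 ⟨𝔩, mem_nonZeroDivisors_iff_ne_zero.mpr h.2.1⟩ ∈ B) → B = ⊤

/-- (E2-U1) Kummer's computation modulo `λ³`. -/
def U1Statement : Prop :=
  (∀ x : 𝓞 K, x ∉ Ideal.span {lam p K} →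
    ∃ n : ℤ, x ^ p - (n : 𝓞 K) ∈ Ideal.span {lam p K} ^ 3) ∧
  (∀ (j : ℕ) (x : K) (y : 𝓞 K), y ∉ Ideal.span {lam p K} →
    (y : K) = (dt p K : K) ^ j * x ^ p →
    (∃ n : ℤ, y - (n : 𝓞 K) ∈ Ideal.span {lam p K} ^ 3) → p ∣ j)

/-- (E2-U2) the `ω²`-eigenspace of the units modulo `p`-th powers is spanned by `dt`. -/
def U2Statement : Prop :=
  ∀ u : (𝓞 K)ˣ,
    (∀ (σ : K ≃ₐ[ℚ] K) (k : ℕ), ActsBy p K σ k →
      ∃ x : K, σ ((u : 𝓞 K) : K) = ((u : 𝓞 K) : K) ^ (k ^ 2) * x ^ p) →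
    ∃ (j : ℕ) (x : K), ((u : 𝓞 K) : K) = (dt p K : K) ^ j * x ^ p

/-- (E2-CL) the class-group conclusion: an ideal whose `p`-th power is principal and whose class is
an `ω²`-eigenvector is principal. -/
def ClStatement : Prop :=
  ∀ (𝔞 : Ideal (𝓞 K)) (α : 𝓞 K), α ≠ 0 → Ideal.span {α} = 𝔞 ^ p →
    (∀ (σ : K ≃ₐ[ℚ] K) (k : ℕ), ActsBy p K σ k →
      ∃ x : K, x ≠ 0 ∧ σ (α : K) = (α : K) ^ (k ^ 2) * x ^ p) →
    𝔞.IsPrincipal

end Fermat.Agent.Thaine.Defs
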