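/-
Program E2 (S14 via Thaine's argument), piece (E2-CL b) (helper22): the class-group conclusion.

`clStatement : ThaineClassStatement p K → FactG p K → ClStatement p K`.

Proof.  `eps` is an endomorphism of the class group `Cl`.  The set `B` of classes `y` such that
`eps y` is a `p`-th power is a subgroup containing the `p`-th powers and (Thaine) the classes of
the good primes, so `B = Cl` by FACT G.  Let `x` be the class of `𝔞`, where `𝔞 ^ p = (α)` and
`σ α = α ^ (k²) · (p-th power)`.  Then `x ^ p = 1` and `σ x = x ^ (k²)` (unique `p`-th roots of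
ideals), whence `eps x = x ^ (p - 1) = x⁻¹`.  By induction `x` is a `p ^ n`-th power for every `n`:
if `x = y ^ (p ^ n)` and `eps y = z ^ p` then `x⁻¹ = eps x = z ^ (p ^ (n + 1))`.  Taking `p ^ n` the
`p`-part of the class number, `x` has order prime to `p`; as `x ^ p = 1`, `x = 1`.
-/
import Mathlib
import Fermat.Agent.Thaine.Defs

set_option autoImplicit false
set_option linter.unusedSectionVars false
set_option linter.overlappingInstances false

namespace Fermat.Agent.Thaine.ClassEigen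

open NumberField
open scoped nonZeroDivisors
open Fermat.Agent.Thaine.Defs

section General

variable {R R' : Type*} [CommRing R] [IsDomain R] [IsDedekindDomain R] [CommRing R'] [IsDomain R']
  [IsDedekindDomain R']

theorem map_mem_nonZeroDivisors (g : R ≃+* R') (I : (Ideal R)⁰) :
    Ideal.map g I.1 ∈ (Ideal R')⁰ := by
  rw [mem_nonZeroDivisors_iff_ne_zero, Ne, Ideal.zero_eq_bot,
    Ideal.map_eq_bot_iff_of_injective g.injective]
  exact mem_nonZeroDivisors_iff_ne_zero.mp I.2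

/-- The isomorphism of fractional ideals induced by a ring isomorphism, on integral ideals. -/
theorem ringEquivOfRingEquiv_coeIdeal (g : R ≃+* R') (I : Ideal R) :
    FractionalIdeal.ringEquivOfRingEquiv (FractionRing R) (FractionRing R') g
      (I : FractionalIdeal R⁰ (FractionRing R)) =
      ((Ideal.map g I : Ideal R') : FractionalIdeal R'⁰ (FractionRing R')) := by
  apply FractionalIdeal.coeToSubmodule_injective
  rw [FractionalIdeal.ringEquivOfRingEquiv_apply]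
  ext x
  simp only [FractionalIdeal.coe_mk, FractionalIdeal.coe_coeIdeal, Submodule.mem_map,
    IsLocalization.mem_coeSubmodule]
  constructor
  · rintro ⟨y, ⟨a, ha, rfl⟩, rfl⟩
    refine ⟨g a, Ideal.mem_map_of_mem _ ha, ?_⟩
    exact (IsFractionRing.semilinearEquivOfRingEquiv_algebraMap _ _ g a).symm
  · rintro ⟨b, hb, rfl⟩
    rw [Ideal.mem_map_of_equiv] at hb
    obtain ⟨a, ha, rfl⟩ := hb
    refine ⟨algebraMap R (FractionRing R) a, ⟨a, ha, rfl⟩, ?_⟩
    exact IsFractionRing.semilinearEquivOfRingEquiv_algebraMap _ _ g a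

/-- `ClassGroup.mulEquiv g` sends the class of `I` to the class of `g(I)`. -/
theorem mulEquiv_mk0 (g : R ≃+* R') (I : (Ideal R)⁰) :
    ClassGroup.mulEquiv g (ClassGroup.mk0 I) =
      ClassGroup.mk0 ⟨Ideal.map g I.1, map_mem_nonZeroDivisors g I⟩ := by
  rw [ClassGroup.mulEquiv_apply, ClassGroup.equiv_mk0, MulEquiv.symm_apply_eq,
    ClassGroup.equiv_mk0]
  refine (QuotientGroup.congr_mk' _ _ _ _ _).trans ?_
  congr 1
  apply Units.ext
  simp only [Units.coe_mapEquiv, FractionalIdeal.coe_mk0]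
  exact ringEquivOfRingEquiv_coeIdeal g I.1

end General

section Main

variable (p : ℕ) [Fact p.Prime] (K : Type) [Field K] [NumberField K]
  [IsCyclotomicExtension {p} ℚ K]

/-- The ring automorphism of `𝓞 K` induced by `σ`. -/
noncomputable abbrev gE (σ : K ≃ₐ[ℚ] K) : 𝓞 K ≃+* 𝓞 K :=
  MulSemiringAction.toRingEquiv (K ≃ₐ[ℚ] K) (𝓞 K) σ

theorem coe_gE (σ : K ≃ₐ[ℚ] K) (a : 𝓞 K) : ((gE K σ a : 𝓞 K) : K) = σ (a : K) := rfl

theorem galCl_mk0 (σ : K ≃ₐ[ℚ] K) (I : (Ideal (𝓞 K))⁰) :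
    galCl K σ (ClassGroup.mk0 I) =
      ClassGroup.mk0 ⟨Ideal.map (gE K σ) I.1, map_mem_nonZeroDivisors (gE K σ) I⟩ :=
  mulEquiv_mk0 (gE K σ) I

/-! ### `eps` is an endomorphism of the class group -/

theorem eps_mul (x y : ClassGroup (𝓞 K)) : eps p K (x * y) = eps p K x * eps p K y := by
  unfold eps
  rw [← Finset.prod_mul_distrib]
  refine Finset.prod_congr rfl fun σ _ => ?_
  rw [map_mul, mul_pow]

theorem eps_one : eps p K 1 = 1 := by
  unfold eps
  simp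

/-- `eps` as a monoid homomorphism. -/
noncomputable def epsHom : ClassGroup (𝓞 K) →* ClassGroup (𝓞 K) where
  toFun := eps p K
  map_one' := eps_one p K
  map_mul' := eps_mul p K

theorem eps_pow (x : ClassGroup (𝓞 K)) (n : ℕ) : eps p K (x ^ n) = eps p K x ^ n :=
  map_pow (epsHom p K) x n

theorem eps_inv (x : ClassGroup (𝓞 K)) : eps p K x⁻¹ = (eps p K x)⁻¹ :=
  map_inv (epsHom p K) x

/-- Thaine + FACT G: every value of `eps` is a `p`-th power. -/
theorem eps_eq_pow (hTC : ThaineClassStatement p K) (hG : FactG p K) (y : ClassGroup (𝓞 K)) :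
    ∃ z : ClassGroup (𝓞 K), eps p K y = z ^ p := by
  let B : Subgroup (ClassGroup (𝓞 K)) :=
    { carrier := {y | ∃ z : ClassGroup (𝓞 K), eps p K y = z ^ p}
      one_mem' := ⟨1, by rw [eps_one, one_pow]⟩
      mul_mem' := by
        rintro a b ⟨z, hz⟩ ⟨w, hw⟩
        exact ⟨z * w, by rw [eps_mul, hz, hw, mul_pow]⟩
      inv_mem' := by
        rintro a ⟨z, hz⟩
        exact ⟨z⁻¹, by rw [eps_inv, hz, inv_pow]⟩ }
  have hB : B = ⊤ := hG B (fun x => ⟨eps p K x, eps_pow p K x p⟩) (fun 𝔩 h => hTC 𝔩 h)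
  have hy : y ∈ B := hB ▸ Subgroup.mem_top y
  exact hy

/-! ### The `ω²`-eigenclasses of order `p` -/

theorem card_gal : Fintype.card (K ≃ₐ[ℚ] K) = p - 1 := by
  rw [Fintype.card_congr (chi p K).toEquiv, ZMod.card_units]

theorem actsBy_chi (σ : K ≃ₐ[ℚ] K) : ActsBy p K σ ((chi p K σ : (ZMod p)ˣ) : ZMod p).val :=
  fun _ hz => IsCyclotomicExtension.Rat.galEquivZMod_apply_of_pow_eq p K σ hz

theorem sq_mul_e2_modEq (c : (ZMod p)ˣ) : (c : ZMod p).val ^ 2 * e2 p c ≡ 1 [MOD p] := by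
  rw [← ZMod.natCast_eq_natCast_iff]
  unfold e2
  push_cast
  rw [ZMod.natCast_val, ZMod.natCast_val, ZMod.cast_id', id_eq, id_eq,
    ← mul_pow, mul_inv_cancel₀ (Units.ne_zero c), one_pow]

/-- On an eigenclass `x` of order dividing `p` (`σ x = x ^ (k²)`), `eps` is inversion. -/
theorem eps_eigen (x : ClassGroup (𝓞 K)) (hxp : x ^ p = 1)
    (heig : ∀ (σ : K ≃ₐ[ℚ] K) (k : ℕ), ActsBy p K σ k → galCl K σ x = x ^ (k ^ 2)) :
    eps p K x = x⁻¹ := by
  have hp : p.Prime := Fact.out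
  have h1 : ∀ σ : K ≃ₐ[ℚ] K, galCl K σ x ^ e2 p (chi p K σ) = x := by
    intro σ
    rw [heig σ _ (actsBy_chi p K σ), ← pow_mul, pow_eq_pow_mod _ hxp,
      sq_mul_e2_modEq p (chi p K σ), Nat.mod_eq_of_lt hp.one_lt, pow_one]
  unfold eps
  rw [Finset.prod_congr rfl (fun σ _ => h1 σ), Finset.prod_const, Finset.card_univ, card_gal p K]
  apply eq_inv_of_mul_eq_one_left
  rw [← pow_succ, Nat.sub_add_cancel hp.one_lt.le, hxp]

/-- The class of `𝔞` is an eigenclass as soon as `𝔞 ^ p = (α)` with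
`σ α = α ^ m · (p-th power)`. -/
theorem galCl_eigen (𝔞 : Ideal (𝓞 K)) (h𝔞 : 𝔞 ∈ (Ideal (𝓞 K))⁰) (α : 𝓞 K)
    (hspan : Ideal.span {α} = 𝔞 ^ p) (σ : K ≃ₐ[ℚ] K) (m : ℕ) (x₀ : K) (hx₀ : x₀ ≠ 0)
    (hσ : σ (α : K) = (α : K) ^ m * x₀ ^ p) :
    galCl K σ (ClassGroup.mk0 ⟨𝔞, h𝔞⟩) = ClassGroup.mk0 ⟨𝔞, h𝔞⟩ ^ m := by
  have hp : p.Prime := Fact.out
  obtain ⟨a, b, hb, rfl⟩ := IsFractionRing.div_surjective (A := 𝓞 K) x₀
  have hb0 : b ≠ 0 := nonZeroDivisors.ne_zero hb
  have hbK : (algebraMap (𝓞 K) K b) ≠ 0 := by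
    rwa [Ne, FaithfulSMul.algebraMap_eq_zero_iff]
  have ha0 : a ≠ 0 := by
    rintro rfl
    apply hx₀
    rw [map_zero, zero_div]
  rw [galCl_mk0, ← map_pow, ClassGroup.mk0_eq_mk0_iff]
  refine ⟨b, a, hb0, ha0, ?_⟩
  apply pow_left_injective hp.ne_zero
  simp only [SubmonoidClass.coe_pow]
  rw [mul_pow, mul_pow, ← Ideal.map_pow, ← pow_mul, mul_comm m p, pow_mul, ← hspan,
    Ideal.map_span, Set.image_singleton, Ideal.span_singleton_pow, Ideal.span_singleton_pow,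
    Ideal.span_singleton_pow, Ideal.span_singleton_mul_span_singleton,
    Ideal.span_singleton_mul_span_singleton]
  congr 2
  apply FaithfulSMul.algebraMap_injective (𝓞 K) K
  rw [map_mul, map_mul, map_pow, map_pow, map_pow]
  have h2 : algebraMap (𝓞 K) K ((gE K σ) α) = σ (algebraMap (𝓞 K) K α) := rfl
  rw [h2, hσ, div_pow]
  field_simp

/-- **(E2-CL)** the class-group conclusion. -/
theorem clStatement (hTC : ThaineClassStatement p K) (hG : FactG p K) : ClStatement p K := by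
  intro 𝔞 α hα hspan heig
  have hp : p.Prime := Fact.out
  have h𝔞0 : 𝔞 ≠ ⊥ := by
    rintro rfl
    rw [← Ideal.zero_eq_bot, zero_pow hp.ne_zero, Ideal.zero_eq_bot,
      Ideal.span_singleton_eq_bot] at hspan
    exact hα hspan
  have h𝔞 : 𝔞 ∈ (Ideal (𝓞 K))⁰ := mem_nonZeroDivisors_iff_ne_zero.mpr h𝔞0
  rw [← ClassGroup.mk0_eq_one_iff h𝔞]
  set x := ClassGroup.mk0 ⟨𝔞, h𝔞⟩ with hx
  have hxp : x ^ p = 1 := by
    rw [hx, ← map_pow, ClassGroup.mk0_eq_one_iff]
    simp only [SubmonoidClass.coe_pow]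
    rw [← hspan]
    exact ⟨⟨α, rfl⟩⟩
  have hxe : ∀ (σ : K ≃ₐ[ℚ] K) (k : ℕ), ActsBy p K σ k → galCl K σ x = x ^ (k ^ 2) := by
    intro σ k hk
    obtain ⟨x₀, hx₀, hσ⟩ := heig σ k hk
    exact galCl_eigen p K 𝔞 h𝔞 α hspan σ (k ^ 2) x₀ hx₀ hσ
  have heps : eps p K x = x⁻¹ := eps_eigen p K x hxp hxe
  have hpow : ∀ n : ℕ, ∃ y : ClassGroup (𝓞 K), x = y ^ (p ^ n) := by
    intro n
    induction n with
    | zero => exact ⟨x, by rw [pow_zero, pow_one]⟩
    | succ n ih =>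
      obtain ⟨y, hy⟩ := ih
      obtain ⟨z, hz⟩ := eps_eq_pow p K hTC hG y
      refine ⟨z⁻¹, ?_⟩
      have h3 : x⁻¹ = z ^ (p ^ (n + 1)) := by
        rw [← heps, hy, eps_pow, hz, ← pow_mul, ← pow_succ']
      rw [inv_pow, ← h3, inv_inv]
  obtain ⟨e, m', hm', hcard⟩ := Nat.exists_eq_pow_mul_and_not_dvd
    (Fintype.card_ne_zero (α := ClassGroup (𝓞 K))) p hp.ne_one
  obtain ⟨y, hy⟩ := hpow e
  have h1 : x ^ m' = 1 := by
    rw [hy, ← pow_mul, ← hcard, pow_card_eq_one]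
  have h2 : x ^ Nat.gcd m' p = 1 := pow_gcd_eq_one.mpr ⟨h1, hxp⟩
  rwa [Nat.Coprime.gcd_eq_one ((Nat.Prime.coprime_iff_not_dvd hp).mpr hm').symm, pow_one] at h2

end Main

end Fermat.Agent.Thaine.ClassEigen
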