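import Fermat.Agent.Thaine.GalClMk0

/-!
# E2-CL (b): `ThaineClassStatement` + `FactG` ⟹ `ClStatement`

An ideal `𝔞` with `𝔞^p = (α)`, `α` an `ω²`-eigenvector modulo `p`-th powers, is principal.
-/

set_option autoImplicit false
set_option linter.unusedSectionVars false

namespace Fermat.Agent.Thaine.ClassEigenCl

open NumberField nonZeroDivisors Fermat.Agent.Thaine.Defs Fermat.Agent.Thaine.GalClMk0

section ideals

variable {A : Type*} [CommRing A] [IsDedekindDomain A]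

/-- `p`-th roots of ideals of a Dedekind domain are unique. -/
theorem ideal_pow_left_injective {n : ℕ} (hn : n ≠ 0) {I J : Ideal A} (h : I ^ n = J ^ n) :
    I = J := by
  have h1 : I ∣ J := (UniqueFactorizationMonoid.pow_dvd_pow_iff_dvd hn).mp (h ▸ dvd_rfl)
  have h2 : J ∣ I := (UniqueFactorizationMonoid.pow_dvd_pow_iff_dvd hn).mp (h ▸ dvd_rfl)
  exact le_antisymm (Ideal.le_of_dvd h2) (Ideal.le_of_dvd h1)

end ideals

variable (p : ℕ) [Fact p.Prime] (K : Type) [Field K] [NumberField K]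
  [IsCyclotomicExtension {p} ℚ K]

/-- `σ` acts on `μ_p` through `(chi σ).val`. -/
theorem actsBy_chi (σ : K ≃ₐ[ℚ] K) :
    ActsBy p K σ ((chi p K σ : (ZMod p)ˣ) : ZMod p).val := by
  intro z hz
  exact IsCyclotomicExtension.Rat.galEquivZMod_apply_of_pow_eq p K σ hz

/-- Step 1: every `eps y` is a `p`-th power. -/
theorem eps_isPow (hTC : ThaineClassStatement p K) (hG : FactG p K) (y : ClassGroup (𝓞 K)) :
    ∃ z : ClassGroup (𝓞 K), eps p K y = z ^ p := by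
  let B : Subgroup (ClassGroup (𝓞 K)) :=
    { carrier := {y | ∃ z : ClassGroup (𝓞 K), eps p K y = z ^ p}
      one_mem' := ⟨1, by rw [eps_one, one_pow]⟩
      mul_mem' := by
        rintro a b ⟨z, hz⟩ ⟨w, hw⟩
        exact ⟨z * w, by rw [eps_mul, hz, hw, mul_pow]⟩
      inv_mem' := by
        rintro a ⟨z, hz⟩
        exact ⟨z⁻¹, by rw [eps_inv, hz, inv_pow]⟩ }
  have hB : B = ⊤ := by
    refine hG B (fun x ↦ ⟨eps p K x, eps_pow p K x p⟩) (fun 𝔩 h ↦ ?_)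
    exact hTC 𝔩 h
  have : y ∈ B := hB ▸ Subgroup.mem_top y
  exact this

variable {p K}

/-- Step 2: the class of `𝔞` is an `ω²`-eigenvector. -/
theorem galCl_eq_pow {𝔞 : Ideal (𝓞 K)} {α : 𝓞 K}
    (h : Ideal.span {α} = 𝔞 ^ p) (h𝔞 : 𝔞 ∈ (Ideal (𝓞 K))⁰) (σ : K ≃ₐ[ℚ] K) (k : ℕ)
    (heig : ∃ x : K, x ≠ 0 ∧ σ (α : K) = (α : K) ^ (k ^ 2) * x ^ p) :
    galCl K σ (ClassGroup.mk0 ⟨𝔞, h𝔞⟩) = ClassGroup.mk0 ⟨𝔞, h𝔞⟩ ^ (k ^ 2) := by
  have hp : p ≠ 0 := (Fact.out : p.Prime).ne_zero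
  obtain ⟨x₀, hx₀, hσ⟩ := heig
  obtain ⟨a, b, hb, rfl⟩ := IsFractionRing.div_surjective (A := 𝓞 K) x₀
  have hb0 : b ≠ 0 := nonZeroDivisors.ne_zero hb
  have hbK : (algebraMap (𝓞 K) K b) ≠ 0 := by
    simpa using hb0
  have ha0 : a ≠ 0 := by
    rintro rfl
    simp at hx₀
  -- the identity in `𝓞 K`
  have hint : intEquiv K σ α * b ^ p = α ^ (k ^ 2) * a ^ p := by
    apply FaithfulSMul.algebraMap_injective (𝓞 K) K
    have h1 : algebraMap (𝓞 K) K (intEquiv K σ α) = σ (α : K) := rfl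
    rw [map_mul, map_mul, map_pow, map_pow, map_pow, h1, hσ, div_pow]
    field_simp
  -- ideals
  have hmap : Ideal.span {intEquiv K σ α} =
      (𝔞.map (intEquiv K σ : 𝓞 K →+* 𝓞 K)) ^ p := by
    rw [← Ideal.map_pow, ← h, Ideal.map_span, Set.image_singleton]
    rfl
  have hid : (𝔞.map (intEquiv K σ : 𝓞 K →+* 𝓞 K) * Ideal.span {b}) ^ p =
      (𝔞 ^ (k ^ 2) * Ideal.span {a}) ^ p := by
    rw [mul_pow, mul_pow, ← hmap, ← pow_mul, mul_comm (k ^ 2) p, pow_mul, ← h,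
      Ideal.span_singleton_pow, Ideal.span_singleton_pow, Ideal.span_singleton_pow,
      Ideal.span_singleton_mul_span_singleton, Ideal.span_singleton_mul_span_singleton, hint]
  have hroot := ideal_pow_left_injective hp hid
  -- pass to the class group
  have ha : Ideal.span {a} ∈ (Ideal (𝓞 K))⁰ :=
    mem_nonZeroDivisors_iff_ne_zero.mpr (by simpa using ha0)
  have hb' : Ideal.span {b} ∈ (Ideal (𝓞 K))⁰ :=
    mem_nonZeroDivisors_iff_ne_zero.mpr (by simpa using hb0)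
  have hcl : ClassGroup.mk0 (mapIdeal0 K σ ⟨𝔞, h𝔞⟩ * ⟨Ideal.span {b}, hb'⟩) =
      ClassGroup.mk0 (⟨𝔞, h𝔞⟩ ^ (k ^ 2) * ⟨Ideal.span {a}, ha⟩) := by
    congr 1
    exact Subtype.ext hroot
  rw [map_mul, map_mul, map_pow] at hcl
  have h1 : ClassGroup.mk0 (⟨Ideal.span {b}, hb'⟩ : (Ideal (𝓞 K))⁰) = 1 :=
    (ClassGroup.mk0_eq_one_iff hb').mpr ⟨⟨b, rfl⟩⟩
  have h2 : ClassGroup.mk0 (⟨Ideal.span {a}, ha⟩ : (Ideal (𝓞 K))⁰) = 1 :=
    (ClassGroup.mk0_eq_one_iff ha).mpr ⟨⟨a, rfl⟩⟩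
  rw [h1, h2, mul_one, mul_one] at hcl
  rw [galCl_mk0, hcl]

variable (p K)

theorem card_gal : Fintype.card (K ≃ₐ[ℚ] K) = p - 1 := by
  rw [Fintype.card_congr (chi p K).toEquiv, ZMod.card_units_eq_totient,
    Nat.totient_prime (Fact.out : p.Prime)]

/-- `k_σ² · e2(χ σ) ≡ 1 mod p`. -/
theorem sq_mul_e2_modEq (c : (ZMod p)ˣ) :
    ((c : ZMod p).val ^ 2 * e2 p c) ≡ 1 [MOD p] := by
  rw [← ZMod.natCast_eq_natCast_iff]
  simp only [e2, Nat.cast_mul, Nat.cast_pow, ZMod.natCast_val, ZMod.cast_id', id_eq, Nat.cast_one]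
  rw [Units.val_pow_eq_pow_val, ← mul_pow, Units.mul_inv, one_pow]

/-- Step 3: `eps x = x⁻¹` for an eigen-class of order dividing `p`. -/
theorem eps_eq_inv {x : ClassGroup (𝓞 K)} (hx : x ^ p = 1)
    (hgal : ∀ σ : K ≃ₐ[ℚ] K,
      galCl K σ x = x ^ (((chi p K σ : (ZMod p)ˣ) : ZMod p).val ^ 2)) :
    eps p K x = x⁻¹ := by
  have hterm : ∀ σ : K ≃ₐ[ℚ] K, galCl K σ x ^ e2 p (chi p K σ) = x := by
    intro σ
    rw [hgal σ, ← pow_mul]
    have hmod := sq_mul_e2_modEq p (chi p K σ)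
    have h1 : 1 ≤ ((chi p K σ : (ZMod p)ˣ) : ZMod p).val ^ 2 * e2 p (chi p K σ) := by
      by_contra hlt
      have h0 : ((chi p K σ : (ZMod p)ˣ) : ZMod p).val ^ 2 * e2 p (chi p K σ) = 0 := by omega
      rw [h0] at hmod
      have := (Nat.modEq_zero_iff_dvd.mp hmod.symm)
      exact (Fact.out : p.Prime).one_lt.ne' (Nat.dvd_one.mp this)
    obtain ⟨m, hm⟩ := (Nat.modEq_iff_dvd' h1).mp hmod.symm
    have : ((chi p K σ : (ZMod p)ˣ) : ZMod p).val ^ 2 * e2 p (chi p K σ) = 1 + p * m := by omega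
    rw [this, pow_add, pow_one, pow_mul, hx, one_pow, mul_one]
  rw [eps, Finset.prod_congr rfl fun σ _ ↦ hterm σ, Finset.prod_const, Finset.card_univ,
    card_gal p K]
  have hp1 : 1 ≤ p := (Fact.out : p.Prime).one_lt.le
  rw [eq_inv_iff_mul_eq_one, ← pow_succ, Nat.sub_add_cancel hp1, hx]

/-- **E2-CL (b)**: `ThaineClassStatement` and `FactG` imply `ClStatement`. -/
theorem clStatement (hTC : ThaineClassStatement p K) (hG : FactG p K) : ClStatement p K := by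
  intro 𝔞 α hα h heig
  have hp : p ≠ 0 := (Fact.out : p.Prime).ne_zero
  have h𝔞0 : 𝔞 ≠ 0 := by
    rintro rfl
    rw [zero_pow hp, Ideal.zero_eq_bot, Ideal.span_singleton_eq_bot] at h
    exact hα h
  have h𝔞 : 𝔞 ∈ (Ideal (𝓞 K))⁰ := mem_nonZeroDivisors_iff_ne_zero.mpr h𝔞0
  set x : ClassGroup (𝓞 K) := ClassGroup.mk0 ⟨𝔞, h𝔞⟩ with hx
  -- `x ^ p = 1`
  have hspan : Ideal.span {α} ∈ (Ideal (𝓞 K))⁰ :=
    mem_nonZeroDivisors_iff_ne_zero.mpr (by simpa using hα)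
  have hxp : x ^ p = 1 := by
    rw [hx, ← map_pow]
    have : (⟨𝔞, h𝔞⟩ : (Ideal (𝓞 K))⁰) ^ p = ⟨Ideal.span {α}, hspan⟩ := Subtype.ext h.symm
    rw [this]
    exact (ClassGroup.mk0_eq_one_iff hspan).mpr ⟨⟨α, rfl⟩⟩
  -- eigen property
  have hgal : ∀ σ : K ≃ₐ[ℚ] K,
      galCl K σ x = x ^ (((chi p K σ : (ZMod p)ˣ) : ZMod p).val ^ 2) := fun σ ↦
    galCl_eq_pow h h𝔞 σ _ (heig σ _ (actsBy_chi p K σ))
  have hinv : eps p K x = x⁻¹ := eps_eq_inv p K hxp hgal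
  -- `x` is a `p^k`-th power for every `k`
  have hpow : ∀ k : ℕ, ∃ y : ClassGroup (𝓞 K), x = y ^ (p ^ k) := by
    intro k
    induction k with
    | zero => exact ⟨x, by simp⟩
    | succ k ih =>
      obtain ⟨y, hy⟩ := ih
      obtain ⟨z, hz⟩ := eps_isPow p K hTC hG y
      refine ⟨z⁻¹, ?_⟩
      have : x⁻¹ = z ^ (p ^ (k + 1)) := by
        rw [← hinv, hy, eps_pow, hz, ← pow_mul, ← pow_succ']
      rw [inv_pow, ← this, inv_inv]
  -- conclude `x = 1`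
  have hcard : Nat.card (ClassGroup (𝓞 K)) ≠ 0 := Nat.card_pos.ne'
  obtain ⟨e, m, hm, hem⟩ := Nat.exists_eq_pow_mul_and_not_dvd hcard p
    (Fact.out : p.Prime).ne_one
  obtain ⟨y, hy⟩ := hpow e
  have hxm : x ^ m = 1 := by
    rw [hy, ← pow_mul, ← hem]
    exact pow_card_eq_one'
  have hcop : Nat.Coprime m p :=
    (Nat.Coprime.symm ((Nat.Prime.coprime_iff_not_dvd (Fact.out : p.Prime)).mpr hm))
  have hx1 : x = 1 := by
    have := pow_gcd_eq_one.mpr ⟨hxm, hxp⟩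
    rwa [Nat.Coprime.gcd_eq_one hcop, pow_one] at this
  exact (ClassGroup.mk0_eq_one_iff h𝔞).mp hx1

end Fermat.Agent.Thaine.ClassEigenCl
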