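/-
Program E2 (S14 via Thaine), row E2-THa (helper29): cyclotomic facts for `Kl = K(ζ_l)` over
`K = ℚ(ζ_p)`, `p ≠ l` primes.

(1) `Kl/K` is Galois, cyclic of degree `l - 1`, with an explicit generator `τ : ζ_l ↦ ζ_l ^ g`
    for every primitive root `g` modulo `l`.
(2) `Kl` is the `p * l`-th cyclotomic extension of `ℚ`.
-/
import Mathlib
import Fermat.Agent.CFT.CycloDisjoint

set_option autoImplicit false
set_option linter.unusedSectionVars false

namespace Fermat.Agent.Thaine.CycloTower

open NumberField Polynomial Module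

section Galois

variable (p l : ℕ) [hp : Fact p.Prime] [hl : Fact l.Prime]
  (K : Type) [Field K] [NumberField K] [IsCyclotomicExtension {p} ℚ K]
  (Kl : Type) [Field Kl] [NumberField Kl] [Algebra K Kl] [IsCyclotomicExtension {l} K Kl]

include p in
/-- `l` is coprime to the discriminant of `K = ℚ(ζ_p)`. -/
theorem coprime_discr (hpl : p ≠ l) : Nat.Coprime l (discr K).natAbs := by
  have h1 : (discr K).natAbs ∣ p ^ Nat.totient p :=
    Fermat.Agent.CFT.CycloDisjoint.natAbs_discr_cyclotomic_dvd p K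
  refine Nat.Coprime.coprime_dvd_right h1 (Nat.Coprime.pow_right _ ?_)
  exact (Nat.coprime_primes hl.out hp.out).mpr hpl.symm

include p in
/-- The `l`-th cyclotomic polynomial is irreducible over `K = ℚ(ζ_p)`. -/
theorem irreducible_cyclotomic (hpl : p ≠ l) : Irreducible (cyclotomic l K) :=
  Fermat.Agent.CFT.CycloDisjoint.irreducible_cyclotomic_of_coprime_discr K l
    (coprime_discr p l K hpl)

include l in
/-- `Kl/K` is Galois. -/
theorem isGalois : IsGalois K Kl := IsCyclotomicExtension.isGalois {l} K Kl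

include p in
/-- `[Kl : K] = l - 1`. -/
theorem finrank_eq (hpl : p ≠ l) : finrank K Kl = l - 1 := by
  rw [IsCyclotomicExtension.finrank Kl (irreducible_cyclotomic p l K hpl),
    Nat.totient_prime hl.out]

include p in
/-- `Gal(Kl/K)` has `l - 1` elements. -/
theorem card_gal (hpl : p ≠ l) : Nat.card (Kl ≃ₐ[K] Kl) = l - 1 := by
  have := isGalois l K Kl
  rw [IsGalois.card_aut_eq_finrank, finrank_eq p l K Kl hpl]

include p in
/-- `Gal(Kl/K)` is cyclic. -/
theorem isCyclic_gal (hpl : p ≠ l) : IsCyclic (Kl ≃ₐ[K] Kl) :=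
  isCyclic_of_surjective
    (IsCyclotomicExtension.autEquivPow Kl (irreducible_cyclotomic p l K hpl)).symm
    (IsCyclotomicExtension.autEquivPow Kl (irreducible_cyclotomic p l K hpl)).symm.surjective

variable {Kl}

/-- An automorphism acts on all `l`-th roots of unity through the same exponent. -/
theorem apply_root_eq_pow {ζ : Kl} (hζ : IsPrimitiveRoot ζ l) (σ : Kl ≃ₐ[K] Kl) {a : ℕ}
    (ha : σ ζ = ζ ^ a) {η : Kl} (hη : η ^ l = 1) : σ η = η ^ a := by
  obtain ⟨i, -, rfl⟩ := hζ.eq_pow_of_pow_eq_one hη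
  rw [map_pow, ha, ← pow_mul, ← pow_mul, mul_comm]

include p in
/-- The explicit generator `τ` of `Gal(Kl/K)` attached to a primitive root `g` modulo `l`:
`τ ζ_l = ζ_l ^ g`, and every element of the Galois group is a power of `τ`. -/
theorem exists_tau (hpl : p ≠ l) {g : ℕ} (hg : orderOf (g : ZMod l) = l - 1) {ζ : Kl}
    (hζ : IsPrimitiveRoot ζ l) :
    ∃ τ : Kl ≃ₐ[K] Kl, τ ζ = ζ ^ g ∧ orderOf τ = l - 1 ∧
      ∀ x : Kl ≃ₐ[K] Kl, x ∈ Subgroup.zpowers τ := by
  have hirr := irreducible_cyclotomic p l K hpl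
  have hl1 : 1 < l := hl.out.one_lt
  -- `g` is a unit mod `l`
  have hg0 : (g : ZMod l) ≠ 0 := by
    intro h0
    rw [h0] at hg
    have : orderOf (0 : ZMod l) = 0 := by
      rw [orderOf_eq_zero_iff']
      intro n hn
      simp [zero_pow hn.ne']
    omega
  let u : (ZMod l)ˣ := Units.mk0 (g : ZMod l) hg0
  let e := IsCyclotomicExtension.autEquivPow Kl hirr
  have hzs := IsCyclotomicExtension.zeta_spec l K Kl
  have hτz : (e.symm u) (IsCyclotomicExtension.zeta l K Kl) =
      (IsCyclotomicExtension.zeta l K Kl) ^ g := by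
    have h2 : e (e.symm u) = u := e.apply_symm_apply u
    have h3 : hzs.autToPow K (e.symm u) = u := h2
    have h5 := hzs.autToPow_spec K (e.symm u)
    rw [← h5, h3]
    show _ ^ (ZMod.val (g : ZMod l)) = _
    rw [ZMod.val_natCast]
    have h6 := pow_mod_orderOf (IsCyclotomicExtension.zeta l K Kl) g
    rwa [← hzs.eq_orderOf] at h6
  have hord : orderOf (e.symm u) = l - 1 := by
    rw [MulEquiv.orderOf_eq e.symm u, ← hg]
    have : ((u : (ZMod l)ˣ) : ZMod l) = (g : ZMod l) := rfl
    rw [← this, orderOf_units]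
  refine ⟨e.symm u, ?_, hord, ?_⟩
  · exact apply_root_eq_pow l K hzs _ hτz hζ.pow_eq_one
  · have hcard := card_gal p l K Kl hpl
    have htop : Subgroup.zpowers (e.symm u) = ⊤ := by
      apply Subgroup.eq_top_of_card_eq
      rw [Nat.card_zpowers, hord, hcard]
    intro x
    rw [htop]
    trivial

end Galois

section Conductor

variable (p l : ℕ) [hp : Fact p.Prime] [hl : Fact l.Prime]
  (K : Type) [Field K] [NumberField K] [IsCyclotomicExtension {p} ℚ K]
  (Kl : Type) [Field Kl] [NumberField Kl] [Algebra K Kl] [IsCyclotomicExtension {l} K Kl]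

/-- The product of a primitive `p`-th and a primitive `l`-th root of unity is a primitive
`p * l`-th root of unity. -/
theorem isPrimitiveRoot_mul {M : Type*} [CommMonoid M] (hpl : p ≠ l) {z w : M}
    (hz : IsPrimitiveRoot z p)
    (hw : IsPrimitiveRoot w l) : IsPrimitiveRoot (z * w) (p * l) := by
  rw [IsPrimitiveRoot.iff_orderOf]
  rw [(Commute.all z w).orderOf_mul_eq_mul_orderOf_of_coprime, ← hz.eq_orderOf, ← hw.eq_orderOf]
  rw [← hz.eq_orderOf, ← hw.eq_orderOf]
  exact (Nat.coprime_primes hp.out hl.out).mpr hpl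

include K in
/-- `Kl = ℚ(ζ_p, ζ_l)` is the `p * l`-th cyclotomic extension of `ℚ`. -/
theorem isCyclotomicExtension_mul (hpl : p ≠ l) : IsCyclotomicExtension {p * l} ℚ Kl := by
  have h1 : IsCyclotomicExtension ({p} ∪ {l}) ℚ Kl :=
    IsCyclotomicExtension.trans {p} {l} ℚ K Kl (algebraMap K Kl).injective
  obtain ⟨z, hz⟩ := IsCyclotomicExtension.exists_isPrimitiveRoot ℚ K (Set.mem_singleton p)
    hp.out.ne_zero
  obtain ⟨w, hw⟩ := IsCyclotomicExtension.exists_isPrimitiveRoot K Kl (Set.mem_singleton l)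
    hl.out.ne_zero
  have hzw : IsPrimitiveRoot (algebraMap K Kl z * w) (p * l) :=
    isPrimitiveRoot_mul p l hpl (hz.map_of_injective (algebraMap K Kl).injective) hw
  have h2 : IsCyclotomicExtension ({p} ∪ {l} ∪ {p * l}) ℚ Kl :=
    IsCyclotomicExtension.union_of_isPrimitiveRoot _ ℚ Kl hzw
  have hne : p * l ≠ 0 := Nat.mul_ne_zero hp.out.ne_zero hl.out.ne_zero
  have hset : ({p} ∪ {l} ∪ {p * l} : Set ℕ) = {p * l} ∪ {p} ∪ {l} := by
    ext x
    simp only [Set.mem_union, Set.mem_singleton_iff]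
    tauto
  rw [hset] at h2
  have h3 : IsCyclotomicExtension ({p * l} ∪ {p}) ℚ Kl :=
    (IsCyclotomicExtension.iff_union_of_dvd ℚ Kl
      ⟨p * l, Or.inl rfl, hne, Dvd.intro_left p rfl⟩).mpr h2
  exact (IsCyclotomicExtension.iff_union_of_dvd ℚ Kl (S := {p * l})
      ⟨p * l, Set.mem_singleton _, hne, Dvd.intro l rfl⟩).mpr h3

end Conductor

end Fermat.Agent.Thaine.CycloTower
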