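/-
Program E2 (S14 via Thaine), helper20: the EXACT statements (as `Prop`s) of the pieces of (E2-TH),
Thaine's principal ideal.  `K = ℚ(ζ_p)`, `Kl = K(ζ_l)` for a prime `l ≡ 1 mod p` (ABSTRACT type
`Kl` with `[IsCyclotomicExtension {l} K Kl]`; the assembly instantiates `Kl := CyclotomicField l K`).
`G = Gal(Kl/K)` acts on `𝓞 Kl` and on its ideals by Mathlib's canonical actions (`σ • x`, `σ • I`).
-/
import Fermat.Agent.Thaine.Defs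

set_option autoImplicit false

namespace Fermat.Agent.Thaine.TowerDefs

open NumberField Fermat.Agent.Thaine.Defs
open scoped Pointwise

variable (p l : ℕ) [Fact p.Prime] [Fact l.Prime]
  (K : Type) [Field K] [NumberField K] [IsCyclotomicExtension {p} ℚ K]
  (Kl : Type) [Field Kl] [NumberField Kl] [Algebra K Kl] [IsCyclotomicExtension {l} K Kl]

/-- Thaine's cyclotomic unit `u = 1 - ζ_p ζ_l` of `Kl`. -/
noncomputable def thaineUnit (ζl : 𝓞 Kl) : 𝓞 Kl :=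
  1 - algebraMap (𝓞 K) (𝓞 Kl) (zetaI p K) * ζl

/-- (TH-irr) `Φ_l` is irreducible over `K = ℚ(ζ_p)` (`l ≠ p`). -/
def IrredStatement : Prop :=
  l % p = 1 → Irreducible (Polynomial.cyclotomic l K)

/-- (TH-gen) the generator `τ` of `Gal(Kl/K)` attached to a primitive root `g` mod `l`. -/
def GeneratorStatement : Prop :=
  l % p = 1 → ∀ g : ℕ, orderOf (g : ZMod l) = l - 1 →
    ∃ τ : Kl ≃ₐ[K] Kl, (∀ σ : Kl ≃ₐ[K] Kl, σ ∈ Subgroup.zpowers τ) ∧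
      ∀ z : 𝓞 Kl, z ^ l = 1 → τ • z = z ^ g

/-- (TH-unit) `u` is a unit of relative norm one, hence (Hilbert 90) `u * τ β = β` with `β ≠ 0`
integral. -/
def UnitStatement : Prop :=
  l % p = 1 → ∀ ζl : 𝓞 Kl, IsPrimitiveRoot ζl l →
    IsUnit (thaineUnit p K Kl ζl) ∧
    ∀ τ : Kl ≃ₐ[K] Kl, (∀ σ : Kl ≃ₐ[K] Kl, σ ∈ Subgroup.zpowers τ) →
      ∃ β : 𝓞 Kl, β ≠ 0 ∧ thaineUnit p K Kl ζl * τ • β = β

/-- (TH-unr) `Kl/K` is unramified outside `l`. -/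
def UnramStatement : Prop :=
  l % p = 1 → ∀ P : Ideal (𝓞 Kl), P.IsPrime → P ≠ ⊥ → (l : 𝓞 Kl) ∉ P →
    P.ramificationIdx (𝓞 K) = 1

/-- (TH-ram) the primes of `Kl` over `l`: totally ramified over `K` (the whole Galois group is
the inertia group), residue degree one over `K`, and `1 - ζ_l` is a uniformizer. -/
def OverLStatement : Prop :=
  l % p = 1 → ∀ 𝔔 : Ideal (𝓞 Kl), 𝔔.IsPrime → (l : 𝓞 Kl) ∈ 𝔔 →
    (∀ (σ : Kl ≃ₐ[K] Kl) (x : 𝓞 Kl), σ • x - x ∈ 𝔔) ∧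
    (∀ ζl : 𝓞 Kl, IsPrimitiveRoot ζl l → 1 - ζl ∈ 𝔔 ∧ 1 - ζl ∉ 𝔔 ^ 2) ∧
    Ideal.relNorm (𝓞 K) 𝔔 = 𝔔.under (𝓞 K)

end Fermat.Agent.Thaine.TowerDefs
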