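/-
Program E2 (S14 via Thaine), row E2-THa (helper29), parts (3)+(4): ramification in
`Kl = K(ζ_l)` over `K = ℚ(ζ_p)`, `p ≠ l` primes.

(3) A prime `Q` of `𝓞 Kl` above `l` is totally ramified over `K`: `e(Q|q) = l - 1`, `f(Q|q) = 1`,
    `Q` is the only prime above `q = Q ∩ 𝓞 K`, the whole Galois group is the inertia group of `Q`,
    and `1 - ζ_l` is a uniformizer at `Q`.
(4) A prime `Q` of `𝓞 Kl` not above `l` is unramified over `K`.
-/
import Mathlib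
import Fermat.Agent.Thaine.CycloTower
import Fermat.Agent.Thaine.TowerDefs
import Fermat.Agent.CFT.OmegaUnram

set_option autoImplicit false
set_option linter.unusedSectionVars false

namespace Fermat.Agent.Thaine.CycloTowerRam

open NumberField Polynomial Module Fermat.Agent.Thaine.CycloTower
open scoped Pointwise

variable (p l : ℕ) [hp : Fact p.Prime] [hl : Fact l.Prime]
  (K : Type) [Field K] [NumberField K] [IsCyclotomicExtension {p} ℚ K]
  (Kl : Type) [Field Kl] [NumberField Kl] [Algebra K Kl] [IsCyclotomicExtension {l} K Kl]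

section AboveL

variable {Kl}

/-- A prime containing `l` lies over `(l) ⊆ ℤ`. -/
theorem liesOver_span_of_mem {F : Type} [Field F] [NumberField F] (Q : Ideal (𝓞 F)) [Q.IsPrime]
    (hlQ : (l : 𝓞 F) ∈ Q) : Q.LiesOver (Ideal.span {(l : ℤ)}) := by
  constructor
  have hmax : (Ideal.span {(l : ℤ)}).IsMaximal :=
    Int.ideal_span_isMaximal_of_prime l
  have hle : Ideal.span {(l : ℤ)} ≤ Q.under ℤ := by
    rw [Ideal.span_le, Set.singleton_subset_iff]
    show (l : ℤ) ∈ Q.under ℤ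
    rw [Ideal.under_def, Ideal.mem_comap]
    simpa using hlQ
  exact hmax.eq_of_le (Ideal.IsPrime.under ℤ Q).ne_top hle

include p K in
/-- `e(Q|ℤ) = l - 1` for a prime `Q` of `𝓞 Kl` above `l`. -/
theorem ramificationIdx_int (hpl : p ≠ l) (Q : Ideal (𝓞 Kl)) [Q.IsPrime]
    (hlQ : (l : 𝓞 Kl) ∈ Q) : Q.ramificationIdx ℤ = l - 1 := by
  have := isCyclotomicExtension_mul p l K Kl hpl
  have := liesOver_span_of_mem l Q hlQ
  have hm : ¬ l ∣ p := fun h => hpl ((Nat.prime_dvd_prime_iff_eq hl.out hp.out).mp h).symm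
  have := IsCyclotomicExtension.Rat.ramificationIdx_eq (p * l) Kl Q (p := l) (k := 0) (m := p)
    (by ring) hm
  simpa using this

include p K in
/-- `f(Q|ℤ) = ord_p(l)` for a prime `Q` of `𝓞 Kl` above `l`. -/
theorem inertiaDeg_int (hpl : p ≠ l) (Q : Ideal (𝓞 Kl)) [Q.IsPrime]
    (hlQ : (l : 𝓞 Kl) ∈ Q) : Q.inertiaDeg ℤ = orderOf (l : ZMod p) := by
  have := isCyclotomicExtension_mul p l K Kl hpl
  have := liesOver_span_of_mem l Q hlQ
  have hm : ¬ l ∣ p := fun h => hpl ((Nat.prime_dvd_prime_iff_eq hl.out hp.out).mp h).symm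
  exact IsCyclotomicExtension.Rat.inertiaDeg_eq (p * l) Kl Q (p := l) (k := 0) (m := p)
    (by ring) hm

/-- `e(q|ℤ) = 1` for a prime `q` of `𝓞 K` above `l`. -/
theorem ramificationIdx_int_base (hpl : p ≠ l) (q : Ideal (𝓞 K)) [q.IsPrime]
    (hlq : (l : 𝓞 K) ∈ q) : q.ramificationIdx ℤ = 1 := by
  have := liesOver_span_of_mem l q hlq
  have hm : ¬ l ∣ p := fun h => hpl ((Nat.prime_dvd_prime_iff_eq hl.out hp.out).mp h).symm
  have : NeZero p := ⟨hp.out.ne_zero⟩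
  exact IsCyclotomicExtension.Rat.ramificationIdx_eq_of_not_dvd l K q hm

/-- `f(q|ℤ) = ord_p(l)` for a prime `q` of `𝓞 K` above `l`. -/
theorem inertiaDeg_int_base (hpl : p ≠ l) (q : Ideal (𝓞 K)) [q.IsPrime]
    (hlq : (l : 𝓞 K) ∈ q) : q.inertiaDeg ℤ = orderOf (l : ZMod p) := by
  have := liesOver_span_of_mem l q hlq
  have hm : ¬ l ∣ p := fun h => hpl ((Nat.prime_dvd_prime_iff_eq hl.out hp.out).mp h).symm
  have : NeZero p := ⟨hp.out.ne_zero⟩
  exact IsCyclotomicExtension.Rat.inertiaDeg_eq_of_not_dvd l K q hm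

/-- If `l ∈ Q` then `l ∈ Q ∩ 𝓞 K`. -/
theorem natCast_mem_under (Q : Ideal (𝓞 Kl)) (hlQ : (l : 𝓞 Kl) ∈ Q) :
    (l : 𝓞 K) ∈ Q.under (𝓞 K) := by
  rw [Ideal.under_def, Ideal.mem_comap]
  simpa using hlQ

include p in
/-- **Total ramification above `l`**: `e(Q|q) = l - 1`. -/
theorem ramificationIdx_of_mem (hpl : p ≠ l) (Q : Ideal (𝓞 Kl)) [Q.IsPrime]
    (hlQ : (l : 𝓞 Kl) ∈ Q) : Q.ramificationIdx (𝓞 K) = l - 1 := by
  have h1 := Ideal.ramificationIdx_tower (R := ℤ) (Q.under (𝓞 K)) Q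
  rw [ramificationIdx_int p l K hpl Q hlQ,
    ramificationIdx_int_base p l K hpl _ (natCast_mem_under l K Q hlQ), one_mul] at h1
  exact h1.symm

include p in
/-- **Total ramification above `l`**: `f(Q|q) = 1`. -/
theorem inertiaDeg_of_mem (hpl : p ≠ l) (Q : Ideal (𝓞 Kl)) [Q.IsPrime]
    (hlQ : (l : 𝓞 Kl) ∈ Q) : Q.inertiaDeg (𝓞 K) = 1 := by
  have h1 := Ideal.inertiaDeg_tower (R := ℤ) (Q.under (𝓞 K)) Q
  rw [inertiaDeg_int p l K hpl Q hlQ,
    inertiaDeg_int_base p l K hpl _ (natCast_mem_under l K Q hlQ)] at h1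
  have hpos : 0 < orderOf (l : ZMod p) := by
    have hm : ¬ l ∣ p := fun h => hpl ((Nat.prime_dvd_prime_iff_eq hl.out hp.out).mp h).symm
    have hu : IsUnit (l : ZMod p) := by
      rw [ZMod.isUnit_iff_coprime]
      exact (Nat.coprime_primes hl.out hp.out).mpr hpl.symm
    exact orderOf_pos_iff.mpr (isOfFinOrder_iff_isUnit.mpr hu)
  exact (Nat.eq_of_mul_eq_mul_left hpos (by rw [mul_one]; exact h1.symm))

include p in
/-- Above `l` the inertia group is the whole Galois group. -/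
theorem inertia_eq_top_of_mem (hpl : p ≠ l) (Q : Ideal (𝓞 Kl)) [Q.IsPrime]
    (hlQ : (l : 𝓞 Kl) ∈ Q) : Q.inertia (Kl ≃ₐ[K] Kl) = ⊤ := by
  have := isGalois l K Kl
  have hcard : Nat.card (Q.inertia (Kl ≃ₐ[K] Kl)) =
      (Q.under (𝓞 K)).ramificationIdxIn (𝓞 Kl) :=
    Ideal.card_inertia_eq_ramificationIdxIn (Q.under (𝓞 K)) Q
  rw [Ideal.ramificationIdxIn_eq_ramificationIdx (Q.under (𝓞 K)) Q (Kl ≃ₐ[K] Kl),
    ramificationIdx_of_mem p l K hpl Q hlQ, ← card_gal p l K Kl hpl] at hcard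
  exact Subgroup.eq_top_of_card_eq _ hcard

include p in
/-- Above `l` every automorphism of `Kl/K` acts trivially modulo `Q`. -/
theorem smul_sub_mem (hpl : p ≠ l) (Q : Ideal (𝓞 Kl)) [Q.IsPrime]
    (hlQ : (l : 𝓞 Kl) ∈ Q) (σ : Kl ≃ₐ[K] Kl) (x : 𝓞 Kl) : σ • x - x ∈ Q := by
  have h : σ ∈ Q.inertia (Kl ≃ₐ[K] Kl) := by
    rw [inertia_eq_top_of_mem p l K hpl Q hlQ]
    trivial
  exact h x

include p in
/-- Above `l` every automorphism of `Kl/K` fixes `Q`. -/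
theorem smul_ideal_eq_self (hpl : p ≠ l) (Q : Ideal (𝓞 Kl)) [Q.IsPrime]
    (hlQ : (l : 𝓞 Kl) ∈ Q) (σ : Kl ≃ₐ[K] Kl) : σ • Q = Q := by
  have key : ∀ (τ : Kl ≃ₐ[K] Kl) (x : 𝓞 Kl), x ∈ Q → τ • x ∈ Q := by
    intro τ x hx
    have := smul_sub_mem p l K hpl Q hlQ τ x
    have h2 : τ • x = (τ • x - x) + x := by ring
    rw [h2]
    exact Q.add_mem this hx
  ext y
  rw [Ideal.mem_pointwise_smul_iff_inv_smul_mem]
  constructor
  · intro hy
    have := key σ _ hy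
    rwa [smul_inv_smul] at this
  · intro hy
    exact key σ⁻¹ y hy

include p in
/-- Above `l` there is exactly one prime of `𝓞 Kl` over each prime of `𝓞 K`. -/
theorem eq_of_under_eq (hpl : p ≠ l) (Q Q' : Ideal (𝓞 Kl)) [Q.IsPrime] [Q'.IsPrime]
    (hlQ : (l : 𝓞 Kl) ∈ Q) (h : Q.under (𝓞 K) = Q'.under (𝓞 K)) : Q = Q' := by
  have := isGalois l K Kl
  have : Q'.LiesOver (Q.under (𝓞 K)) := ⟨h⟩
  obtain ⟨σ, hσ⟩ := Ideal.exists_smul_eq_of_isGaloisGroup (Q.under (𝓞 K)) Q Q' (Kl ≃ₐ[K] Kl)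
  rw [← hσ, smul_ideal_eq_self p l K hpl Q hlQ σ]

/-- `(ζ - 1) ^ (l - 1)` is associated to `l` in `𝓞 F`, for a primitive `l`-th root of unity `ζ`. -/
theorem associated_sub_one_pow {F : Type} [Field F] [NumberField F] {ζ : 𝓞 F}
    (hζ : IsPrimitiveRoot ζ l) : Associated ((ζ - 1) ^ (l - 1)) (l : 𝓞 F) := by
  have hζ' : IsPrimitiveRoot (ζ : F) l := hζ.map_of_injective RingOfIntegers.coe_injective
  have : NeZero l := ⟨hl.out.ne_zero⟩
  have h := IsCyclotomicExtension.Rat.associated_zeta_sub_one_pow_prime l hζ'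
  have h2 : hζ'.toInteger = ζ := RingOfIntegers.ext rfl
  rwa [h2] at h

/-- `1 - ζ_l` lies in every prime above `l`. -/
theorem one_sub_zeta_mem {F : Type} [Field F] [NumberField F] {ζ : 𝓞 F}
    (hζ : IsPrimitiveRoot ζ l) (Q : Ideal (𝓞 F)) [Q.IsPrime] (hlQ : (l : 𝓞 F) ∈ Q) :
    1 - ζ ∈ Q := by
  have h1 : (ζ - 1) ^ (l - 1) ∈ Q := by
    obtain ⟨u, hu⟩ := (associated_sub_one_pow l hζ).symm
    rw [← hu]
    exact Q.mul_mem_right _ hlQ
  have h2 := Ideal.IsPrime.mem_of_pow_mem inferInstance _ h1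
  have : 1 - ζ = -(ζ - 1) := by ring
  rw [this]
  exact Q.neg_mem h2

include p K in
/-- `1 - ζ_l` is a uniformizer at every prime of `𝓞 Kl` above `l`. -/
theorem one_sub_zeta_notMem_sq (hpl : p ≠ l) {ζ : 𝓞 Kl} (hζ : IsPrimitiveRoot ζ l)
    (Q : Ideal (𝓞 Kl)) [Q.IsPrime] (hlQ : (l : 𝓞 Kl) ∈ Q) : 1 - ζ ∉ Q ^ 2 := by
  intro hmem
  have hl2 : 2 ≤ l := hl.out.two_le
  have := liesOver_span_of_mem l Q hlQ
  have hmap : (Ideal.span {(l : ℤ)}).map (algebraMap ℤ (𝓞 Kl)) = Ideal.span {(l : 𝓞 Kl)} := by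
    rw [Ideal.map_span, Set.image_singleton]
    simp
  have hne : (Ideal.span {(l : ℤ)}).map (algebraMap ℤ (𝓞 Kl)) ≠ ⊥ := by
    rw [hmap, Ne, Ideal.span_singleton_eq_bot]
    exact_mod_cast hl.out.ne_zero
  have he := Ideal.IsDedekindDomain.ramificationIdx_eq_multiplicity (Ideal.span {(l : ℤ)}) Q hne
  rw [ramificationIdx_int p l K hpl Q hlQ, hmap] at he
  -- `Q ^ (2 (l - 1))` divides `(l)`
  have h1 : (ζ - 1) ∈ Q ^ 2 := by
    have : ζ - 1 = -(1 - ζ) := by ring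
    rw [this]
    exact (Q ^ 2).neg_mem hmem
  have h2 : (ζ - 1) ^ (l - 1) ∈ (Q ^ 2) ^ (l - 1) := Ideal.pow_mem_pow h1 _
  have h3 : (l : 𝓞 Kl) ∈ (Q ^ 2) ^ (l - 1) := by
    obtain ⟨u, hu⟩ := associated_sub_one_pow l hζ
    rw [← hu]
    exact Ideal.mul_mem_right _ _ h2
  have h4 : Q ^ (2 * (l - 1)) ∣ Ideal.span {(l : 𝓞 Kl)} := by
    rw [Ideal.dvd_iff_le, Ideal.span_le, Set.singleton_subset_iff, pow_mul]
    exact h3
  have hfin : FiniteMultiplicity Q (Ideal.span {(l : 𝓞 Kl)}) := by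
    apply FiniteMultiplicity.of_not_isUnit
    · rw [Ideal.isUnit_iff]
      exact Ideal.IsPrime.ne_top inferInstance
    · rw [← hmap]; exact hne
  have h5 := hfin.le_multiplicity_of_pow_dvd h4
  omega

include p in
/-- Above `l` the relative norm of `Q` is `Q ∩ 𝓞 K` (residue degree one). -/
theorem relNorm_of_mem (hpl : p ≠ l) (Q : Ideal (𝓞 Kl)) [Q.IsPrime]
    (hlQ : (l : 𝓞 Kl) ∈ Q) : Ideal.relNorm (𝓞 K) Q = Q.under (𝓞 K) := by
  have hl0 : (l : 𝓞 Kl) ≠ 0 := by exact_mod_cast hl.out.ne_zero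
  have hQ0 : Q ≠ ⊥ := fun h => hl0 (by rw [h] at hlQ; exact hlQ)
  have hl0' : (l : 𝓞 K) ≠ 0 := by exact_mod_cast hl.out.ne_zero
  have hq0 : Q.under (𝓞 K) ≠ ⊥ := fun h => hl0' (by
    have := natCast_mem_under l K Q hlQ
    rw [h] at this
    exact this)
  have : (Q.under (𝓞 K)).IsMaximal :=
    Ring.DimensionLEOne.maximalOfPrime hq0 (Ideal.IsPrime.under (𝓞 K) Q)
  have : Q.IsMaximal := Ring.DimensionLEOne.maximalOfPrime hQ0 inferInstance
  rw [Ideal.relNorm_eq_pow_of_isMaximal Q (Q.under (𝓞 K)), inertiaDeg_of_mem p l K hpl Q hlQ,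
    pow_one]

end AboveL

section AwayFromL

variable {Kl}

include l in
/-- A prime of `𝓞 Kl` not containing `l` has trivial inertia group in `Gal(Kl/K)`.
(True for any number field `K`; `p` plays no role.) -/
theorem inertia_eq_bot_of_notMem (Q : Ideal (𝓞 Kl)) [Q.IsPrime] (hlQ : (l : 𝓞 Kl) ∉ Q) :
    Q.inertia (Kl ≃ₐ[K] Kl) = ⊥ := by
  have : NeZero l := ⟨hl.out.ne_zero⟩
  rw [eq_bot_iff]
  intro σ hσ
  rw [Subgroup.mem_bot]
  have hζ := IsCyclotomicExtension.zeta_spec l K Kl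
  set ζ := IsCyclotomicExtension.zeta l K Kl with hζdef
  set ζ' : 𝓞 Kl := hζ.toInteger with hζ'
  have hζ'prim : IsPrimitiveRoot ζ' l := hζ.toInteger_isPrimitiveRoot
  obtain ⟨k, -, hk⟩ := hζ.eq_pow_of_pow_eq_one (ξ := σ ζ)
    (by rw [← map_pow, hζ.pow_eq_one, map_one])
  have hk' : σ • ζ' = ζ' ^ k := by
    apply RingOfIntegers.ext
    show σ ζ = ((ζ' ^ k : 𝓞 Kl) : Kl)
    rw [← hk]
    push_cast
    rfl
  have h2 : ζ' ^ k - ζ' ^ 1 ∈ Q := by
    rw [pow_one, ← hk']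
    exact hσ ζ'
  have h3 := Fermat.Agent.CFT.OmegaUnram.pow_eq_pow_of_sub_mem hζ'prim Q hlQ h2
  have hζfix : σ ζ = ζ := by
    rw [← hk]
    have := congrArg (fun x : 𝓞 Kl => (x : Kl)) h3
    simp only [pow_one] at this
    push_cast at this
    exact this
  apply IsCyclotomicExtension.algEquiv_eq_of_apply_eq (S := {l}) (A := K) (B := Kl)
  intro n hn _
  rw [Set.mem_singleton_iff] at hn
  subst hn
  exact ⟨ζ, hζ, by simpa using hζfix⟩

include l in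
/-- **Unramified away from `l`**: `e(Q|q) = 1` for every prime `Q` of `𝓞 Kl` not containing `l`. -/
theorem ramificationIdx_of_notMem (Q : Ideal (𝓞 Kl)) [Q.IsPrime] (hlQ : (l : 𝓞 Kl) ∉ Q) :
    Q.ramificationIdx (𝓞 K) = 1 := by
  have := isGalois l K Kl
  have hcard : Nat.card (Q.inertia (Kl ≃ₐ[K] Kl)) =
      (Q.under (𝓞 K)).ramificationIdxIn (𝓞 Kl) :=
    Ideal.card_inertia_eq_ramificationIdxIn (Q.under (𝓞 K)) Q
  rw [Ideal.ramificationIdxIn_eq_ramificationIdx (Q.under (𝓞 K)) Q (Kl ≃ₐ[K] Kl),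
    inertia_eq_bot_of_notMem l K Q hlQ, Subgroup.card_bot] at hcard
  exact hcard.symm

end AwayFromL

section Statements

open Fermat.Agent.Thaine.TowerDefs

/-- `l ≡ 1 mod p` forces `p ≠ l`. -/
theorem ne_of_mod_eq_one' (h : l % p = 1) : p ≠ l := by
  rintro rfl
  rw [Nat.mod_self] at h
  exact zero_ne_one h

/-- (TH-unr), verbatim `TowerDefs.UnramStatement`. -/
theorem unramStatement : UnramStatement p l K Kl := by
  intro _ P hP _ hlP
  exact ramificationIdx_of_notMem l K P hlP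

/-- (TH-ram), verbatim `TowerDefs.OverLStatement`. -/
theorem overLStatement : OverLStatement p l K Kl := by
  intro h Q hQ hlQ
  have hpl := ne_of_mod_eq_one' p l h
  refine ⟨fun σ x => smul_sub_mem p l K hpl Q hlQ σ x, fun ζl hζl => ⟨?_, ?_⟩, ?_⟩
  · exact one_sub_zeta_mem l hζl Q hlQ
  · exact one_sub_zeta_notMem_sq p l K hpl hζl Q hlQ
  · exact relNorm_of_mem p l K hpl Q hlQ

end Statements

end Fermat.Agent.Thaine.CycloTowerRam
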