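/-
Program E2 (S14 via Thaine), helper2: (TH-unr) `UnramStatement` of `Thaine/TowerDefs.lean`:
`Kl = K(ζ_l)` is unramified over `K` at every prime not containing `l`.
Proof: `CFT/OmegaUnram.inertia_eq_bot` (helper27) with `L := K`, then
`Thaine/CaseThree.ramificationIdx_eq_one_of_inertia_eq_bot` (helper27).
-/
import Mathlib
import Fermat.Agent.Thaine.TowerDefs
import Fermat.Agent.CFT.OmegaUnram
import Fermat.Agent.Thaine.CaseThree

set_option autoImplicit false
set_option linter.unusedSectionVars false
set_option linter.style.haveILetI false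

namespace Fermat.Agent.Thaine.CycloUnram

open NumberField
open Fermat.Agent.Thaine.Defs Fermat.Agent.Thaine.TowerDefs
open scoped Pointwise

/-- General form: `Ω = K(ζ_m)` (number fields) has trivial inertia over `K` at every prime
not containing `m`. -/
theorem inertia_eq_bot_of_cyclotomic {K Ω : Type} [Field K] [Field Ω] [NumberField K]
    [NumberField Ω] [Algebra K Ω] {m : ℕ} [NeZero m] [IsCyclotomicExtension {m} K Ω]
    (P : Ideal (𝓞 Ω)) [P.IsPrime] (hmP : (m : 𝓞 Ω) ∉ P) :
    P.inertia (Ω ≃ₐ[K] Ω) = ⊥ := by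
  have hζ : IsPrimitiveRoot (IsCyclotomicExtension.zeta m K Ω) m :=
    IsCyclotomicExtension.zeta_spec m K Ω
  have hΩ : IntermediateField.adjoin K {IsCyclotomicExtension.zeta m K Ω} = ⊤ := by
    apply IntermediateField.toSubalgebra_injective
    rw [IntermediateField.adjoin_simple_toSubalgebra_of_isAlgebraic
        (Algebra.IsIntegral.isIntegral _).isAlgebraic,
      IsCyclotomicExtension.adjoin_primitive_root_eq_top hζ, IntermediateField.top_toSubalgebra]
  refine Fermat.Agent.CFT.OmegaUnram.inertia_eq_bot (K := K) (L := K) hζ hΩ P hmP ?_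
  exact Subsingleton.elim _ _

/-- General form: `Ω = K(ζ_m)` is unramified over `K` at every nonzero prime not containing
`m`. -/
theorem ramificationIdx_eq_one_of_cyclotomic {K Ω : Type} [Field K] [Field Ω] [NumberField K]
    [NumberField Ω] [Algebra K Ω] {m : ℕ} [NeZero m] [IsCyclotomicExtension {m} K Ω]
    (P : Ideal (𝓞 Ω)) [P.IsPrime] (hP : P ≠ ⊥) (hmP : (m : 𝓞 Ω) ∉ P) :
    P.ramificationIdx (𝓞 K) = 1 := by
  haveI : IsGalois K Ω := IsCyclotomicExtension.isGalois {m} K Ω
  exact Fermat.Agent.Thaine.CaseThree.ramificationIdx_eq_one_of_inertia_eq_bot (K := K) P hP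
    (inertia_eq_bot_of_cyclotomic P hmP)

variable (p l : ℕ) [hp : Fact p.Prime] [hl : Fact l.Prime]
  (K : Type) [Field K] [NumberField K] [IsCyclotomicExtension {p} ℚ K]
  (Kl : Type) [Field Kl] [NumberField Kl] [Algebra K Kl] [IsCyclotomicExtension {l} K Kl]

/-- (TH-unr) -/
theorem unramStatement : UnramStatement p l K Kl := by
  intro _ P hP hP0 hlP
  haveI := hP
  haveI : NeZero l := ⟨hl.out.ne_zero⟩
  exact ramificationIdx_eq_one_of_cyclotomic (K := K) P hP0 hlP

end Fermat.Agent.Thaine.CycloUnram
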