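/-
Program E2 (S14 via Thaine), helper9: the `ω²`-eigen-property of `dt = ∏_c (1 - ζ^c)^[c⁻²]`:
if `σ ∈ Gal(K/ℚ)` acts on `μ_p` through `k`, then `σ dt = dt^(k²) · x^p` with `x ∈ Kˣ`.
-/
import Mathlib
import Fermat.Agent.Thaine.Defs

set_option autoImplicit false

namespace Fermat.Agent.Thaine.DtEigen

open NumberField Fermat.Agent.Thaine.Defs

variable (p : ℕ) [hp : Fact p.Prime] (K : Type) [Field K] [NumberField K]
  [IsCyclotomicExtension {p} ℚ K]

/-- `ζ` as an element of `K`. -/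
noncomputable def zK : K := IsCyclotomicExtension.zeta p ℚ K

theorem zK_spec : IsPrimitiveRoot (zK p K) p := IsCyclotomicExtension.zeta_spec p ℚ K

theorem coe_zetaI : ((zetaI p K : 𝓞 K) : K) = zK p K := rfl

theorem zK_pow_eq_pow_mod (n : ℕ) : zK p K ^ n = zK p K ^ (n % p) :=
  pow_eq_pow_mod n (zK_spec p K).pow_eq_one

/-- The factor `1 - ζ^c` in `K`. -/
noncomputable def fac (c : (ZMod p)ˣ) : K := 1 - zK p K ^ (c : ZMod p).val

theorem fac_ne_zero (c : (ZMod p)ˣ) : fac p K c ≠ 0 := by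
  unfold fac
  rw [sub_ne_zero]
  intro h
  have h1 := (zK_spec p K).pow_eq_one_iff_dvd (c : ZMod p).val |>.mp h.symm
  have h2 : (c : ZMod p).val < p := ZMod.val_lt _
  have h3 : (c : ZMod p).val ≠ 0 := by
    rw [Ne, ZMod.val_eq_zero]
    exact c.ne_zero
  exact h3 (Nat.eq_zero_of_dvd_of_lt h1 h2)

theorem coe_dt : ((dt p K : 𝓞 K) : K) = ∏ c : (ZMod p)ˣ, fac p K c ^ e2 p c := by
  unfold dt fac
  rw [RingOfIntegers.coe_eq_algebraMap, map_prod]
  apply Finset.prod_congr rfl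
  intro c _
  rw [map_pow, map_sub, map_one, map_pow]
  rfl

variable {p K}

theorem actsBy_not_dvd {σ : K ≃ₐ[ℚ] K} {k : ℕ} (h : ActsBy p K σ k) : ¬ p ∣ k := by
  intro hd
  have h1 := h (zK p K) (zK_spec p K).pow_eq_one
  rw [((zK_spec p K).pow_eq_one_iff_dvd k).mpr hd] at h1
  have h2 : zK p K = 1 := by
    apply σ.injective
    rw [h1, map_one]
  exact (zK_spec p K).ne_one hp.out.one_lt h2

theorem apply_fac {σ : K ≃ₐ[ℚ] K} {k : ℕ} (h : ActsBy p K σ k) (a : (ZMod p)ˣ)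
    (ha : (a : ZMod p) = k) (c : (ZMod p)ˣ) : σ (fac p K c) = fac p K (a * c) := by
  unfold fac
  rw [map_sub, map_one, map_pow, h (zK p K) (zK_spec p K).pow_eq_one, ← pow_mul,
    zK_pow_eq_pow_mod p K (k * _)]
  congr 2
  rw [Units.val_mul, ha, ZMod.val_mul, ZMod.val_natCast, Nat.mod_mul_mod]

theorem e2_mul (a c : (ZMod p)ˣ) (k : ℕ) (ha : (a : ZMod p) = k) :
    k ^ 2 * e2 p c = e2 p (a⁻¹ * c) + p * (k ^ 2 * e2 p c / p) := by
  have h1 : e2 p (a⁻¹ * c) = (k ^ 2 * e2 p c) % p := by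
    have h2 : ((k ^ 2 * e2 p c : ℕ) : ZMod p) =
        ((((a⁻¹ * c)⁻¹ : (ZMod p)ˣ) ^ 2 : (ZMod p)ˣ) : ZMod p) := by
      push_cast
      unfold e2
      rw [ZMod.natCast_zmod_val, ← ha]
      push_cast
      rw [mul_inv_rev, inv_inv]
      ring
    have h3 := congrArg ZMod.val h2
    rw [ZMod.val_natCast] at h3
    rw [h3]
    rfl
  rw [h1]
  exact (Nat.mod_add_div _ _).symm

variable (p K)

/-- **The `ω²`-eigen-property of `dt`.** -/
theorem dt_eigen (σ : K ≃ₐ[ℚ] K) (k : ℕ) (h : ActsBy p K σ k) :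
    ∃ x : K, x ≠ 0 ∧ σ (dt p K : K) = (dt p K : K) ^ (k ^ 2) * x ^ p := by
  have hk := actsBy_not_dvd h
  have hcop : Nat.Coprime k p := (Nat.Coprime.symm ((Nat.Prime.coprime_iff_not_dvd hp.out).mpr hk))
  set a : (ZMod p)ˣ := ZMod.unitOfCoprime k hcop with ha_def
  have ha : (a : ZMod p) = k := ZMod.coe_unitOfCoprime k hcop
  set w : K := ∏ c : (ZMod p)ˣ, fac p K c ^ (k ^ 2 * e2 p c / p) with hw
  have hw0 : w ≠ 0 := Finset.prod_ne_zero_iff.mpr (fun c _ => pow_ne_zero _ (fac_ne_zero p K c))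
  -- `σ dt` after reindexing
  have e1 : σ (dt p K : K) = ∏ c : (ZMod p)ˣ, fac p K c ^ e2 p (a⁻¹ * c) := by
    rw [coe_dt, map_prod]
    simp_rw [map_pow, apply_fac h a ha]
    apply Fintype.prod_equiv (Equiv.mulLeft a)
    intro c
    simp
  have e2' : (dt p K : K) ^ (k ^ 2) = σ (dt p K : K) * w ^ p := by
    rw [e1, coe_dt, hw, ← Finset.prod_pow, ← Finset.prod_pow, ← Finset.prod_mul_distrib]
    apply Finset.prod_congr rfl
    intro c _
    have hq := e2_mul a c k ha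
    generalize k ^ 2 * e2 p c / p = q at hq ⊢
    rw [← pow_mul, ← pow_mul, ← pow_add, mul_comm (e2 p c) (k ^ 2), hq, mul_comm q p]
  refine ⟨w⁻¹, inv_ne_zero hw0, ?_⟩
  rw [e2', inv_pow, mul_assoc, mul_inv_cancel₀ (pow_ne_zero p hw0), mul_one]

end Fermat.Agent.Thaine.DtEigen
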