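/-
Program E2 (Thaine track), piece (U2-b) (helper8): PURE ALGEBRA.

`M` an abelian group with an action of a finite group `Δ` of order prime to `p`, containing a
"cyclic" subgroup of finite exponent-index (`m • M ⊆ ⟨σ • η⟩`).  Then, modulo `p M` and `p`-power
torsion, the `χ`-eigenspace of `M / p M` is at most one-dimensional:

`exists_combination` : if `σ • uᵢ ≡ χ σ • uᵢ mod p M` (`i = 1, 2`) then there are integers
`x, y`, not both divisible by `p`, with `x • u₁ + y • u₂ = p • w + t`, `p ^ k • t = 0`.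

No `p`-adic numbers, no idempotents: we use the integers `T σ = (χ σ) ^ (p ^ k)` (Teichmüller
representatives mod `p ^ (k+1)`) and the operator `e = ∑ σ, T σ⁻¹ • σ`.
-/
import Mathlib

set_option autoImplicit false

namespace Fermat.Agent.Thaine.EigenCyclic

open Finset

variable {M : Type*} [AddCommGroup M] {Δ : Type*} [Group Δ] [Fintype Δ] [DistribMulAction Δ M]

/-- The operator `e = ∑ σ, T σ⁻¹ • σ`. -/
def eOp (T : Δ → ℤ) (u : M) : M := ∑ σ : Δ, T σ⁻¹ • (σ • u)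

theorem eOp_add (T : Δ → ℤ) (u v : M) : eOp T (u + v) = eOp T u + eOp T v := by
  simp only [eOp, smul_add, Finset.sum_add_distrib]

theorem eOp_zero (T : Δ → ℤ) : eOp T (0 : M) = 0 := by
  simp only [eOp, smul_zero, Finset.sum_const_zero]

theorem eOp_neg (T : Δ → ℤ) (u : M) : eOp T (-u) = - eOp T u := by
  simp only [eOp, smul_neg, Finset.sum_neg_distrib]

theorem eOp_sub (T : Δ → ℤ) (u v : M) : eOp T (u - v) = eOp T u - eOp T v := by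
  rw [sub_eq_add_neg, eOp_add, eOp_neg, ← sub_eq_add_neg]

theorem eOp_zsmul (T : Δ → ℤ) (z : ℤ) (u : M) : eOp T (z • u) = z • eOp T u := by
  simp only [eOp, Finset.smul_sum]
  refine Finset.sum_congr rfl fun σ _ => ?_
  rw [smul_comm σ z u, smul_comm z (T σ⁻¹)]

theorem eOp_nsmul (T : Δ → ℤ) (n : ℕ) (u : M) : eOp T (n • u) = n • eOp T u := by
  rw [← natCast_zsmul, eOp_zsmul, natCast_zsmul]

/-- `e ∘ τ ≡ T τ • e` modulo `q`, if `T` is multiplicative modulo `q`. -/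
theorem eOp_smul (T : Δ → ℤ) (q : ℤ) (hT : ∀ σ τ : Δ, q ∣ T (σ * τ) - T σ * T τ) (τ : Δ) (u : M) :
    ∃ w : M, eOp T (τ • u) = T τ • eOp T u + q • w := by
  choose d hd using hT
  refine ⟨∑ ρ : Δ, d τ ρ⁻¹ • (ρ • u), ?_⟩
  unfold eOp
  have hre : ∑ σ : Δ, T σ⁻¹ • (σ • τ • u) = ∑ ρ : Δ, T (τ * ρ⁻¹) • (ρ • u) := by
    refine Fintype.sum_equiv (Equiv.mulRight τ) _ _ (fun σ => ?_)
    simp only [Equiv.coe_mulRight, mul_inv_rev, mul_smul]
    rw [← mul_assoc, mul_inv_cancel, one_mul]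
  rw [hre, Finset.smul_sum, Finset.smul_sum, ← Finset.sum_add_distrib]
  refine Finset.sum_congr rfl fun ρ _ => ?_
  have h := hd τ ρ⁻¹
  have h' : T (τ * ρ⁻¹) = T τ * T ρ⁻¹ + q * d τ ρ⁻¹ := by linarith
  rw [h', add_smul, mul_smul, mul_smul]

/-- `e` maps the subgroup generated by the conjugates of `η` into `ℤ • e η + q M`. -/
theorem eOp_mem_closure (T : Δ → ℤ) (q : ℤ) (hT : ∀ σ τ : Δ, q ∣ T (σ * τ) - T σ * T τ) (η : M)
    {v : M} (hv : v ∈ AddSubgroup.closure (Set.range fun σ : Δ => σ • η)) :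
    ∃ (c : ℤ) (w : M), eOp T v = c • eOp T η + q • w := by
  induction hv using AddSubgroup.closure_induction with
  | mem x hx =>
    obtain ⟨σ, rfl⟩ := hx
    obtain ⟨w, hw⟩ := eOp_smul T q hT σ η
    exact ⟨T σ, w, hw⟩
  | zero => exact ⟨0, 0, by simp [eOp_zero]⟩
  | add x y _ _ hx hy =>
    obtain ⟨c1, w1, h1⟩ := hx
    obtain ⟨c2, w2, h2⟩ := hy
    refine ⟨c1 + c2, w1 + w2, ?_⟩
    rw [eOp_add, h1, h2, add_smul, smul_add]; abel
  | neg x _ hx =>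
    obtain ⟨c, w, h⟩ := hx
    refine ⟨-c, -w, ?_⟩
    rw [eOp_neg, h, neg_smul, smul_neg]; abel

/-- On a `χ`-eigenvector modulo `p`, `e` is multiplication by `|Δ|` modulo `p`. -/
theorem eOp_eigen (T chi : Δ → ℤ) (p : ℤ) (hTchi : ∀ σ : Δ, p ∣ T σ⁻¹ * chi σ - 1)
    (u : M) (hu : ∀ σ : Δ, ∃ w : M, σ • u - chi σ • u = p • w) :
    ∃ w : M, eOp T u = (Fintype.card Δ : ℤ) • u + p • w := by
  choose wσ hwσ using hu
  choose d hd using hTchi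
  refine ⟨∑ σ : Δ, d σ • u + ∑ σ : Δ, T σ⁻¹ • wσ σ, ?_⟩
  unfold eOp
  have h1 : ∀ σ : Δ, T σ⁻¹ • (σ • u) = u + p • (d σ • u + T σ⁻¹ • wσ σ) := by
    intro σ
    have e1 : σ • u = chi σ • u + p • wσ σ := by rw [← hwσ σ]; abel
    have e2 : T σ⁻¹ * chi σ = 1 + p * d σ := by have := hd σ; linarith
    rw [e1, smul_add, ← mul_smul, e2, add_smul, one_smul, mul_smul, smul_add,
      smul_comm (T σ⁻¹) p]
    abel
  rw [Finset.sum_congr rfl (fun σ _ => h1 σ), Finset.sum_add_distrib, ← Finset.smul_sum,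
    Finset.sum_add_distrib, Finset.sum_const, Finset.card_univ, natCast_zsmul]

/-- A pair of integers can be combined to `0` by coefficients not both divisible by `p`. -/
theorem exists_coeff {p : ℕ} (hp : p.Prime) (c₁ c₂ : ℤ) :
    ∃ x y : ℤ, ¬ ((p : ℤ) ∣ x ∧ (p : ℤ) ∣ y) ∧ x * c₁ + y * c₂ = 0 := by
  have hp1 : ¬ (p : ℤ) ∣ 1 := by
    intro h
    have := Int.natCast_dvd_natCast.mp (by simpa using h : ((p : ℕ) : ℤ) ∣ ((1 : ℕ) : ℤ))
    exact hp.one_lt.ne' (Nat.dvd_one.mp this)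
  by_cases h0 : c₁ = 0
  · exact ⟨1, 0, fun h => hp1 h.1, by simp [h0]⟩
  · set g : ℤ := (Int.gcd c₁ c₂ : ℤ) with hg
    have hg0 : g ≠ 0 := by
      rw [hg]
      exact_mod_cast (Int.gcd_pos_of_ne_zero_left c₂ h0).ne'
    obtain ⟨a, ha⟩ : g ∣ c₁ := Int.gcd_dvd_left c₁ c₂
    obtain ⟨b, hb⟩ : g ∣ c₂ := Int.gcd_dvd_right c₁ c₂
    refine ⟨-b, a, ?_, by rw [ha, hb]; ring⟩
    rintro ⟨hpb, hpa⟩
    rw [Int.dvd_neg] at hpb
    obtain ⟨a', rfl⟩ := hpa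
    obtain ⟨b', rfl⟩ := hpb
    have h1 : g * (p : ℤ) ∣ c₁ := ⟨a', by rw [ha]; ring⟩
    have h2 : g * (p : ℤ) ∣ c₂ := ⟨b', by rw [hb]; ring⟩
    have h3 : g * (p : ℤ) ∣ g := Int.dvd_coe_gcd h1 h2
    have h4 : g * (p : ℤ) ∣ g * 1 := by rwa [mul_one]
    exact hp1 ((mul_dvd_mul_iff_left hg0).mp h4)

/-- **(U2-b)** In an abelian group `M` with an action of a finite group `Δ` of order prime to `p`
which has a cyclic `ℤ[Δ]`-submodule `⟨σ • η⟩` with `m • M ⊆ ⟨σ • η⟩`, two `χ`-eigenvectors modulo `p`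
are dependent modulo `p M` and `p`-power torsion. -/
theorem exists_combination {p : ℕ} (hp : p.Prime) (hcard : ¬ p ∣ Fintype.card Δ)
    (chi : Δ → ℤ) (hchi1 : (p : ℤ) ∣ chi 1 - 1)
    (hchi : ∀ σ τ : Δ, (p : ℤ) ∣ chi (σ * τ) - chi σ * chi τ)
    (η : M) (m : ℕ) (hm : m ≠ 0)
    (hη : ∀ u : M, m • u ∈ AddSubgroup.closure (Set.range fun σ : Δ => σ • η))
    (u₁ u₂ : M)
    (h₁ : ∀ σ : Δ, ∃ w : M, σ • u₁ - chi σ • u₁ = (p : ℤ) • w)
    (h₂ : ∀ σ : Δ, ∃ w : M, σ • u₂ - chi σ • u₂ = (p : ℤ) • w) :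
    ∃ x y : ℤ, ¬ ((p : ℤ) ∣ x ∧ (p : ℤ) ∣ y) ∧
      ∃ w t : M, x • u₁ + y • u₂ = (p : ℤ) • w + t ∧ ∃ k : ℕ, (p ^ k) • t = 0 := by
  have := Fact.mk hp
  obtain ⟨k, m', hm', rfl⟩ := Nat.exists_eq_pow_mul_and_not_dvd hm p hp.ne_one
  set T : Δ → ℤ := fun σ => chi σ ^ (p ^ k) with hT
  set q : ℤ := (p : ℤ) ^ (k + 1) with hq
  have hTmul : ∀ σ τ : Δ, q ∣ T (σ * τ) - T σ * T τ := by
    intro σ τ
    have h := dvd_sub_pow_of_dvd_sub (hchi σ τ) k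
    simpa only [T, mul_pow] using h
  have hTp : ∀ σ : Δ, (p : ℤ) ∣ T σ - chi σ := by
    intro σ
    rw [← ZMod.intCast_zmod_eq_zero_iff_dvd]
    simp only [T]
    push_cast
    rw [ZMod.pow_card_pow, sub_self]
  have hTchi : ∀ σ : Δ, (p : ℤ) ∣ T σ⁻¹ * chi σ - 1 := by
    intro σ
    have a := hTp σ⁻¹
    have b := hchi σ⁻¹ σ
    rw [inv_mul_cancel] at b
    have e : T σ⁻¹ * chi σ - 1 =
        (T σ⁻¹ - chi σ⁻¹) * chi σ - (chi 1 - chi σ⁻¹ * chi σ) + (chi 1 - 1) := by ring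
    rw [e]
    exact dvd_add (dvd_sub (Dvd.dvd.mul_right a _) b) hchi1
  obtain ⟨c₁, w₁, e₁⟩ := eOp_mem_closure T q hTmul η (hη u₁)
  obtain ⟨c₂, w₂, e₂⟩ := eOp_mem_closure T q hTmul η (hη u₂)
  rw [eOp_nsmul] at e₁ e₂
  obtain ⟨v₁, f₁⟩ := eOp_eigen T chi p hTchi u₁ h₁
  obtain ⟨v₂, f₂⟩ := eOp_eigen T chi p hTchi u₂ h₂
  obtain ⟨x, y, hxy, hc⟩ := exists_coeff hp c₁ c₂
  refine ⟨x, y, hxy, ?_⟩
  -- Bezout for `p` and `m' * |Δ|`
  have hcop : IsCoprime (p : ℤ) ((m' * Fintype.card Δ : ℕ) : ℤ) := by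
    rw [Nat.isCoprime_iff_coprime]
    exact (Nat.Prime.coprime_iff_not_dvd hp).mpr
      (fun h => (hp.dvd_mul.mp h).elim hm' hcard)
  obtain ⟨a, b, hab⟩ := hcop
  set n : ℤ := (Fintype.card Δ : ℤ) with hn
  set z : M := x • u₁ + y • u₂ with hz
  -- the torsion element
  set t₀ : M := (m' : ℤ) • (x • eOp T u₁ + y • eOp T u₂) - (p : ℤ) • (x • w₁ + y • w₂) with ht₀
  have e₁' : ((p : ℤ) ^ k * (m' : ℤ)) • eOp T u₁ = c₁ • eOp T η + q • w₁ := by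
    rw [← e₁, ← natCast_zsmul]; push_cast; rfl
  have e₂' : ((p : ℤ) ^ k * (m' : ℤ)) • eOp T u₂ = c₂ • eOp T η + q • w₂ := by
    rw [← e₂, ← natCast_zsmul]; push_cast; rfl
  have htors : ((p : ℤ) ^ k) • t₀ = 0 := by
    have hq' : q = (p : ℤ) ^ k * p := by rw [hq, pow_succ]
    rw [hq'] at e₁' e₂'
    rw [ht₀]
    linear_combination (norm := module) x • e₁' + y • e₂' + hc • (eOp T η)
  refine ⟨a • z + b • ((x • w₁ + y • w₂) - (m' : ℤ) • (x • v₁ + y • v₂)), b • t₀, ?_, k, ?_⟩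
  · have hab' : a * (p : ℤ) + b * ((m' : ℤ) * n) = 1 := by
      rw [← hab, hn]; push_cast; ring
    rw [ht₀, hz]
    linear_combination (norm := module) (-(hab' • (x • u₁ + y • u₂))) - (b * (m' : ℤ) * x) • f₁ -
      (b * (m' : ℤ) * y) • f₂
  · rw [← natCast_zsmul, smul_comm]
    push_cast
    rw [htors, smul_zero]

end Fermat.Agent.Thaine.EigenCyclic
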