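/-
Program E2 (S14 via Thaine), helper7: existence of the Kummer extension `K' = K(d^(1/p))` as a
number field, for `d ∈ 𝓞 K` which is not a `p`-th power in `K`.
-/
import Mathlib

set_option autoImplicit false

open NumberField Polynomial

namespace Fermat.Agent.Thaine.KummerField

theorem exists_kummerField {K : Type} [Field K] [NumberField K] {p : ℕ} (hp : p.Prime) (d : 𝓞 K)
    (hd : ¬ ∃ x : K, x ^ p = (d : K)) :
    ∃ (K' : Type) (_ : Field K') (_ : NumberField K') (_ : Algebra K K') (θ : 𝓞 K'),
      Module.finrank K K' = p ∧ θ ^ p = algebraMap (𝓞 K) (𝓞 K') d := by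
  set f : K[X] := X ^ p - C (d : K) with hf
  have hirr : Irreducible f :=
    X_pow_sub_C_irreducible_of_prime hp (fun b hb => hd ⟨b, hb⟩)
  have : Fact (Irreducible f) := ⟨hirr⟩
  have hf0 : f ≠ 0 := hirr.ne_zero
  have hdeg : f.natDegree = p := natDegree_X_pow_sub_C
  have : CharZero (AdjoinRoot f) := charZero_of_injective_algebraMap
    (algebraMap K (AdjoinRoot f)).injective
  have : Module.Finite K (AdjoinRoot f) := (AdjoinRoot.powerBasis hf0).finite
  have : FiniteDimensional ℚ (AdjoinRoot f) := Module.Finite.trans K (AdjoinRoot f)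
  have : NumberField (AdjoinRoot f) := ⟨⟩
  have hroot : (AdjoinRoot.root f) ^ p = algebraMap K (AdjoinRoot f) (d : K) := by
    have h := AdjoinRoot.eval₂_root f
    rw [hf, eval₂_sub, eval₂_pow, eval₂_X, eval₂_C, sub_eq_zero] at h
    exact h
  have hint : IsIntegral ℤ (AdjoinRoot.root f) := by
    have h1 : IsIntegral ℤ ((AdjoinRoot.root f) ^ p) := by
      rw [hroot]
      exact (RingOfIntegers.isIntegral_coe d).map (algebraMap K (AdjoinRoot f)).toIntAlgHom
    exact IsIntegral.of_pow hp.pos h1
  refine ⟨AdjoinRoot f, inferInstance, inferInstance, inferInstance, ⟨AdjoinRoot.root f, hint⟩,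
    ?_, ?_⟩
  · rw [(AdjoinRoot.powerBasis hf0).finrank, AdjoinRoot.powerBasis_dim, hdeg]
  · apply RingOfIntegers.ext
    show (AdjoinRoot.root f) ^ p = _
    rw [hroot]
    rfl

end Fermat.Agent.Thaine.KummerField
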