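/-
Program E2 (Thaine track), piece (AN-split), helper5.

Splitting criterion in a Kummer extension, without Kummer-Dedekind: `K` a number field containing a
primitive `p`-th root of unity `ζ`, `d ∈ 𝓞 K` not a `p`-th power in `K`, `K'/K` of degree `p` with
`θ ∈ 𝓞 K'`, `θ ^ p = d`.  If `q` is a prime of `K` of prime absolute norm with `p ∉ q` and
`d ≡ x ^ p mod q`, `x ∉ q`, then the ideals `Q_i = q 𝓞 K' + (θ - ζ^i x)`, `i < p`, are `p` distinct
primes of `K'` over `q` of the same absolute norm (`exists_primes_over`).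
-/
import Mathlib

set_option autoImplicit false
set_option linter.unusedSectionVars false
set_option linter.style.haveILetI false

open NumberField Polynomial Module IntermediateField

namespace Fermat.Agent.Thaine.KummerSplit

section Field

variable {K K' : Type*} [Field K] [Field K'] [Algebra K K'] [FiniteDimensional K K']

/-- Kummer automorphism: if `[K':K] = p`, `α ^ p = a` with `a` not a `p`-th power in `K`, and
`ζ ∈ K` is a primitive `p`-th root of unity, there is `τ ∈ Gal(K'/K)` with `τ α = ζ α`. -/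
theorem exists_aut {p : ℕ} (hp : p.Prime) {ζ : K} (hζ : IsPrimitiveRoot ζ p) {a : K}
    (ha : ∀ y : K, y ^ p ≠ a) {α : K'} (hα : α ^ p = algebraMap K K' a)
    (hdeg : finrank K K' = p) :
    ∃ τ : K' ≃ₐ[K] K', τ α = algebraMap K K' ζ * α := by
  have H : Irreducible (X ^ p - C a) := X_pow_sub_C_irreducible_of_prime hp ha
  have hint : IsIntegral K α := IsIntegral.of_finite K α
  have hmin : minpoly K α = X ^ p - C a := by
    symm
    refine minpoly.eq_of_irreducible_of_monic H ?_ (monic_X_pow_sub_C a hp.ne_zero)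
    simp [hα]
  have htop : K⟮α⟯ = ⊤ := by
    apply IntermediateField.eq_of_le_of_finrank_eq le_top
    rw [IntermediateField.adjoin.finrank hint, hmin, natDegree_X_pow_sub_C,
      IntermediateField.finrank_top', hdeg]
  subst hdeg
  have hK : (primitiveRoots (finrank K K') K).Nonempty :=
    ⟨ζ, (mem_primitiveRoots hp.pos).mpr hζ⟩
  haveI := isSplittingField_X_pow_sub_C_of_root_adjoin_eq_top hK hα htop
  haveI : NeZero (finrank K K') := ⟨hp.ne_zero⟩
  refine ⟨(autEquivZmod H K' hζ).symm (Multiplicative.ofAdd ((1 : ℕ) : ZMod (finrank K K'))), ?_⟩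
  rw [autEquivZmod_symm_apply_natCast H K' hα hζ 1, pow_one, Algebra.smul_def]

end Field

section General

variable {R : Type*} [CommRing R]

theorem absNorm_map_ringEquiv [IsDedekindDomain R] [Module.Free ℤ R] [Module.Finite ℤ R]
    (e : R ≃+* R) (I : Ideal R) : Ideal.absNorm (I.map (e : R →+* R)) = Ideal.absNorm I := by
  rw [Ideal.absNorm_apply, Ideal.absNorm_apply, Submodule.cardQuot_apply, Submodule.cardQuot_apply]
  have e' : R ⧸ I ≃+* R ⧸ (I.map (e : R →+* R)) := Ideal.quotientEquiv I _ e rfl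
  exact (Nat.card_congr e'.toEquiv).symm

theorem sup_span_mul_le (A : Ideal R) (a b : R) :
    (A ⊔ Ideal.span {a}) * (A ⊔ Ideal.span {b}) ≤ A ⊔ Ideal.span {a * b} := by
  rw [Ideal.sup_mul, Ideal.mul_sup, Ideal.mul_sup, Ideal.span_singleton_mul_span_singleton]
  refine sup_le (sup_le ?_ ?_) (sup_le ?_ le_sup_right)
  · exact le_sup_of_le_left Ideal.mul_le_right
  · exact le_sup_of_le_left Ideal.mul_le_left
  · exact le_sup_of_le_left Ideal.mul_le_right

theorem prod_sup_span_le {ι : Type*} (s : Finset ι) (A : Ideal R) (f : ι → R) :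
    ∏ i ∈ s, (A ⊔ Ideal.span {f i}) ≤ A ⊔ Ideal.span {∏ i ∈ s, f i} := by
  classical
  induction s using Finset.induction_on with
  | empty => simp
  | insert i s hi ih =>
    rw [Finset.prod_insert hi, Finset.prod_insert hi]
    exact (Ideal.mul_mono_right ih).trans (sup_span_mul_le A _ _)

end General

section Main

variable {K K' : Type*} [Field K] [NumberField K] [Field K'] [NumberField K'] [Algebra K K']

/-- The candidate primes above `q`. -/
def Qi (q : Ideal (𝓞 K)) (θ : 𝓞 K') (ζ x : 𝓞 K) (i : ℕ) : Ideal (𝓞 K') :=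
  q.map (algebraMap (𝓞 K) (𝓞 K')) ⊔ Ideal.span {θ - algebraMap (𝓞 K) (𝓞 K') (ζ ^ i * x)}

theorem map_le_Qi (q : Ideal (𝓞 K)) (θ : 𝓞 K') (ζ x : 𝓞 K) (i : ℕ) :
    q.map (algebraMap (𝓞 K) (𝓞 K')) ≤ Qi q θ ζ x i := le_sup_left

/-- The ring automorphism of `𝓞 K'` induced by `τ`. -/
noncomputable def sig (τ : K' ≃ₐ[K] K') : 𝓞 K' ≃+* 𝓞 K' :=
  MulSemiringAction.toRingEquiv (K' ≃ₐ[K] K') (𝓞 K') τ

theorem coe_sig (τ : K' ≃ₐ[K] K') (y : 𝓞 K') : ((sig τ y : 𝓞 K') : K') = τ (y : K') := rfl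

theorem coe_algebraMap (y : 𝓞 K) :
    ((algebraMap (𝓞 K) (𝓞 K') y : 𝓞 K') : K') = algebraMap K K' (y : K) :=
  (IsScalarTower.algebraMap_apply (𝓞 K) (𝓞 K') K' y).symm.trans
    (IsScalarTower.algebraMap_apply (𝓞 K) K K' y)

theorem sig_algebraMap (τ : K' ≃ₐ[K] K') (y : 𝓞 K) :
    sig τ (algebraMap (𝓞 K) (𝓞 K') y) = algebraMap (𝓞 K) (𝓞 K') y := by
  apply RingOfIntegers.ext
  rw [coe_sig, coe_algebraMap, τ.commutes]

theorem map_sig_Qi (τ : K' ≃ₐ[K] K') (q : Ideal (𝓞 K)) (θ : 𝓞 K') (ζ x : 𝓞 K)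
    (hζ : IsUnit ζ)
    (hτ : τ (θ : K') = algebraMap K K' (ζ : K) * (θ : K')) (i : ℕ) :
    (Qi q θ ζ x (i + 1)).map (sig τ : 𝓞 K' →+* 𝓞 K') = Qi q θ ζ x i := by
  have hθ : sig τ θ = algebraMap (𝓞 K) (𝓞 K') ζ * θ := by
    apply RingOfIntegers.ext
    rw [coe_sig, hτ]
    have : ((algebraMap (𝓞 K) (𝓞 K') ζ * θ : 𝓞 K') : K') =
        ((algebraMap (𝓞 K) (𝓞 K') ζ : 𝓞 K') : K') * (θ : K') := map_mul _ _ _
    rw [this, coe_algebraMap]
  unfold Qi
  rw [Ideal.map_sup, Ideal.map_map, Ideal.map_span, Set.image_singleton]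
  congr 1
  · congr 1
    ext y
    exact congrArg _ (sig_algebraMap τ y)
  · have : (sig τ : 𝓞 K' →+* 𝓞 K') (θ - algebraMap (𝓞 K) (𝓞 K') (ζ ^ (i + 1) * x)) =
        algebraMap (𝓞 K) (𝓞 K') ζ * (θ - algebraMap (𝓞 K) (𝓞 K') (ζ ^ i * x)) := by
      rw [map_sub, RingHom.coe_coe, sig_algebraMap, hθ, pow_succ, mul_sub, ← map_mul]
      ring_nf
    rw [this]
    exact Ideal.span_singleton_mul_left_unit (hζ.map _) _

end Main

section Main

variable {K K' : Type*} [Field K] [NumberField K] [Field K'] [NumberField K'] [Algebra K K']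

theorem one_sub_pow_dvd {p : ℕ} (hp : p.Prime) {ζ : 𝓞 K} (hζ : IsPrimitiveRoot ζ p) {k : ℕ}
    (hk0 : 0 < k) (hkp : k < p) : (1 - ζ ^ k) ∣ (p : 𝓞 K) := by
  obtain ⟨n, rfl⟩ : ∃ n, p = n + 1 := ⟨p - 1, (Nat.succ_pred_eq_of_pos hp.pos).symm⟩
  have h := hζ.prod_one_sub_pow_eq_order
  obtain ⟨m, rfl⟩ : ∃ m, k = m + 1 := ⟨k - 1, (Nat.succ_pred_eq_of_pos hk0).symm⟩
  have hm : m ∈ Finset.range n := Finset.mem_range.mpr (by omega)
  have := Finset.dvd_prod_of_mem (fun k => (1 - ζ ^ (k + 1))) hm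
  rw [h] at this
  simpa using this

theorem Qi_sup_Qi {p : ℕ} (hp : p.Prime) {ζ : 𝓞 K} (hζ : IsPrimitiveRoot ζ p)
    (q : Ideal (𝓞 K)) [hq : q.IsMaximal] (hqp : (p : 𝓞 K) ∉ q) (θ : 𝓞 K') (x : 𝓞 K) (hxq : x ∉ q)
    {i j : ℕ} (hij : i < j) (hjp : j < p) : Qi q θ ζ x i ⊔ Qi q θ ζ x j = ⊤ := by
  have hprime : q.IsPrime := hq.isPrime
  set w : 𝓞 K := ζ ^ i * x * (1 - ζ ^ (j - i)) with hw
  have hwq : w ∉ q := by
    intro h
    rcases hprime.mem_or_mem h with h1 | h1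
    · rcases hprime.mem_or_mem h1 with h2 | h2
      · have : ζ ^ p ∈ q := by
          have hip : p = i + (p - i) := by omega
          rw [hip, pow_add]
          exact Ideal.mul_mem_right _ _ h2
        rw [hζ.pow_eq_one] at this
        exact hprime.ne_top ((Ideal.eq_top_iff_one _).mpr this)
      · exact hxq h2
    · obtain ⟨c, hc⟩ := one_sub_pow_dvd hp hζ (k := j - i) (by omega) (by omega)
      apply hqp
      rw [hc]
      exact Ideal.mul_mem_right _ _ h1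
  obtain ⟨y, t, ht, hyt⟩ := hq.exists_inv hwq
  rw [Ideal.eq_top_iff_one]
  have h1 : algebraMap (𝓞 K) (𝓞 K') w ∈ Qi q θ ζ x i ⊔ Qi q θ ζ x j := by
    have : algebraMap (𝓞 K) (𝓞 K') w =
        (θ - algebraMap (𝓞 K) (𝓞 K') (ζ ^ j * x)) - (θ - algebraMap (𝓞 K) (𝓞 K') (ζ ^ i * x)) := by
      have hji : ζ ^ j = ζ ^ i * ζ ^ (j - i) := by rw [← pow_add]; congr 1; omega
      rw [sub_sub_sub_cancel_left, ← map_sub, hw, hji]
      congr 1
      ring
    rw [this]
    apply Ideal.sub_mem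
    · exact Ideal.mem_sup_right (Ideal.mem_sup_right (Ideal.subset_span rfl))
    · exact Ideal.mem_sup_left (Ideal.mem_sup_right (Ideal.subset_span rfl))
  have h2 : algebraMap (𝓞 K) (𝓞 K') t ∈ Qi q θ ζ x i ⊔ Qi q θ ζ x j :=
    Ideal.mem_sup_left (Ideal.mem_sup_left (Ideal.mem_map_of_mem _ ht))
  have : (1 : 𝓞 K') = algebraMap (𝓞 K) (𝓞 K') y * algebraMap (𝓞 K) (𝓞 K') w +
      algebraMap (𝓞 K) (𝓞 K') t := by
    rw [← map_mul, ← map_add, hyt, map_one]
  rw [this]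
  exact Ideal.add_mem _ (Ideal.mul_mem_left _ _ h1) h2

theorem prod_Qi_le {p : ℕ} (hp : p.Prime) {ζ : 𝓞 K} (hζ : IsPrimitiveRoot ζ p)
    (q : Ideal (𝓞 K)) (d : 𝓞 K) (θ : 𝓞 K') (hθ : θ ^ p = algebraMap (𝓞 K) (𝓞 K') d)
    (x : 𝓞 K) (hx : x ^ p - d ∈ q) :
    ∏ i ∈ Finset.range p, Qi q θ ζ x i ≤ q.map (algebraMap (𝓞 K) (𝓞 K')) := by
  unfold Qi
  refine (prod_sup_span_le _ _ _).trans ?_
  refine sup_le le_rfl ?_
  rw [Ideal.span_singleton_le_iff_mem]
  have hinj : Function.Injective (algebraMap (𝓞 K) (𝓞 K')) :=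
    FaithfulSMul.algebraMap_injective _ _
  have hζ' : IsPrimitiveRoot (algebraMap (𝓞 K) (𝓞 K') ζ) p := hζ.map_of_injective hinj
  have key := X_pow_sub_C_eq_prod hζ' hp.pos
    (rfl : (algebraMap (𝓞 K) (𝓞 K') x) ^ p = (algebraMap (𝓞 K) (𝓞 K') x) ^ p)
  have key2 := congrArg (Polynomial.eval θ) key
  simp only [eval_sub, eval_pow, eval_X, eval_C, eval_prod] at key2
  have : ∏ i ∈ Finset.range p, (θ - algebraMap (𝓞 K) (𝓞 K') (ζ ^ i * x)) =
      algebraMap (𝓞 K) (𝓞 K') (d - x ^ p) := by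
    rw [map_sub, map_pow, ← hθ, key2]
    refine Finset.prod_congr rfl fun i _ => ?_
    rw [map_mul, map_pow]
  rw [this]
  apply Ideal.mem_map_of_mem
  have : d - x ^ p = -(x ^ p - d) := by ring
  rw [this]
  exact Ideal.neg_mem_iff _ |>.mpr hx

end Main

section Main

variable {K K' : Type*} [Field K] [NumberField K] [Field K'] [NumberField K'] [Algebra K K']

theorem absNorm_Qi (τ : K' ≃ₐ[K] K') (q : Ideal (𝓞 K)) (θ : 𝓞 K') (ζ x : 𝓞 K)
    (hζ : IsUnit ζ)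
    (hτ : τ (θ : K') = algebraMap K K' (ζ : K) * (θ : K')) (i : ℕ) :
    Ideal.absNorm (Qi q θ ζ x i) = Ideal.absNorm (Qi q θ ζ x 0) := by
  induction i with
  | zero => rfl
  | succ i ih =>
    rw [← ih, ← map_sig_Qi τ q θ ζ x hζ hτ i, absNorm_map_ringEquiv]

theorem prod_Qi_eq {p : ℕ} (hp : p.Prime) {ζ : 𝓞 K} (hζ : IsPrimitiveRoot ζ p)
    (q : Ideal (𝓞 K)) [hq : q.IsMaximal] (hqp : (p : 𝓞 K) ∉ q)
    (d : 𝓞 K) (θ : 𝓞 K') (hθ : θ ^ p = algebraMap (𝓞 K) (𝓞 K') d)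
    (x : 𝓞 K) (hx : x ^ p - d ∈ q) (hxq : x ∉ q) :
    ∏ i ∈ Finset.range p, Qi q θ ζ x i = q.map (algebraMap (𝓞 K) (𝓞 K')) := by
  apply dvd_antisymm
  · apply Finset.prod_dvd_of_coprime
    · intro i hi j hj hij
      rw [Function.onFun, Ideal.isCoprime_iff_sup_eq]
      rw [Finset.coe_range, Set.mem_Iio] at hi hj
      rcases lt_or_gt_of_ne hij with h | h
      · exact Qi_sup_Qi hp hζ q hqp θ x hxq h hj
      · rw [sup_comm]; exact Qi_sup_Qi hp hζ q hqp θ x hxq h hi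
    · intro i _
      exact Ideal.dvd_iff_le.mpr (map_le_Qi q θ ζ x i)
  · exact Ideal.dvd_iff_le.mpr (prod_Qi_le hp hζ q d θ hθ x hx)

/-- **Splitting criterion.** `K ∋ ζ_p`, `K'/K` of degree `p` containing a `p`-th root `θ` of
`d ∈ 𝓞 K`, `d` not a `p`-th power in `K`. If `q` is a prime of `K` of prime norm not containing
`p` and `d ≡ x ^ p mod q` with `x ∉ q`, there are `p` distinct primes of `K'` over `q` with the same
absolute norm. -/
theorem exists_primes_over {p : ℕ} (hp : p.Prime) {ζ : 𝓞 K} (hζ : IsPrimitiveRoot ζ p)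
    (d : 𝓞 K) (hd : ∀ y : K, y ^ p ≠ (d : K)) (θ : 𝓞 K')
    (hθ : θ ^ p = algebraMap (𝓞 K) (𝓞 K') d) (hdeg : finrank K K' = p)
    (q : Ideal (𝓞 K)) [hq : q.IsMaximal] (hl : (Ideal.absNorm q).Prime)
    (hqp : (p : 𝓞 K) ∉ q) (x : 𝓞 K) (hx : x ^ p - d ∈ q) (hxq : x ∉ q) :
    ∃ Q : Fin p → Ideal (𝓞 K'), Function.Injective Q ∧
      ∀ i, (Q i).IsPrime ∧ (Q i).under (𝓞 K) = q ∧ Ideal.absNorm (Q i) = Ideal.absNorm q := by
  have hζK : IsPrimitiveRoot (ζ : K) p :=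
    hζ.map_of_injective (FaithfulSMul.algebraMap_injective (𝓞 K) K)
  have hθK : (θ : K') ^ p = algebraMap K K' (d : K) := by
    have : ((θ ^ p : 𝓞 K') : K') = ((algebraMap (𝓞 K) (𝓞 K') d : 𝓞 K') : K') := by rw [hθ]
    rw [coe_algebraMap] at this
    rw [← this]
    exact (map_pow (algebraMap (𝓞 K') K') θ p).symm
  obtain ⟨τ, hτ⟩ := exists_aut hp hζK hd hθK hdeg
  have hζu : IsUnit ζ := hζ.isUnit hp.ne_zero
  have hN : ∀ i, Ideal.absNorm (Qi q θ ζ x i) = Ideal.absNorm q := by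
    have hall := absNorm_Qi τ q θ ζ x hζu hτ
    have hprod := congrArg Ideal.absNorm (prod_Qi_eq hp hζ q hqp d θ hθ x hx hxq)
    rw [map_prod, Ideal.absNorm_algebraMap, ← IsFractionRing.finrank_eq (𝓞 K) K (𝓞 K') K', hdeg,
      Finset.prod_congr rfl (fun i _ => hall i), Finset.prod_const, Finset.card_range] at hprod
    have h0 := Nat.pow_left_injective hp.ne_zero hprod
    intro i
    rw [hall i, h0]
  have hne : ∀ i, Qi q θ ζ x i ≠ ⊤ := by
    intro i h
    have := hN i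
    rw [h, Ideal.absNorm_top] at this
    exact hl.one_lt.ne this
  refine ⟨fun i => Qi q θ ζ x i, ?_, fun i => ⟨?_, ?_, hN i⟩⟩
  · intro i j hij
    by_contra hne'
    have hij' : (i : ℕ) ≠ j := fun h => hne' (Fin.ext h)
    simp only at hij
    rcases lt_or_gt_of_ne hij' with h | h
    · have := Qi_sup_Qi hp hζ q hqp θ x hxq h j.2
      rw [hij, sup_idem] at this
      exact hne _ this
    · have := Qi_sup_Qi hp hζ q hqp θ x hxq h i.2
      rw [hij, sup_idem] at this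
      exact hne _ this
  · apply Ideal.isPrime_of_irreducible_absNorm
    rw [hN i]
    exact hl.prime.irreducible
  · symm
    apply hq.eq_of_le
    · intro h
      apply hne i
      rw [Ideal.under_def] at h
      exact Ideal.comap_eq_top_iff.mp h
    · rw [Ideal.under_def, ← Ideal.map_le_iff_le_comap]
      exact map_le_Qi q θ ζ x i

end Main

end Fermat.Agent.Thaine.KummerSplit
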