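import Mathlib
import Fermat.Agent.Thaine.Defs
import Fermat.Agent.Thaine.KummerSplit
import Fermat.Agent.Thaine.KummerField
import Fermat.Agent.CFT.FirstIneq
import Fermat.Agent.CFT.NotAllSplit

/-!
# FACT G (E2-AN): the good primes generate the class group

`factG` : for `K = ℚ(ζ_p)`, `p ≥ 3`, if `dt` is not a `p`-th power in `K` then every subgroup of the
class group containing the classes of all good primes is everything.
-/

set_option autoImplicit false
set_option linter.unusedSectionVars false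
set_option linter.unusedVariables false

open NumberField Ideal IsDedekindDomain nonZeroDivisors Polynomial
open Fermat.Agent.CFT.C1ClassDefs Fermat.Agent.CFT.FirstIneqCore Fermat.Agent.CFT.SplitPrimes
  Fermat.Agent.CFT.NotAllSplit

namespace Fermat.Agent.Thaine.FactG

section General

variable (K : Type*) [Field K] [NumberField K]

/-- (ID) the primes of prime absolute norm have density one. -/
theorem log_le_absDegOne :
    ∃ B, ∀ s ∈ Set.Ioc (1:ℝ) 2,
      Real.log (1 / (s - 1)) - B ≤ (absDegOne K).primeIdealZetaSum s := by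
  have hset : goodPrimes K 1 = absDegOne K := by
    ext q
    simp only [goodPrimes, absDegOne, Set.mem_ofPred_eq, Nat.dvd_one, and_iff_left_iff_imp]
    intro h
    exact h.ne_one
  obtain ⟨B, hB⟩ := primeZeta_bound K
  refine ⟨B + (Module.finrank ℚ K * primeZeta ℚ 2 + (smallPrimes K 1).ncard), fun s hs => ?_⟩
  have h1 := (abs_le.mp (hB s hs)).1
  have h2 := primeZeta_le_goodPrimes K one_ne_zero hs.1
  rw [hset] at h2
  linarith

/-- The primes of prime norm, not over `p`, modulo which `d` is a nonzero `p`-th power. -/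
def resPrimes (p : ℕ) (d : 𝓞 K) : Set (HeightOneSpectrum (𝓞 K)) :=
  {q | (absNorm q.asIdeal).Prime ∧ (p : 𝓞 K) ∉ q.asIdeal ∧
    ∃ x : 𝓞 K, x ∉ q.asIdeal ∧ x ^ p - d ∈ q.asIdeal}

/-- The primes containing a given nonzero element, as a finset. -/
theorem finite_primes_mem {a : 𝓞 K} (ha : a ≠ 0) :
    {q : HeightOneSpectrum (𝓞 K) | a ∈ q.asIdeal}.Finite := by
  have h0 : Ideal.span {a} ≠ 0 := by
    rw [Ne, Ideal.zero_eq_bot, Ideal.span_singleton_eq_bot]; exact ha
  refine (Ideal.finite_factors h0).subset ?_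
  intro q hq
  simp only [Set.mem_ofPred_eq] at hq ⊢
  rw [Ideal.dvd_iff_le, Ideal.span_singleton_le_iff_mem]
  exact hq

end General

section Split

variable {K K' : Type*} [Field K] [NumberField K] [Field K'] [NumberField K'] [Algebra K K']

theorem resPrimes_subset_splitPrimes {p : ℕ} (hp : p.Prime) {ζ : 𝓞 K} (hζ : IsPrimitiveRoot ζ p)
    (d : 𝓞 K) (hd : ∀ y : K, y ^ p ≠ (d : K)) (θ : 𝓞 K')
    (hθ : θ ^ p = algebraMap (𝓞 K) (𝓞 K') d) (hdeg : Module.finrank K K' = p) :
    resPrimes K p d ⊆ splitPrimes K K' := by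
  rintro q ⟨hl, hqp, x, hxq, hx⟩
  have := q.isMaximal
  obtain ⟨Q, hQinj, hQ⟩ := Fermat.Agent.Thaine.KummerSplit.exists_primes_over hp hζ d hd θ hθ hdeg
    q.asIdeal hl hqp x hx hxq
  show (q.asIdeal.primesOver (𝓞 K')).ncard = Module.finrank K K'
  obtain ⟨hfin, hle⟩ := ncard_primesOver_le (S := 𝓞 K') q.asIdeal
  apply le_antisymm
  · rwa [finrank_int] at hle
  · rw [hdeg]
    have hcard : (Set.range Q).ncard = p := by
      rw [Set.ncard_eq_toFinset_card' , Set.toFinset_range, Finset.card_image_of_injective _ hQinj]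
      simp
    rw [← hcard]
    apply Set.ncard_le_ncard _ hfin
    rintro _ ⟨i, rfl⟩
    exact ⟨(hQ i).1, ⟨(hQ i).2.1.symm⟩⟩

end Split


section Main

variable {K : Type*} [Field K] [NumberField K]

/-- (IT) the residue primes have density at most `1/p`. -/
theorem resPrimes_le_log {K' : Type*} [Field K'] [NumberField K'] [Algebra K K']
    {p : ℕ} (hp : p.Prime) {ζ : 𝓞 K} (hζ : IsPrimitiveRoot ζ p)
    (d : 𝓞 K) (hd : ∀ y : K, y ^ p ≠ (d : K)) (θ : 𝓞 K')
    (hθ : θ ^ p = algebraMap (𝓞 K) (𝓞 K') d) (hdeg : Module.finrank K K' = p) :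
    ∃ B, ∀ s ∈ Set.Ioc (1:ℝ) 2,
      (p : ℝ) * (resPrimes K p d).primeIdealZetaSum s ≤ Real.log (1 / (s - 1)) + B := by
  obtain ⟨B, hB⟩ := primeZeta_bound K'
  refine ⟨B, fun s hs => ?_⟩
  have h1 := (abs_le.mp (hB s hs)).2
  have h2 := mul_primeIdealZetaSum_le_primeZeta K K' _
    (resPrimes_subset_splitPrimes hp hζ d hd θ hθ hdeg) hs.1
  rw [hdeg] at h2
  linarith

/-- **FACT G**, general form: `K ∋ ζ_p`, `p ≥ 3`, `d ∈ 𝓞 K` not a `p`-th power in `K`, `K'/K` of
degree `p` containing a `p`-th root of `d`. A subgroup of the class group containing the classes of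
all primes of prime norm, not over `p`, modulo which `d` is not a `p`-th power, is everything. -/
theorem eq_top_of_kummer {K' : Type*} [Field K'] [NumberField K'] [Algebra K K']
    {p : ℕ} (hp : p.Prime) (hp3 : 3 ≤ p) {ζ : 𝓞 K} (hζ : IsPrimitiveRoot ζ p)
    (d : 𝓞 K) (hd : ∀ y : K, y ^ p ≠ (d : K)) (θ : 𝓞 K')
    (hθ : θ ^ p = algebraMap (𝓞 K) (𝓞 K') d) (hdeg : Module.finrank K K' = p)
    (B : Subgroup (ClassGroup (𝓞 K)))
    (hB : ∀ q : HeightOneSpectrum (𝓞 K), (absNorm q.asIdeal).Prime → (p : 𝓞 K) ∉ q.asIdeal →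
      (¬ ∃ y : 𝓞 K, y ^ p - d ∈ q.asIdeal) → ClassGroup.mk0 (primeToIdeal0 q) ∈ B) :
    B = ⊤ := by
  classical
  by_contra hne
  -- the quotient group
  let ψ : ClassGroup (𝓞 K) →* ClassGroup (𝓞 K) ⧸ B := QuotientGroup.mk' B
  have hsurj : Function.Surjective ψ := QuotientGroup.mk'_surjective B
  have hcard : 2 ≤ Nat.card (ClassGroup (𝓞 K) ⧸ B) := by
    rw [← Subgroup.index_eq_card]
    have h0 : B.index ≠ 0 := Subgroup.index_ne_zero_of_finite
    have h1 : B.index ≠ 1 := fun h => hne (Subgroup.index_eq_one.mp h)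
    omega
  have : Fintype ((ClassGroup (𝓞 K) ⧸ B) →* ℂˣ) := Fintype.ofFinite _
  -- the exceptional set
  have hd0 : d ≠ 0 := by
    intro h
    apply hd 0
    rw [h, zero_pow hp.ne_zero]; simp
  have hpd : (p : 𝓞 K) * d ≠ 0 :=
    mul_ne_zero (by exact_mod_cast hp.ne_zero) hd0
  let S : Finset (HeightOneSpectrum (𝓞 K)) := (finite_primes_mem K hpd).toFinset
  obtain ⟨q, hq1, hqS, hqT, hqφ⟩ := exists_prime_ne_one_of K (ψ.comp ClassGroup.mk0) S
    (resPrimes K p d) p
    (fun s hs => Fermat.Agent.CFT.FirstIneq.summable_primes K hs)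
    (fun s hs => Fermat.Agent.CFT.ClassLEuler.exp_le_norm_prod_classL _ hs)
    (fun χ hχ => Fermat.Agent.CFT.FirstIneq.I2_holds K ψ hsurj χ hχ)
    (Fermat.Agent.CFT.FirstIneq.I3_holds K _)
    (resPrimes_le_log hp hζ d hd θ hθ hdeg)
    (log_le_absDegOne K)
    hp.pos
    (by
      have : 2 * (p - 1) ≤ Nat.card (ClassGroup (𝓞 K) ⧸ B) * (p - 1) :=
        Nat.mul_le_mul_right _ hcard
      omega)
  apply hqφ
  have hqS' : (p : 𝓞 K) * d ∉ q.asIdeal := by
    intro h
    apply hqS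
    rw [Set.Finite.mem_toFinset]
    exact h
  have hqp : (p : 𝓞 K) ∉ q.asIdeal := fun h => hqS' (Ideal.mul_mem_right _ _ h)
  have hqd : d ∉ q.asIdeal := fun h => hqS' (Ideal.mul_mem_left _ _ h)
  have hgood : ¬ ∃ y : 𝓞 K, y ^ p - d ∈ q.asIdeal := by
    rintro ⟨y, hy⟩
    apply hqT
    refine ⟨hq1, hqp, y, fun hyq => hqd ?_, hy⟩
    have h1 : y ^ p ∈ q.asIdeal := Ideal.pow_mem_of_mem _ hyq _ hp.pos
    have h2 := Ideal.sub_mem _ h1 hy
    simpa using h2
  have := hB q hq1 hqp hgood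
  rw [MonoidHom.comp_apply]
  exact (QuotientGroup.eq_one_iff _).mpr this

end Main

section Cyclotomic

open Fermat.Agent.Thaine.Defs

variable (p : ℕ) [Fact p.Prime] (K : Type) [Field K] [NumberField K]
  [IsCyclotomicExtension {p} ℚ K]

/-- **FACT G** (E2-AN): if `dt` is not a `p`-th power in `K = ℚ(ζ_p)`, `p ≥ 3`, the good primes
generate the class group (no proper subgroup contains all their classes). -/
theorem factG (hp : 3 ≤ p) (hdt : ¬ ∃ x : K, x ^ p = (dt p K : K)) : FactG p K := by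
  intro B _ hgood
  have hpp : p.Prime := Fact.out
  obtain ⟨K', _, _, _, θ, hdeg, hθ⟩ :=
    Fermat.Agent.Thaine.KummerField.exists_kummerField hpp (dt p K) hdt
  have hζ : IsPrimitiveRoot (zetaI p K) p :=
    (IsCyclotomicExtension.zeta_spec p ℚ K).toInteger_isPrimitiveRoot
  refine eq_top_of_kummer hpp hp hζ (dt p K) (fun y hy => hdt ⟨y, hy⟩) θ hθ hdeg B ?_
  intro q hl hqp hnot
  exact hgood q.asIdeal ⟨q.isPrime, q.ne_bot, hl, hqp, hnot⟩

end Cyclotomic

end Fermat.Agent.Thaine.FactG
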