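import Fermat.Agent.Thaine.Defs

/-!
# E2-FIN core: a Kummer generator cannot exist

`KummerGen p K α` together with `ClStatement`, `U1Statement` and `U2Statement` is contradictory.
-/

set_option autoImplicit false

namespace Fermat.Agent.Thaine.FinCore

open NumberField Fermat.Agent.Thaine.Defs

variable (p : ℕ) [Fact p.Prime] (K : Type) [Field K] [NumberField K]
  [IsCyclotomicExtension {p} ℚ K]

/-- The final algebraic step of the Thaine route. -/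
theorem false_of_kummerGen {α : 𝓞 K} (h : KummerGen p K α) (hCl : ClStatement p K)
    (hU1 : U1Statement p K) (hU2 : U2Statement p K) : False := by
  obtain ⟨𝔞, h𝔞⟩ := h.ideal_pow
  -- `𝔞` is principal
  have hprinc : 𝔞.IsPrincipal := hCl 𝔞 α h.ne_zero h𝔞 h.eigen
  obtain ⟨γ, hγ⟩ := hprinc.principal
  have hγ' : 𝔞 = Ideal.span {γ} := hγ
  rw [hγ', Ideal.span_singleton_pow, Ideal.span_singleton_eq_span_singleton] at h𝔞
  obtain ⟨u, hu⟩ := h𝔞
  -- `α * u = γ ^ p`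
  have hγ0 : γ ≠ 0 := by
    rintro rfl
    rw [zero_pow (Fact.out : p.Prime).ne_zero] at hu
    rcases mul_eq_zero.mp hu with h0 | h0
    · exact h.ne_zero h0
    · exact u.ne_zero h0
  have hγK : (γ : K) ≠ 0 := by
    intro h0
    exact hγ0 (by exact_mod_cast h0)
  have hαK : (α : K) = ((u⁻¹ : (𝓞 K)ˣ) : 𝓞 K) * (γ : K) ^ p := by
    have h1 : α = ((u⁻¹ : (𝓞 K)ˣ) : 𝓞 K) * γ ^ p := by
      rw [← hu, mul_comm α, ← mul_assoc, Units.inv_mul, one_mul]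
    have := congrArg (fun z : 𝓞 K ↦ (z : K)) h1
    simpa using this
  set v : (𝓞 K)ˣ := u⁻¹ with hv
  have hvK : ((v : 𝓞 K) : K) ≠ 0 := by
    intro h0
    exact v.ne_zero (by exact_mod_cast h0)
  -- the eigen property of `v`
  have hveigen : ∀ (σ : K ≃ₐ[ℚ] K) (k : ℕ), ActsBy p K σ k →
      ∃ x : K, σ ((v : 𝓞 K) : K) = ((v : 𝓞 K) : K) ^ (k ^ 2) * x ^ p := by
    intro σ k hk
    obtain ⟨x₀, _, hx₀⟩ := h.eigen σ k hk
    have hσγ : σ (γ : K) ≠ 0 := by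
      intro h0
      exact hγK ((map_eq_zero σ).mp h0)
    refine ⟨(γ : K) ^ (k ^ 2) * x₀ / σ (γ : K), ?_⟩
    have h1 : σ ((v : 𝓞 K) : K) * σ (γ : K) ^ p =
        (((v : 𝓞 K) : K) * (γ : K) ^ p) ^ (k ^ 2) * x₀ ^ p := by
      rw [← hαK, ← hx₀, hαK, map_mul, map_pow]
    have h2 : σ ((v : 𝓞 K) : K) =
        (((v : 𝓞 K) : K) * (γ : K) ^ p) ^ (k ^ 2) * x₀ ^ p / σ (γ : K) ^ p := by
      rw [← h1, mul_div_assoc, div_self (pow_ne_zero _ hσγ), mul_one]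
    rw [h2, div_pow, mul_pow, mul_pow]
    rw [← pow_mul, ← pow_mul, mul_comm p (k ^ 2)]
    ring
  obtain ⟨j, x, hjx⟩ := hU2 v hveigen
  -- `α = dt ^ j * (x γ) ^ p`
  have hα2 : (α : K) = (dt p K : K) ^ j * (x * (γ : K)) ^ p := by
    rw [hαK, hjx, mul_pow]
    ring
  obtain ⟨m, rfl⟩ := hU1.2 j (x * (γ : K)) α h.unit_at_lam hα2 h.cong
  apply h.not_pow
  refine ⟨(dt p K : K) ^ m * (x * (γ : K)), ?_⟩
  rw [hα2, mul_pow, ← pow_mul, mul_comm m p]

end Fermat.Agent.Thaine.FinCore
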