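/-
Program E2 (S14, Thaine track), piece (E2-K) (helper11): the Kummer generator.

Setting: exactly the objects and hypotheses of `Fermat.Agent.S14.Interface.NoOmegaInvExt p`:
`K = ℚ(ζ_p)`, `L/K` cyclic of degree `p`, `L/ℚ` Galois, `L/K` unramified at every finite prime,
the primes over `p` split completely in `L/K`, and `Gal(L/ℚ)` acts on `Gal(L/K)` through `χ⁻¹`.

Output (`exists_kummerGen`): `α ∈ 𝓞 K`, `α ≠ 0`, such that
 (i)   `α` is not a `p`-th power in `K`;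
 (ii)  `τ α = α ^ (k ^ 2) * γ ^ p` whenever `τ ζ = ζ ^ k` (`α` lies in the `ω²`-eigenspace of
       `Kˣ / (Kˣ)ᵖ`);
 (iii) the ideal `(α)` is a `p`-th power;
 (iv)  `α` is prime to `λ = 1 - ζ` and is a `p`-th power modulo `λ³`.
-/
import Mathlib
import Fermat.Agent.S14.ArtinGlue
import Fermat.Agent.CFT.InvariantIdeal

set_option autoImplicit false
set_option linter.unusedSectionVars false
set_option linter.style.haveILetI false

namespace Fermat.Agent.Thaine.KummerGen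

open NumberField IntermediateField
open scoped Pointwise

open Fermat.Agent.S14.ArtinGlue (conjK conjK_apply conjK_restrictScalars)

/-! ### Part 1: field theory -/

section FieldPart

variable {p : ℕ} [hp : Fact p.Prime]
variable {K L : Type} [Field K] [Field L] [NumberField K] [NumberField L] [Algebra K L]
  [IsCyclotomicExtension {p} ℚ K] [IsGalois K L] [IsGalois ℚ L]

/-- `p`-th roots of unity of `L` lie in `K`, as powers of any given primitive root. -/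
theorem exists_pow_eq_of_pow_eq_one {ζ : K} (hζ : IsPrimitiveRoot ζ p) {y : L} (hy : y ^ p = 1) :
    ∃ j : ℕ, y = algebraMap K L (ζ ^ j) := by
  haveI : NeZero p := ⟨hp.out.ne_zero⟩
  have hζL : IsPrimitiveRoot (algebraMap K L ζ) p :=
    hζ.map_of_injective (algebraMap K L).injective
  obtain ⟨j, -, hj⟩ := hζL.eq_pow_of_pow_eq_one hy
  exact ⟨j, by rw [map_pow, hj]⟩

theorem mem_range_of_pow_eq_one {y : L} (hy : y ^ p = 1) : y ∈ Set.range (algebraMap K L) := by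
  haveI : NeZero p := ⟨hp.out.ne_zero⟩
  obtain ⟨j, hj⟩ := exists_pow_eq_of_pow_eq_one (IsCyclotomicExtension.zeta_spec p ℚ K) hy
  exact ⟨_, hj.symm⟩

/-- Existence of a Kummer generator `θ`. -/
theorem exists_theta (hdeg : Module.finrank K L = p) :
    ∃ θ : L, θ ^ p ∈ Set.range (algebraMap K L) ∧ θ ∉ Set.range (algebraMap K L) := by
  haveI : NeZero p := ⟨hp.out.ne_zero⟩
  have hcard : Nat.card (L ≃ₐ[K] L) = p := by rw [IsGalois.card_aut_eq_finrank, hdeg]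
  haveI : IsCyclic (L ≃ₐ[K] L) := isCyclic_of_prime_card hcard
  have hK : (primitiveRoots (Module.finrank K L) K).Nonempty := by
    rw [hdeg]
    exact ⟨IsCyclotomicExtension.zeta p ℚ K,
      (mem_primitiveRoots hp.out.pos).mpr (IsCyclotomicExtension.zeta_spec p ℚ K)⟩
  obtain ⟨θ, hθ1, hθ2⟩ := exists_root_adjoin_eq_top_of_isCyclic K L hK
  rw [hdeg] at hθ1
  refine ⟨θ, hθ1, ?_⟩
  rintro ⟨x, rfl⟩
  have h1 : K⟮algebraMap K L x⟯ = ⊥ :=
    IntermediateField.adjoin_simple_eq_bot_iff.mpr (IntermediateField.algebraMap_mem _ x)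
  rw [h1] at hθ2
  have h2 : Module.finrank K L = 1 := by
    rw [← IntermediateField.finrank_top', ← hθ2, IntermediateField.finrank_bot]
  rw [hdeg] at h2
  exact hp.out.one_lt.ne' h2

variable {θ : L} {a : K}

theorem theta_ne_zero (hθ : θ ∉ Set.range (algebraMap K L)) : θ ≠ 0 := by
  rintro rfl
  exact hθ ⟨0, map_zero _⟩

/-- (i): `a = θ ^ p` is not a `p`-th power in `K`. -/
theorem not_pow (hθp : θ ^ p = algebraMap K L a) (hθ : θ ∉ Set.range (algebraMap K L))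
    (γ : K) : γ ^ p ≠ a := by
  intro h
  have hθ0 := theta_ne_zero hθ
  have hγ0 : γ ≠ 0 := by
    rintro rfl
    rw [zero_pow hp.out.ne_zero] at h
    rw [← h, map_zero] at hθp
    exact hθ0 (pow_eq_zero_iff hp.out.ne_zero |>.mp hθp)
  have hγL : algebraMap K L γ ≠ 0 := (map_ne_zero _).mpr hγ0
  have hy : (θ / algebraMap K L γ) ^ p = 1 := by
    rw [div_pow, hθp, ← map_pow, h, div_self ((map_ne_zero _).mpr (h ▸ pow_ne_zero p hγ0))]
  obtain ⟨z, hz⟩ := mem_range_of_pow_eq_one (p := p) (K := K) hy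
  apply hθ
  refine ⟨z * γ, ?_⟩
  rw [map_mul, hz, div_mul_cancel₀ _ hγL]

/-- Every `s ∈ Gal(L/K)` multiplies `θ` by a `p`-th root of unity of `K`. -/
theorem exists_root_smul (hθp : θ ^ p = algebraMap K L a) (hθ : θ ∉ Set.range (algebraMap K L))
    (s : L ≃ₐ[K] L) : ∃ c : K, c ^ p = 1 ∧ s θ = algebraMap K L c * θ := by
  have hθ0 := theta_ne_zero hθ
  have hy : (s θ / θ) ^ p = 1 := by
    rw [div_pow, ← map_pow, hθp, s.commutes, div_self]
    rw [← hθp]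
    exact pow_ne_zero p hθ0
  obtain ⟨c, hc⟩ := mem_range_of_pow_eq_one (p := p) (K := K) hy
  refine ⟨c, ?_, ?_⟩
  · apply (algebraMap K L).injective
    rw [map_pow, hc, hy, map_one]
  · rw [hc, div_mul_cancel₀ _ hθ0]

/-- `K` is normal over `ℚ` (it is cyclotomic). -/
theorem normal_rat_K (p : ℕ) [hp : Fact p.Prime] (K : Type) [Field K] [NumberField K]
    [IsCyclotomicExtension {p} ℚ K] : Normal ℚ K :=
  haveI : NeZero p := ⟨hp.out.ne_zero⟩
  haveI : IsGalois ℚ K := IsCyclotomicExtension.isGalois {p} ℚ K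
  inferInstance

/-- Core of (ii): if `δ ∈ Gal(L/ℚ)` acts on `μ_p` by `ζ ↦ ζ ^ k`, then `δ θ / θ ^ (k ^ 2) ∈ K`. -/
theorem exists_apply_eq (hθp : θ ^ p = algebraMap K L a) (hθ : θ ∉ Set.range (algebraMap K L))
    (h5 : ∀ (δ : L ≃ₐ[ℚ] L) (σ : L ≃ₐ[K] L) (k : ℕ),
        (∀ ζ : L, ζ ^ p = 1 → δ ζ = ζ ^ k) →
        (δ * σ.restrictScalars ℚ * δ⁻¹) ^ k = σ.restrictScalars ℚ)
    (δ : L ≃ₐ[ℚ] L) (k : ℕ) (hδ : ∀ ζ : L, ζ ^ p = 1 → δ ζ = ζ ^ k) :
    ∃ g : K, δ θ = θ ^ (k ^ 2) * algebraMap K L g := by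
  haveI : Normal ℚ K := normal_rat_K p K
  have hθ0 := theta_ne_zero hθ
  have hfix : ∀ s : L ≃ₐ[K] L, s (δ θ / θ ^ (k ^ 2)) = δ θ / θ ^ (k ^ 2) := by
    intro s
    obtain ⟨c, hc1, hc⟩ := exists_root_smul hθp hθ s
    -- `s ^ k = δ⁻¹ s δ`
    have h := h5 δ (conjK δ⁻¹ s) k hδ
    rw [conjK_restrictScalars] at h
    have h' : (s.restrictScalars ℚ) ^ k = δ⁻¹ * s.restrictScalars ℚ * δ := by
      simpa [mul_assoc] using h
    -- apply to `θ`
    have hsk : ∀ n : ℕ, ((s.restrictScalars ℚ) ^ n) θ = algebraMap K L (c ^ n) * θ := by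
      intro n
      induction n with
      | zero => simp
      | succ n ih =>
        rw [pow_succ', AlgEquiv.mul_apply, ih, map_mul]
        show s (algebraMap K L (c ^ n)) * s θ = _
        rw [s.commutes, hc, pow_succ, map_mul]
        ring
    have h1 : s (δ θ) = δ (algebraMap K L (c ^ k) * θ) := by
      have := congrArg (fun f : L ≃ₐ[ℚ] L => δ (f θ)) h'
      simp only [AlgEquiv.mul_apply] at this
      rw [hsk k] at this
      rw [this]
      show s (δ θ) = δ (δ⁻¹ (s (δ θ)))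
      rw [AlgEquiv.aut_inv, AlgEquiv.apply_symm_apply]
    have hcL : (algebraMap K L c) ^ p = 1 := by rw [← map_pow, hc1, map_one]
    have h2 : δ (algebraMap K L (c ^ k)) = algebraMap K L c ^ (k ^ 2) := by
      rw [map_pow, map_pow, hδ _ hcL, ← pow_mul, sq]
    rw [map_div₀, h1, map_mul, h2, map_pow, hc, mul_pow]
    have hc0 : algebraMap K L c ≠ 0 := by
      intro h0
      rw [h0, zero_pow hp.out.ne_zero] at hcL
      exact zero_ne_one hcL
    field_simp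
  obtain ⟨g, hg⟩ := (IsGalois.mem_range_algebraMap_iff_fixed (F := K) (E := L) _).mpr hfix
  refine ⟨g, ?_⟩
  rw [hg, mul_div_cancel₀ _ (pow_ne_zero _ hθ0)]

/-- (ii): `τ a = a ^ (k ^ 2) * γ ^ p` if `τ ζ = ζ ^ k`. -/
theorem exists_map_eq (hθp : θ ^ p = algebraMap K L a) (hθ : θ ∉ Set.range (algebraMap K L))
    (h5 : ∀ (δ : L ≃ₐ[ℚ] L) (σ : L ≃ₐ[K] L) (k : ℕ),
        (∀ ζ : L, ζ ^ p = 1 → δ ζ = ζ ^ k) →
        (δ * σ.restrictScalars ℚ * δ⁻¹) ^ k = σ.restrictScalars ℚ)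
    {ζ : K} (hζ : IsPrimitiveRoot ζ p) (τ : K ≃ₐ[ℚ] K) (k : ℕ) (hτ : τ ζ = ζ ^ k) :
    ∃ γ : K, τ a = a ^ (k ^ 2) * γ ^ p := by
  have hδ : ∀ y : L, y ^ p = 1 → (τ.liftNormal L) y = y ^ k := by
    intro y hy
    obtain ⟨j, rfl⟩ := exists_pow_eq_of_pow_eq_one hζ hy
    rw [AlgEquiv.liftNormal_commutes, map_pow, hτ, ← map_pow, ← pow_mul, ← pow_mul, mul_comm]
  obtain ⟨g, hg⟩ := exists_apply_eq hθp hθ h5 (τ.liftNormal L) k hδ
  refine ⟨g, (algebraMap K L).injective ?_⟩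
  rw [← AlgEquiv.liftNormal_commutes τ L, ← hθp, map_pow, hg, mul_pow, map_mul, map_pow, map_pow,
    ← hθp, ← pow_mul, ← pow_mul]
  ring

end FieldPart

/-! ### Part 2: making `θ` integral -/

section Integral

variable {p : ℕ} [hp : Fact p.Prime]
variable {K L : Type} [Field K] [Field L] [NumberField K] [NumberField L] [Algebra K L]

theorem exists_integral_theta {θ : L} {a : K} (hθp : θ ^ p = algebraMap K L a)
    (hθ : θ ∉ Set.range (algebraMap K L)) :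
    ∃ (θ' : 𝓞 L) (a' : 𝓞 K), (θ' : L) ^ p = algebraMap K L (a' : K) ∧
      (θ' : L) ∉ Set.range (algebraMap K L) := by
  have halg : IsAlgebraic ℤ θ :=
    (IsFractionRing.isAlgebraic_iff ℤ ℚ L).mpr (Algebra.IsAlgebraic.isAlgebraic θ)
  obtain ⟨n, hn0, hn⟩ := halg.exists_integral_multiple
  rw [zsmul_eq_mul] at hn
  have hnL : (n : L) ≠ 0 := Int.cast_ne_zero.mpr hn0
  have hpow : ((n : L) * θ) ^ p = algebraMap K L ((n : K) ^ p * a) := by
    rw [mul_pow, hθp, map_mul, map_pow, map_intCast]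
  have ha : IsIntegral ℤ ((n : K) ^ p * a) := by
    rw [← isIntegral_algebraMap_iff (algebraMap K L).injective, ← hpow]
    exact hn.pow p
  refine ⟨⟨(n : L) * θ, hn⟩, ⟨(n : K) ^ p * a, ha⟩, hpow, ?_⟩
  rintro ⟨x, hx⟩
  apply hθ
  refine ⟨x / (n : K), ?_⟩
  rw [map_div₀, hx, map_intCast]
  show (n : L) * θ / (n : L) = θ
  rw [mul_div_cancel_left₀ _ hnL]

end Integral

/-! ### Part 3: the ideal `(a)` is a `p`-th power -/

section IdealPart

variable {p : ℕ} [hp : Fact p.Prime]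
variable {K L : Type} [Field K] [Field L] [NumberField K] [NumberField L] [Algebra K L]
  [IsCyclotomicExtension {p} ℚ K] [IsGalois K L] [IsGalois ℚ L]

variable {θ : 𝓞 L} {a : 𝓞 K}

theorem pow_eq_algebraMap (hθp : (θ : L) ^ p = algebraMap K L (a : K)) :
    θ ^ p = algebraMap (𝓞 K) (𝓞 L) a := by
  apply RingOfIntegers.ext
  show algebraMap (𝓞 L) L (θ ^ p) = algebraMap (𝓞 L) L (algebraMap (𝓞 K) (𝓞 L) a)
  rw [map_pow, ← IsScalarTower.algebraMap_apply, IsScalarTower.algebraMap_apply (𝓞 K) K L]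
  exact hθp

theorem coe_smul_eq (s : L ≃ₐ[K] L) (x : 𝓞 L) : ((s • x : 𝓞 L) : L) = s (x : L) := rfl

/-- The ideal `(θ)` of `𝓞 L` is `Gal(L/K)`-invariant. -/
theorem smul_span_theta (hθp : (θ : L) ^ p = algebraMap K L (a : K))
    (hθ : (θ : L) ∉ Set.range (algebraMap K L)) (s : L ≃ₐ[K] L) :
    s • Ideal.span {θ} = Ideal.span {θ} := by
  obtain ⟨c, hc1, hc⟩ := exists_root_smul hθp hθ s
  have hcint : IsIntegral ℤ c := by
    apply IsIntegral.of_pow hp.out.pos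
    rw [hc1]
    exact isIntegral_one
  set c' : 𝓞 K := ⟨c, hcint⟩ with hc'
  have hc'1 : c' ^ p = 1 := by
    apply RingOfIntegers.ext
    show c ^ p = 1
    exact hc1
  have hunit : IsUnit (algebraMap (𝓞 K) (𝓞 L) c') :=
    (IsUnit.of_pow_eq_one hc'1 hp.out.ne_zero).map _
  have hs : s • θ = algebraMap (𝓞 K) (𝓞 L) c' * θ := by
    apply RingOfIntegers.ext
    rw [coe_smul_eq, hc]
    show _ = algebraMap (𝓞 L) L (algebraMap (𝓞 K) (𝓞 L) c' * θ)
    rw [map_mul, ← IsScalarTower.algebraMap_apply, IsScalarTower.algebraMap_apply (𝓞 K) K L]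
    rfl
  rw [Ideal.pointwise_smul_def, Ideal.map_span, Set.image_singleton]
  show Ideal.span {s • θ} = _
  rw [hs, Ideal.span_singleton_mul_left_unit hunit]

/-- (iii): the ideal `(a)` is a `p`-th power. -/
theorem exists_span_eq_pow
    (h1 : ∀ P : Ideal (𝓞 L), P.IsPrime → P ≠ ⊥ → P.inertia (L ≃ₐ[K] L) = ⊥)
    (hθp : (θ : L) ^ p = algebraMap K L (a : K))
    (hθ : (θ : L) ∉ Set.range (algebraMap K L)) :
    ∃ b : Ideal (𝓞 K), b ≠ ⊥ ∧ Ideal.span {θ} = b.map (algebraMap (𝓞 K) (𝓞 L)) ∧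
      Ideal.span {a} = b ^ p := by
  have hθ0 : θ ≠ 0 := by
    rintro rfl
    exact theta_ne_zero hθ rfl
  have hA0 : Ideal.span {θ} ≠ ⊥ := by
    rwa [Ne, Ideal.span_singleton_eq_bot]
  obtain ⟨b, hb0, hb⟩ := Fermat.Agent.CFT.InvariantIdeal.exists_eq_map_of_smul_eq
    (K := K) (L := L) h1 (Ideal.span {θ}) hA0 (smul_span_theta hθp hθ)
  change Ideal.span {θ} = b.map (algebraMap (𝓞 K) (𝓞 L)) at hb
  refine ⟨b, hb0, hb, ?_⟩
  apply Fermat.Agent.CFT.InvariantIdeal.map_algebraMap_injective (K := K) (L := L)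
  show (Ideal.span {a}).map (algebraMap (𝓞 K) (𝓞 L)) = (b ^ p).map (algebraMap (𝓞 K) (𝓞 L))
  rw [Ideal.map_pow, ← hb, Ideal.map_span, Set.image_singleton, Ideal.span_singleton_pow,
    pow_eq_algebraMap hθp]

end IdealPart

/-! ### Part 4: local approximation at a prime of degree one and ramification index one -/

section Local

variable {R S : Type*} [CommRing R] [CommRing S] [IsDedekindDomain S] [Algebra R S]
  {P : Ideal S} [hPprime : P.IsPrime]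

/-- If `ϖ ∈ P \ P²` and `ϖ ^ n * y ∈ P ^ (n + 1)` then `y ∈ P`. -/
theorem mem_of_pow_mul_mem (hP0 : P ≠ ⊥) {ϖ : S} (h1 : ϖ ∈ P) (h2 : ϖ ∉ P ^ 2) (n : ℕ) {y : S}
    (h : ϖ ^ n * y ∈ P ^ (n + 1)) : y ∈ P := by
  have hPp : Prime P := Ideal.prime_of_isPrime hP0 hPprime
  obtain ⟨J, hJ⟩ : P ∣ Ideal.span {ϖ} := by rwa [Ideal.dvd_span_singleton]
  have hJP : ¬ P ∣ J := by
    rintro ⟨J', rfl⟩
    apply h2
    rw [← Ideal.dvd_span_singleton, hJ, ← mul_assoc, ← sq]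
    exact dvd_mul_right _ _
  have h3 : P ^ (n + 1) ∣ Ideal.span {ϖ ^ n * y} := by rwa [Ideal.dvd_span_singleton]
  rw [← Ideal.span_singleton_mul_span_singleton, ← Ideal.span_singleton_pow, hJ, mul_pow,
    pow_succ, mul_assoc] at h3
  have h4 : P ∣ J ^ n * Ideal.span {y} :=
    (mul_dvd_mul_iff_left (pow_ne_zero n hP0)).mp h3
  rcases hPp.dvd_or_dvd h4 with h5 | h5
  · exact absurd (hPp.dvd_of_dvd_pow h5) hJP
  · rwa [Ideal.dvd_span_singleton] at h5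

theorem pow_notMem_pow_succ (hP0 : P ≠ ⊥) {ϖ : S} (h1 : ϖ ∈ P) (h2 : ϖ ∉ P ^ 2) (n : ℕ) :
    ϖ ^ n ∉ P ^ (n + 1) := by
  intro h
  have := mem_of_pow_mul_mem hP0 h1 h2 n (y := 1) (by rwa [mul_one])
  exact hPprime.ne_top ((Ideal.eq_top_iff_one P).mpr this)

/-- Successive approximation: if `R → S ⧸ P` is onto and `π ∈ R` is a uniformizer at `P`, then
`R → S ⧸ P ^ n` is onto. -/
theorem exists_sub_mem_pow (hP0 : P ≠ ⊥) {π : R} (h1 : algebraMap R S π ∈ P)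
    (h2 : algebraMap R S π ∉ P ^ 2)
    (hsurj : ∀ x : S, ∃ w : R, x - algebraMap R S w ∈ P) (n : ℕ) (x : S) :
    ∃ w : R, x - algebraMap R S w ∈ P ^ n := by
  induction n with
  | zero => exact ⟨0, by simp⟩
  | succ n ih =>
    obtain ⟨w, hw⟩ := ih
    obtain ⟨d, e, he, hde⟩ := Ideal.exists_mul_add_mem_pow_succ hP0 (algebraMap R S π ^ n)
      (x - algebraMap R S w) (Ideal.pow_mem_pow h1 n) (pow_notMem_pow_succ hP0 h1 h2 n) hw
    obtain ⟨w', hw'⟩ := hsurj d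
    refine ⟨w + π ^ n * w', ?_⟩
    have : x - algebraMap R S (w + π ^ n * w') =
        algebraMap R S π ^ n * (d - algebraMap R S w') + e := by
      rw [map_add, map_mul, map_pow]
      linear_combination -hde
    rw [this, pow_succ]
    exact Ideal.add_mem _ (Ideal.mul_mem_mul (Ideal.pow_mem_pow h1 n) hw') (by rwa [← pow_succ])

/-- If moreover `P ∩ R = (π)` then `P ^ n ∩ R = (π ^ n)`. -/
theorem pow_dvd_of_mem_pow (hP0 : P ≠ ⊥) {π : R} (h1 : algebraMap R S π ∈ P)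
    (h2 : algebraMap R S π ∉ P ^ 2)
    (hunder : ∀ z : R, algebraMap R S z ∈ P → π ∣ z) (n : ℕ) (z : R)
    (hz : algebraMap R S z ∈ P ^ n) : π ^ n ∣ z := by
  induction n generalizing z with
  | zero => simp
  | succ n ih =>
    obtain ⟨z', rfl⟩ := ih z (Ideal.pow_le_pow_right (Nat.le_succ n) hz)
    rw [map_mul, map_pow] at hz
    obtain ⟨z'', rfl⟩ := hunder z' (mem_of_pow_mul_mem hP0 h1 h2 n hz)
    exact ⟨z'', by ring⟩

end Local

/-! ### Part 5: the prime `λ = 1 - ζ` and a prime of `L` above it -/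

section Lam

variable {p : ℕ} [hp : Fact p.Prime]
variable {K L : Type} [Field K] [Field L] [NumberField K] [NumberField L] [Algebra K L]
  [IsCyclotomicExtension {p} ℚ K] [IsGalois K L]

theorem prime_one_sub {ζ : 𝓞 K} (hζ : IsPrimitiveRoot ζ p) : Prime (1 - ζ) := by
  have hζK : IsPrimitiveRoot (ζ : K) p :=
    hζ.map_of_injective (f := algebraMap (𝓞 K) K) RingOfIntegers.coe_injective
  have h := hζK.zeta_sub_one_prime'
  have e : hζK.toInteger = ζ := RingOfIntegers.ext rfl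
  rw [e] at h
  have := h.neg
  rwa [neg_sub] at this

theorem one_sub_dvd_p {ζ : 𝓞 K} (hζ : IsPrimitiveRoot ζ p) : (1 - ζ) ∣ (p : 𝓞 K) := by
  have hζK : IsPrimitiveRoot (ζ : K) p :=
    hζ.map_of_injective (f := algebraMap (𝓞 K) K) RingOfIntegers.coe_injective
  have h := hζK.toInteger_sub_one_dvd_prime'
  have e : hζK.toInteger = ζ := RingOfIntegers.ext rfl
  rw [e] at h
  rwa [← neg_sub, neg_dvd]

/-- A prime `P` of `𝓞 L` above `λ` with `e = f = 1`. -/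
theorem exists_prime_over_lam
    (h1 : ∀ P : Ideal (𝓞 L), P.IsPrime → P ≠ ⊥ → P.inertia (L ≃ₐ[K] L) = ⊥)
    (h2 : ∀ P : Ideal (𝓞 L), P.IsPrime → (p : 𝓞 L) ∈ P →
      MulAction.stabilizer (L ≃ₐ[K] L) P = ⊥)
    {ζ : 𝓞 K} (hζ : IsPrimitiveRoot ζ p) :
    ∃ P : Ideal (𝓞 L), P.IsPrime ∧ P ≠ ⊥ ∧
      algebraMap (𝓞 K) (𝓞 L) (1 - ζ) ∈ P ∧ algebraMap (𝓞 K) (𝓞 L) (1 - ζ) ∉ P ^ 2 ∧
      (∀ x : 𝓞 L, ∃ w : 𝓞 K, x - algebraMap (𝓞 K) (𝓞 L) w ∈ P) ∧
      (∀ z : 𝓞 K, algebraMap (𝓞 K) (𝓞 L) z ∈ P → (1 - ζ) ∣ z) := by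
  have hlam := prime_one_sub hζ
  set q : Ideal (𝓞 K) := Ideal.span {1 - ζ} with hq
  haveI hqprime : q.IsPrime := Ideal.isPrime_span_singleton_of_prime hlam
  have hq0 : q ≠ ⊥ := by
    rw [hq, Ne, Ideal.span_singleton_eq_bot]
    exact hlam.ne_zero
  haveI hqmax : q.IsMaximal := Ring.DimensionLEOne.maximalOfPrime hq0 hqprime
  obtain ⟨P, hPmax, hPq⟩ := Ideal.exists_maximal_ideal_liesOver_of_isIntegral (S := 𝓞 L) q
  haveI := hPmax
  haveI := hPq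
  haveI hPprime : P.IsPrime := hPmax.isPrime
  have hP0 : P ≠ ⊥ := Ideal.ne_bot_of_liesOver_of_ne_bot hq0 P
  have hmem_iff : ∀ z : 𝓞 K, algebraMap (𝓞 K) (𝓞 L) z ∈ P ↔ (1 - ζ) ∣ z := by
    intro z
    rw [← Ideal.mem_span_singleton, ← hq, Ideal.over_def P q, Ideal.mem_comap]
  have hlamP : algebraMap (𝓞 K) (𝓞 L) (1 - ζ) ∈ P := (hmem_iff _).mpr dvd_rfl
  have hpP : (p : 𝓞 L) ∈ P := by
    have := (hmem_iff (p : 𝓞 K)).mpr (one_sub_dvd_p hζ)
    rwa [map_natCast] at this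
  have hstab := h2 P hPprime hpP
  refine ⟨P, hPprime, hP0, hlamP, ?_, ?_, fun z hz => (hmem_iff z).mp hz⟩
  · -- ramification index one
    have he := Fermat.Agent.CFT.InvariantIdeal.ramificationIdx_eq_one (K := K) (L := L) h1 P hP0
    rw [← Ideal.ramificationIdx'_eq_ramificationIdx q P hq0] at he
    have hle : q.map (algebraMap (𝓞 K) (𝓞 L)) ≤ P := Ideal.map_le_iff_le_comap.mpr
      (Ideal.over_def P q).le
    intro hmem
    apply (Ideal.ramificationIdx'_ne_one_iff hle).mpr _ he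
    rw [hq, Ideal.map_span, Set.image_singleton, Ideal.span_singleton_le_iff_mem]
    exact hmem
  · -- inertia degree one
    have hcard := Ideal.card_stabilizer_eq_card_inertia_mul_finrank (G := L ≃ₐ[K] L) q P
    rw [hstab] at hcard
    have hf : P.inertiaDeg (𝓞 K) = 1 := by
      have : Nat.card (⊥ : Subgroup (L ≃ₐ[K] L)) = 1 := Subgroup.card_bot
      rw [this] at hcard
      exact Nat.eq_one_of_mul_eq_one_left hcard.symm
    rw [Ideal.inertiaDeg_eq_of_isMaximal q P] at hf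
    letI : Field (𝓞 K ⧸ q) := Ideal.Quotient.field q
    letI : Field (𝓞 L ⧸ P) := Ideal.Quotient.field P
    have hbot : (⊥ : Subalgebra (𝓞 K ⧸ q) (𝓞 L ⧸ P)) = ⊤ :=
      Subalgebra.bot_eq_top_iff_finrank_eq_one.mpr hf
    intro x
    have hx : Ideal.Quotient.mk P x ∈ (⊥ : Subalgebra (𝓞 K ⧸ q) (𝓞 L ⧸ P)) := by
      rw [hbot]
      exact Algebra.mem_top
    rw [Algebra.mem_bot] at hx
    obtain ⟨w', hw'⟩ := hx
    obtain ⟨w, rfl⟩ := Ideal.Quotient.mk_surjective w'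
    refine ⟨w, ?_⟩
    rw [← Ideal.Quotient.eq, ← hw']
    rfl

end Lam

/-! ### Part 6: normalisation at `λ` and the final statement -/

section Final

variable {p : ℕ} [hp : Fact p.Prime]
variable {K L : Type} [Field K] [Field L] [NumberField K] [NumberField L] [Algebra K L]

/-- Divide `θ` by the right power of a prime element `π` of `𝓞 K` to make `a = θ ^ p` prime to
`π`. -/
theorem exists_normalized {θ : 𝓞 L} {a : 𝓞 K} (hθp : (θ : L) ^ p = algebraMap K L (a : K))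
    (hθ : (θ : L) ∉ Set.range (algebraMap K L)) {b : Ideal (𝓞 K)} (hb0 : b ≠ ⊥)
    (hab : Ideal.span {a} = b ^ p) {π : 𝓞 K} (hπ : Prime π) :
    ∃ (θ₁ : 𝓞 L) (a₁ : 𝓞 K), (θ₁ : L) ^ p = algebraMap K L (a₁ : K) ∧
      (θ₁ : L) ∉ Set.range (algebraMap K L) ∧ (∃ b₁ : Ideal (𝓞 K), Ideal.span {a₁} = b₁ ^ p) ∧
      ¬ π ∣ a₁ := by
  set q : Ideal (𝓞 K) := Ideal.span {π} with hq
  haveI hqprime : q.IsPrime := Ideal.isPrime_span_singleton_of_prime hπ
  have hq0 : q ≠ ⊥ := by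
    rw [hq, Ne, Ideal.span_singleton_eq_bot]
    exact hπ.ne_zero
  have hqP : Prime q := Ideal.prime_of_isPrime hq0 hqprime
  obtain ⟨n, b₁, hb₁, rfl⟩ := WfDvdMonoid.max_power_factor' hb0 hqP.not_isUnit
  have hπ0 : π ^ (n * p) ≠ 0 := pow_ne_zero _ hπ.ne_zero
  -- `π ^ (n p) ∣ a`
  have hdvd : π ^ (n * p) ∣ a := by
    rw [← Ideal.mem_span_singleton, ← Ideal.span_singleton_pow, ← hq, pow_mul]
    have : a ∈ Ideal.span {a} := Ideal.mem_span_singleton_self a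
    rw [hab, mul_pow] at this
    exact Ideal.mul_le_left this
  obtain ⟨a₁, rfl⟩ := hdvd
  have hab₁ : Ideal.span {a₁} = b₁ ^ p := by
    have h := hab
    rw [← Ideal.span_singleton_mul_span_singleton, mul_pow, ← pow_mul, ← Ideal.span_singleton_pow,
      ← hq] at h
    exact mul_left_cancel₀ (pow_ne_zero _ hq0) h
  have hna : ¬ π ∣ a₁ := by
    intro h
    apply hb₁
    apply hqP.dvd_of_dvd_pow (n := p)
    rw [← hab₁, hq, Ideal.dvd_span_singleton, Ideal.mem_span_singleton]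
    exact h
  -- the new `θ`
  have hπL : algebraMap K L ((π : 𝓞 K) : K) ≠ 0 := by
    rw [Ne, map_eq_zero]
    exact RingOfIntegers.coe_ne_zero_iff.mpr hπ.ne_zero
  set t : L := (θ : L) / algebraMap K L ((π : 𝓞 K) : K) ^ n with ht
  have htp : t ^ p = algebraMap K L (a₁ : K) := by
    rw [ht, div_pow, hθp, ← pow_mul, div_eq_iff (pow_ne_zero _ hπL)]
    have hcoe : ((π ^ (n * p) * a₁ : 𝓞 K) : K) = (π : K) ^ (n * p) * (a₁ : K) := by
      show algebraMap (𝓞 K) K (π ^ (n * p) * a₁) =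
        algebraMap (𝓞 K) K π ^ (n * p) * algebraMap (𝓞 K) K a₁
      rw [map_mul, map_pow]
    rw [hcoe, map_mul, map_pow, mul_comm]
  have htint : IsIntegral ℤ t := by
    apply IsIntegral.of_pow hp.out.pos
    rw [htp]
    exact (RingOfIntegers.isIntegral_coe a₁).algebraMap
  refine ⟨⟨t, htint⟩, a₁, htp, ?_, ⟨b₁, hab₁⟩, hna⟩
  rintro ⟨x, hx⟩
  apply hθ
  refine ⟨x * ((π : 𝓞 K) : K) ^ n, ?_⟩
  rw [map_mul, map_pow, hx]
  show t * _ = _
  rw [ht, div_mul_cancel₀ _ (pow_ne_zero _ hπL)]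

variable [IsCyclotomicExtension {p} ℚ K] [IsGalois K L] [IsGalois ℚ L]

variable (K L) in
/-- **The Kummer generator** (E2-K). -/
theorem exists_kummerGen (hdeg : Module.finrank K L = p)
    (h1 : ∀ P : Ideal (𝓞 L), P.IsPrime → P ≠ ⊥ → P.inertia (L ≃ₐ[K] L) = ⊥)
    (h2 : ∀ P : Ideal (𝓞 L), P.IsPrime → (p : 𝓞 L) ∈ P →
      MulAction.stabilizer (L ≃ₐ[K] L) P = ⊥)
    (h5 : ∀ (δ : L ≃ₐ[ℚ] L) (σ : L ≃ₐ[K] L) (k : ℕ),
        (∀ ζ : L, ζ ^ p = 1 → δ ζ = ζ ^ k) →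
        (δ * σ.restrictScalars ℚ * δ⁻¹) ^ k = σ.restrictScalars ℚ) :
    ∃ α : 𝓞 K, α ≠ 0 ∧
      (∀ γ : K, γ ^ p ≠ (α : K)) ∧
      (∀ ζ : K, IsPrimitiveRoot ζ p → ∀ (τ : K ≃ₐ[ℚ] K) (k : ℕ), τ ζ = ζ ^ k →
        ∃ γ : K, τ (α : K) = (α : K) ^ (k ^ 2) * γ ^ p) ∧
      (∃ 𝔞 : Ideal (𝓞 K), Ideal.span {α} = 𝔞 ^ p) ∧
      (∀ ζ : 𝓞 K, IsPrimitiveRoot ζ p →
        ¬ (1 - ζ) ∣ α ∧ ∃ w : 𝓞 K, (1 - ζ) ^ 3 ∣ α - w ^ p) := by
  haveI : NeZero p := ⟨hp.out.ne_zero⟩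
  -- a Kummer generator, made integral
  obtain ⟨θ₀, ⟨a₀, ha₀⟩, hθ₀⟩ := exists_theta (p := p) (K := K) (L := L) hdeg
  obtain ⟨θ₁, a₁, hθ₁p, hθ₁⟩ := exists_integral_theta ha₀.symm hθ₀
  obtain ⟨b, hb0, -, hab⟩ := exists_span_eq_pow h1 hθ₁p hθ₁
  -- the prime `λ₀`
  have hζ₀K := IsCyclotomicExtension.zeta_spec p ℚ K
  set ζ₀ : 𝓞 K := hζ₀K.toInteger with hζ₀def
  have hζ₀ : IsPrimitiveRoot ζ₀ p := hζ₀K.toInteger_isPrimitiveRoot
  obtain ⟨θ, a, hθp, hθ, hbp, hna⟩ := exists_normalized hθ₁p hθ₁ hb0 hab (prime_one_sub hζ₀)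
  have ha0 : a ≠ 0 := by
    rintro rfl
    exact hna (dvd_zero _)
  refine ⟨a, ha0, not_pow hθp hθ, fun ζ hζ τ k hτ => exists_map_eq hθp hθ h5 hζ τ k hτ, hbp, ?_⟩
  -- (iv) for `ζ₀`
  have hiv : ∃ w : 𝓞 K, (1 - ζ₀) ^ 3 ∣ a - w ^ p := by
    obtain ⟨P, hPprime, hP0, hlam1, hlam2, hsurj, hunder⟩ := exists_prime_over_lam h1 h2 hζ₀
    haveI := hPprime
    obtain ⟨w, hw⟩ := exists_sub_mem_pow hP0 hlam1 hlam2 hsurj 3 θ
    refine ⟨w, pow_dvd_of_mem_pow hP0 hlam1 hlam2 hunder 3 _ ?_⟩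
    rw [map_sub, map_pow, ← pow_eq_algebraMap hθp]
    obtain ⟨c, hc⟩ := sub_dvd_pow_sub_pow θ (algebraMap (𝓞 K) (𝓞 L) w) p
    rw [hc]
    exact Ideal.mul_mem_right _ _ hw
  intro ζ hζ
  obtain ⟨i, -, hi, rfl⟩ := hζ₀.isPrimitiveRoot_iff.mp hζ
  have hassoc : Associated (1 - ζ₀) (1 - ζ₀ ^ i) := by
    have := (hζ₀.associated_sub_one_pow_sub_one_of_coprime hi).neg_left.neg_right
    rwa [neg_sub, neg_sub] at this
  refine ⟨fun h => hna (hassoc.dvd_iff_dvd_left.mpr h), ?_⟩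
  obtain ⟨w, hw⟩ := hiv
  exact ⟨w, (hassoc.pow_pow (n := 3)).dvd_iff_dvd_left.mp hw⟩

end Final

end Fermat.Agent.Thaine.KummerGen
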