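import Fermat.Agent.Thaine.Defs

/-!
# Adapter: from the output shape of `exists_kummerGen` (helper11) to `Defs.KummerGen`

Uses `U1Statement` part 1 to turn a `p`-th power modulo `λ³` into an integer modulo `λ³`.
-/

set_option autoImplicit false

namespace Fermat.Agent.Thaine.KummerGenAdapter

open NumberField Fermat.Agent.Thaine.Defs

variable (p : ℕ) [Fact p.Prime] (K : Type) [Field K] [NumberField K]
  [IsCyclotomicExtension {p} ℚ K]

theorem zetaI_isPrimitiveRoot : IsPrimitiveRoot (zetaI p K) p :=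
  (IsCyclotomicExtension.zeta_spec p ℚ K).toInteger_isPrimitiveRoot

theorem zetaI_coe_isPrimitiveRoot : IsPrimitiveRoot ((zetaI p K : 𝓞 K) : K) p :=
  IsCyclotomicExtension.zeta_spec p ℚ K

/-- The shape delivered by `exists_kummerGen` implies `KummerGen`, given `U1Statement`. -/
theorem kummerGen_of (hU1 : U1Statement p K) {α : 𝓞 K} (h0 : α ≠ 0)
    (hi : ∀ γ : K, γ ^ p ≠ (α : K))
    (hii : ∀ ζ : K, IsPrimitiveRoot ζ p → ∀ (τ : K ≃ₐ[ℚ] K) (k : ℕ), τ ζ = ζ ^ k →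
      ∃ γ : K, τ (α : K) = (α : K) ^ (k ^ 2) * γ ^ p)
    (hiii : ∃ 𝔞 : Ideal (𝓞 K), Ideal.span {α} = 𝔞 ^ p)
    (hiv : ∀ ζ : 𝓞 K, IsPrimitiveRoot ζ p →
      ¬ (1 - ζ) ∣ α ∧ ∃ w : 𝓞 K, (1 - ζ) ^ 3 ∣ α - w ^ p) :
    KummerGen p K α := by
  have hp : p ≠ 0 := (Fact.out : p.Prime).ne_zero
  have hαK : (α : K) ≠ 0 := by
    intro h
    exact h0 (by exact_mod_cast h)
  obtain ⟨hlam, w, hw⟩ := hiv (zetaI p K) (zetaI_isPrimitiveRoot p K)
  have hw' : lam p K ^ 3 ∣ α - w ^ p := hw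
  have hlam' : α ∉ Ideal.span {lam p K} := by
    rw [Ideal.mem_span_singleton]
    exact hlam
  refine ⟨h0, ?_, ?_, hiii, hlam', ?_⟩
  · rintro ⟨x, hx⟩
    exact hi x hx
  · intro σ k hk
    have hζ := zetaI_coe_isPrimitiveRoot p K
    obtain ⟨γ, hγ⟩ := hii _ hζ σ k (hk _ hζ.pow_eq_one)
    refine ⟨γ, ?_, hγ⟩
    rintro rfl
    rw [zero_pow hp, mul_zero] at hγ
    exact hαK ((map_eq_zero σ).mp hγ)
  · -- `w` is a `λ`-unit
    have hwlam : w ∉ Ideal.span {lam p K} := by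
      intro hmem
      apply hlam'
      have h1 : w ^ p ∈ Ideal.span {lam p K} := Ideal.pow_mem_of_mem _ hmem p (Nat.pos_of_ne_zero hp)
      have h2 : α - w ^ p ∈ Ideal.span {lam p K} := by
        rw [Ideal.mem_span_singleton]
        exact (dvd_pow_self (lam p K) (by norm_num : 3 ≠ 0)).trans hw'
      have := Ideal.add_mem _ h2 h1
      simpa using this
    obtain ⟨n, hn⟩ := hU1.1 w hwlam
    refine ⟨n, ?_⟩
    have h2 : α - w ^ p ∈ Ideal.span {lam p K} ^ 3 := by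
      rw [Ideal.span_singleton_pow, Ideal.mem_span_singleton]
      exact hw'
    have := Ideal.add_mem _ h2 hn
    simpa using this

end Fermat.Agent.Thaine.KummerGenAdapter
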