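/-
Program E2 (S14 via Thaine), (E2-U1) helper9: **Kummer's computation modulo `λ³`** (`p ∤ B₂`).

Main export: `theorem u1 (h5 : 5 ≤ p) : Defs.U1Statement p K`.

Method (no quotient rings, no logarithm series):
* polynomial model: on `(ZMod p)[X]` the functional `l2 f = f₂/f₀ - (f₁/f₀)²/2` is additive on
  products of polynomials with nonzero constant term and only depends on `f₀, f₁, f₂`;
  for `U n = ∑_{j<n} (X+1)^j` one has `l2 (U n) = (n² - 6n + 5)/24`; with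
  `∑_c c⁻¹ = ∑_c c⁻² = 0` (`p ≥ 5`) the product `D = ∏_c U_c^[c⁻²]` has `l2 D = -1/24 ≠ 0`;
* transfer: with `μ = ζ - 1`, `G ∈ ℤ[X]` and `μ³ ∣ G(μ)` imply `p ∣ G₀, G₁, G₂`
  (`p ~ μ^(p-1)`, `(μ) ∩ ℤ = pℤ`);
* every integer of `K` is `≡` a rational integer mod `μ`, and `x ≡ n mod μ ⇒ x^p ≡ n^p mod μ³`;
* `dt = λ^S * d0`, `p ∣ S`, `d0 = D(μ)` a unit; a `p`-th root in `K` of an integer is an integer.

Other exports: `mu`, `mu_prime`, `mu_dvd_intCast_iff`, `exists_int_mu_dvd_sub`,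
`mu_cube_dvd_pow_sub_pow`, `d0`, `d0_eq`, `isUnit_d0`, `S`, `p_dvd_S`, `dt_eq`,
`dvd_of_mu_cube_dvd` (the integral form of the main statement), `mem_span_lam_iff`,
`mem_span_lam_cube_iff`, `dt_ne_zero`, `dt_not_pow`.
-/
import Mathlib
import Fermat.Agent.Thaine.Defs

set_option autoImplicit false

namespace Fermat.Agent.Thaine.KummerU1

open Polynomial NumberField

section Model

variable {k : Type*} [Field k]

/-- The second "logarithmic" functional on polynomials: `f₂/f₀ - (f₁/f₀)²/2`. -/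
noncomputable def l2 (f : k[X]) : k :=
  f.coeff 2 / f.coeff 0 - (f.coeff 1 / f.coeff 0) ^ 2 / 2

theorem coeff_two_mul (f g : k[X]) : (f * g).coeff 2 =
    f.coeff 0 * g.coeff 2 + f.coeff 1 * g.coeff 1 + f.coeff 2 * g.coeff 0 := by
  rw [Polynomial.coeff_mul]
  have : Finset.HasAntidiagonal.antidiagonal 2 = ({(0, 2), (1, 1), (2, 0)} : Finset (ℕ × ℕ)) := by
    decide
  rw [this]
  simp [add_assoc]

theorem l2_mul (h2 : (2 : k) ≠ 0) {f g : k[X]} (hf : f.coeff 0 ≠ 0) (hg : g.coeff 0 ≠ 0) :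
    l2 (f * g) = l2 f + l2 g := by
  unfold l2
  rw [coeff_two_mul, Polynomial.mul_coeff_one, Polynomial.mul_coeff_zero]
  field_simp
  ring

theorem l2_C (a : k) : l2 (C a) = 0 := by
  unfold l2
  simp [Polynomial.coeff_C]

theorem l2_one : l2 (1 : k[X]) = 0 := by
  have := l2_C (1 : k)
  simpa using this

theorem coeff_zero_pow_ne {f : k[X]} (hf : f.coeff 0 ≠ 0) (n : ℕ) : (f ^ n).coeff 0 ≠ 0 := by
  rw [← Polynomial.constantCoeff_apply, map_pow, Polynomial.constantCoeff_apply]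
  exact pow_ne_zero n hf

theorem l2_pow (h2 : (2 : k) ≠ 0) {f : k[X]} (hf : f.coeff 0 ≠ 0) (n : ℕ) :
    l2 (f ^ n) = n * l2 f := by
  induction n with
  | zero => simp [l2_one]
  | succ n ih =>
    rw [pow_succ, l2_mul h2 (coeff_zero_pow_ne hf n) hf, ih]
    push_cast
    ring

theorem coeff_zero_prod_ne {ι : Type*} (s : Finset ι) (f : ι → k[X])
    (hf : ∀ i ∈ s, (f i).coeff 0 ≠ 0) : (∏ i ∈ s, f i).coeff 0 ≠ 0 := by
  rw [← Polynomial.constantCoeff_apply, map_prod]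
  exact Finset.prod_ne_zero_iff.mpr (fun i hi => by simpa using hf i hi)

theorem l2_prod (h2 : (2 : k) ≠ 0) {ι : Type*} (s : Finset ι) (f : ι → k[X])
    (hf : ∀ i ∈ s, (f i).coeff 0 ≠ 0) : l2 (∏ i ∈ s, f i) = ∑ i ∈ s, l2 (f i) := by
  classical
  induction s using Finset.induction_on with
  | empty => simp [l2_one]
  | insert a s ha ih =>
    rw [Finset.prod_insert ha, Finset.sum_insert ha,
      l2_mul h2 (hf a (Finset.mem_insert_self a s))
        (coeff_zero_prod_ne s f (fun i hi => hf i (Finset.mem_insert_of_mem hi))),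
      ih (fun i hi => hf i (Finset.mem_insert_of_mem hi))]

/-- `l2` only depends on the first three coefficients. -/
theorem l2_congr {f g : k[X]} (h0 : f.coeff 0 = g.coeff 0) (h1 : f.coeff 1 = g.coeff 1)
    (h2 : f.coeff 2 = g.coeff 2) : l2 f = l2 g := by
  unfold l2
  rw [h0, h1, h2]

end Model

section GeomSum

variable (R : Type*) [CommRing R]

/-- `U n = ∑_{j<n} (X+1)^j`, the polynomial with `U n (ζ - 1) = ∑_{j<n} ζ^j`. -/
noncomputable def U (n : ℕ) : R[X] := ∑ j ∈ Finset.range n, (X + 1) ^ j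

theorem sum_range_choose (n i : ℕ) :
    ∑ j ∈ Finset.range n, j.choose i = n.choose (i + 1) := by
  induction n with
  | zero => simp
  | succ n ih => rw [Finset.sum_range_succ, ih, Nat.choose_succ_succ', add_comm]

theorem coeff_U (n i : ℕ) : (U R n).coeff i = ((n.choose (i + 1) : ℕ) : R) := by
  unfold U
  rw [Polynomial.finsetSum_coeff]
  simp_rw [Polynomial.coeff_X_add_one_pow]
  rw [← Nat.cast_sum, sum_range_choose]

theorem two_mul_choose_two (n : ℕ) : (2 : R) * ((n.choose 2 : ℕ) : R) = n * (n - 1) := by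
  induction n with
  | zero => simp
  | succ n ih =>
    rw [Nat.choose_succ_succ' n 1, Nat.choose_one_right]
    push_cast
    rw [mul_add, ih]
    ring

theorem six_mul_choose_three (n : ℕ) :
    (6 : R) * ((n.choose 3 : ℕ) : R) = n * (n - 1) * (n - 2) := by
  induction n with
  | zero => simp
  | succ n ih =>
    rw [Nat.choose_succ_succ' n 2]
    push_cast
    rw [mul_add, ih]
    have := two_mul_choose_two R n
    linear_combination 3 * this

theorem map_U {S : Type*} [CommRing S] (φ : R →+* S) (n : ℕ) : (U R n).map φ = U S n := by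
  unfold U
  simp [Polynomial.map_sum]

end GeomSum

section L2U

variable {k : Type*} [Field k]

theorem l2_U (h2 : (2 : k) ≠ 0) (h3 : (3 : k) ≠ 0) (n : ℕ) (hn : (n : k) ≠ 0) :
    l2 (U k n) = ((n : k) ^ 2 - 6 * n + 5) / 24 := by
  unfold l2
  rw [coeff_U, coeff_U, coeff_U, Nat.choose_one_right]
  have e2 := two_mul_choose_two k n
  have e6 := six_mul_choose_three k n
  have h24 : (24 : k) ≠ 0 := by
    have : (24 : k) = 2 * 2 * 2 * 3 := by norm_num
    rw [this]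
    exact mul_ne_zero (mul_ne_zero (mul_ne_zero h2 h2) h2) h3
  have h6 : (6 : k) ≠ 0 := by
    have : (6 : k) = 2 * 3 := by norm_num
    rw [this]
    exact mul_ne_zero h2 h3
  have ea : ((n.choose 2 : ℕ) : k) = n * (n - 1) / 2 := by
    field_simp
    linear_combination e2
  have eb : ((n.choose 3 : ℕ) : k) = n * (n - 1) * (n - 2) / 6 := by
    field_simp
    linear_combination e6
  rw [ea, eb]
  field_simp
  ring

end L2U


section Sums

variable (p : ℕ) [hp : Fact p.Prime]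

theorem sum_units_inv (h5 : 5 ≤ p) : ∑ c : (ZMod p)ˣ, ((c⁻¹ : (ZMod p)ˣ) : ZMod p) = 0 := by
  have h := FiniteField.sum_pow_units (ZMod p) 1
  rw [ZMod.card p, if_neg] at h
  · rw [← h]
    apply Fintype.sum_equiv (Equiv.inv (ZMod p)ˣ)
    intro c
    rw [pow_one]
    rfl
  · intro hd
    have := Nat.le_of_dvd one_pos hd
    omega

theorem sum_units_inv_sq (h5 : 5 ≤ p) :
    ∑ c : (ZMod p)ˣ, (((c⁻¹ : (ZMod p)ˣ) : ZMod p)) ^ 2 = 0 := by
  have h := FiniteField.sum_pow_units (ZMod p) 2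
  rw [ZMod.card p, if_neg] at h
  · rw [← h]
    apply Fintype.sum_equiv (Equiv.inv (ZMod p)ˣ)
    intro c
    rfl
  · intro hd
    have := Nat.le_of_dvd two_pos hd
    omega

theorem card_units_cast : ((Fintype.card (ZMod p)ˣ : ℕ) : ZMod p) = -1 := by
  rw [ZMod.card_units_eq_totient, Nat.totient_prime hp.out]
  have h1 : 1 ≤ p := hp.out.one_lt.le
  rw [Nat.cast_sub h1]
  simp

theorem two_ne_zero_zmod (h5 : 5 ≤ p) : (2 : ZMod p) ≠ 0 := by
  intro h
  have : ((2 : ℕ) : ZMod p) = 0 := by exact_mod_cast h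
  rw [ZMod.natCast_eq_zero_iff] at this
  have := Nat.le_of_dvd two_pos this
  omega

theorem three_ne_zero_zmod (h5 : 5 ≤ p) : (3 : ZMod p) ≠ 0 := by
  intro h
  have : ((3 : ℕ) : ZMod p) = 0 := by exact_mod_cast h
  rw [ZMod.natCast_eq_zero_iff] at this
  have := Nat.le_of_dvd (by norm_num) this
  omega

theorem e2_cast (c : (ZMod p)ˣ) :
    ((Defs.e2 p c : ℕ) : ZMod p) = (((c⁻¹ : (ZMod p)ˣ) : ZMod p)) ^ 2 := by
  unfold Defs.e2
  rw [ZMod.natCast_zmod_val]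
  push_cast
  rfl

/-- The polynomial `D = ∏_c U_c ^ [c⁻²]` with `D (ζ - 1) = d0`. -/
noncomputable def D (R : Type*) [CommRing R] : R[X] :=
  ∏ c : (ZMod p)ˣ, U R (c : ZMod p).val ^ Defs.e2 p c

theorem map_D {R S : Type*} [CommRing R] [CommRing S] (φ : R →+* S) :
    (D p R).map φ = D p S := by
  unfold D
  simp [Polynomial.map_prod, map_U]

theorem coeff_zero_U_ne (c : (ZMod p)ˣ) : (U (ZMod p) (c : ZMod p).val).coeff 0 ≠ 0 := by
  rw [coeff_U, Nat.choose_one_right, ZMod.natCast_zmod_val]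
  exact c.ne_zero

theorem coeff_zero_D_ne : (D p (ZMod p)).coeff 0 ≠ 0 := by
  unfold D
  apply coeff_zero_prod_ne
  intro c _
  exact coeff_zero_pow_ne (coeff_zero_U_ne p c) _

theorem l2_D (h5 : 5 ≤ p) : l2 (D p (ZMod p)) = -1 / 24 := by
  have h2 := two_ne_zero_zmod p h5
  have h3 := three_ne_zero_zmod p h5
  unfold D
  rw [l2_prod h2 _ _ (fun c _ => coeff_zero_pow_ne (coeff_zero_U_ne p c) _)]
  have : ∀ c : (ZMod p)ˣ, l2 (U (ZMod p) (c : ZMod p).val ^ Defs.e2 p c) =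
      (1 - 6 * ((c⁻¹ : (ZMod p)ˣ) : ZMod p) + 5 * (((c⁻¹ : (ZMod p)ˣ) : ZMod p)) ^ 2) / 24 := by
    intro c
    have hc : (((c : ZMod p).val : ℕ) : ZMod p) ≠ 0 := by
      rw [ZMod.natCast_zmod_val]
      exact c.ne_zero
    rw [l2_pow h2 (coeff_zero_U_ne p c), l2_U h2 h3 _ hc, e2_cast, ZMod.natCast_zmod_val]
    have hci : ((c⁻¹ : (ZMod p)ˣ) : ZMod p) * (c : ZMod p) = 1 := by
      rw [← Units.val_mul, inv_mul_cancel, Units.val_one]
    generalize ((c⁻¹ : (ZMod p)ˣ) : ZMod p) = y at hci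
    generalize (c : ZMod p) = x at hci
    have hy2 : y ^ 2 * x ^ 2 = 1 := by rw [← mul_pow, hci, one_pow]
    linear_combination (1 / 24 : ZMod p) * hy2 - (6 / 24 : ZMod p) * y * hci
  simp_rw [this]
  rw [← Finset.sum_div, Finset.sum_add_distrib, Finset.sum_sub_distrib, ← Finset.mul_sum,
    ← Finset.mul_sum, sum_units_inv p h5, sum_units_inv_sq p h5, Finset.sum_const,
    Finset.card_univ, nsmul_eq_mul, card_units_cast]
  ring

end Sums


section Transfer

variable (p : ℕ) [hp : Fact p.Prime] (K : Type) [Field K] [NumberField K]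
  [IsCyclotomicExtension {p} ℚ K]

/-- `μ = ζ - 1`. -/
noncomputable def mu : 𝓞 K := Defs.zetaI p K - 1

theorem mu_prime : Prime (mu p K) :=
  (IsCyclotomicExtension.zeta_spec p ℚ K).zeta_sub_one_prime'

theorem mu_ne_zero : mu p K ≠ 0 := (mu_prime p K).ne_zero

theorem mu_dvd_intCast_iff (n : ℤ) : mu p K ∣ (n : 𝓞 K) ↔ (p : ℤ) ∣ n :=
  IsCyclotomicExtension.Rat.zeta_sub_one_dvd_intCast_iff' p
    (IsCyclotomicExtension.zeta_spec p ℚ K)

theorem mu_pow_dvd_p : mu p K ^ (p - 1) ∣ (p : 𝓞 K) :=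
  (IsCyclotomicExtension.Rat.associated_zeta_sub_one_pow_prime p
    (IsCyclotomicExtension.zeta_spec p ℚ K)).dvd

theorem mu_cube_dvd_p (h5 : 5 ≤ p) : mu p K ^ 3 ∣ (p : 𝓞 K) :=
  (pow_dvd_pow _ (by omega)).trans (mu_pow_dvd_p p K)

theorem mu_cube_dvd_intCast (h5 : 5 ≤ p) (n : ℤ) (h : mu p K ∣ (n : 𝓞 K)) :
    mu p K ^ 3 ∣ (n : 𝓞 K) := by
  rw [mu_dvd_intCast_iff] at h
  obtain ⟨m, rfl⟩ := h
  push_cast
  exact Dvd.dvd.mul_right (mu_cube_dvd_p p K h5) _

/-- Linear independence of `1, μ, μ²` modulo `μ³` over `𝔽_p`. -/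
theorem dvd_coeff_of_mu_cube_dvd (h5 : 5 ≤ p) (G : ℤ[X]) (h : mu p K ^ 3 ∣ aeval (mu p K) G) :
    (p : ℤ) ∣ G.coeff 0 ∧ (p : ℤ) ∣ G.coeff 1 ∧ (p : ℤ) ∣ G.coeff 2 := by
  set μ := mu p K with hμ
  have hμ0 : μ ≠ 0 := mu_ne_zero p K
  -- decomposition
  have e1 := divX_mul_X_add G
  have e2 := divX_mul_X_add (divX G)
  have e3 := divX_mul_X_add (divX (divX G))
  rw [coeff_divX] at e2 e3
  rw [coeff_divX] at e3
  simp only [zero_add] at e2 e3
  set H := divX (divX (divX G)) with hH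
  have eG : aeval μ G = (G.coeff 0 : 𝓞 K) + μ * ((G.coeff 1 : 𝓞 K) +
      μ * ((G.coeff 2 : 𝓞 K) + μ * aeval μ H)) := by
    conv_lhs => rw [← e1, ← e2, ← e3]
    simp only [map_add, map_mul, aeval_X, eq_intCast, map_intCast]
    ring
  rw [eG] at h
  -- step 0
  have h0 : μ ∣ (G.coeff 0 : 𝓞 K) := by
    have h' : μ ∣ (G.coeff 0 : 𝓞 K) + μ * ((G.coeff 1 : 𝓞 K) +
      μ * ((G.coeff 2 : 𝓞 K) + μ * aeval μ H)) := (dvd_pow_self μ (by norm_num)).trans h
    exact (dvd_add_left (dvd_mul_right μ _)).mp h'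
  have h0' := mu_cube_dvd_intCast p K h5 _ h0
  have h1a : μ ^ 3 ∣ μ * ((G.coeff 1 : 𝓞 K) + μ * ((G.coeff 2 : 𝓞 K) + μ * aeval μ H)) :=
    (dvd_add_right h0').mp h
  have h1b : μ ^ 2 ∣ (G.coeff 1 : 𝓞 K) + μ * ((G.coeff 2 : 𝓞 K) + μ * aeval μ H) := by
    rw [pow_succ' μ 2] at h1a
    exact (mul_dvd_mul_iff_left hμ0).mp h1a
  have h1 : μ ∣ (G.coeff 1 : 𝓞 K) := by
    have h' := (dvd_pow_self μ (by norm_num)).trans h1b
    exact (dvd_add_left (dvd_mul_right μ _)).mp h'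
  have h1' := mu_cube_dvd_intCast p K h5 _ h1
  have h2a : μ ^ 2 ∣ μ * ((G.coeff 2 : 𝓞 K) + μ * aeval μ H) :=
    (dvd_add_right ((pow_dvd_pow μ (by norm_num)).trans h1')).mp h1b
  have h2b : μ ∣ (G.coeff 2 : 𝓞 K) + μ * aeval μ H := by
    rw [pow_succ' μ 1, pow_one] at h2a
    exact (mul_dvd_mul_iff_left hμ0).mp h2a
  have h2 : μ ∣ (G.coeff 2 : 𝓞 K) := (dvd_add_left (dvd_mul_right μ _)).mp h2b
  exact ⟨(mu_dvd_intCast_iff p K _).mp h0, (mu_dvd_intCast_iff p K _).mp h1,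
    (mu_dvd_intCast_iff p K _).mp h2⟩

/-- Every integer of `K` is congruent to a rational integer modulo `μ`. -/
theorem exists_int_mu_dvd_sub (x : 𝓞 K) : ∃ n : ℤ, mu p K ∣ x - (n : 𝓞 K) := by
  have hζ := IsCyclotomicExtension.zeta_spec p ℚ K
  have htop : Algebra.adjoin ℤ {Defs.zetaI p K} = ⊤ := by
    have := (hζ.integralPowerBasis).adjoin_gen_eq_top
    rwa [hζ.integralPowerBasis_gen] at this
  have hx : x ∈ Algebra.adjoin ℤ {Defs.zetaI p K} := by rw [htop]; trivial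
  induction hx using Algebra.adjoin_induction with
  | mem y hy =>
    rw [Set.mem_singleton_iff] at hy
    exact ⟨1, by rw [hy, Int.cast_one]; exact dvd_refl _⟩
  | algebraMap r => exact ⟨r, by simp⟩
  | add y z _ _ hy hz =>
    obtain ⟨a, ha⟩ := hy
    obtain ⟨b, hb⟩ := hz
    refine ⟨a + b, ?_⟩
    have : y + z - ((a + b : ℤ) : 𝓞 K) = (y - a) + (z - b) := by push_cast; ring
    rw [this]
    exact dvd_add ha hb
  | mul y z _ _ hy hz =>
    obtain ⟨a, ha⟩ := hy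
    obtain ⟨b, hb⟩ := hz
    refine ⟨a * b, ?_⟩
    have : y * z - ((a * b : ℤ) : 𝓞 K) = (y - a) * z + (a : 𝓞 K) * (z - b) := by
      push_cast; ring
    rw [this]
    exact dvd_add (Dvd.dvd.mul_right ha _) (Dvd.dvd.mul_left hb _)


/-- `p`-th powers are congruent to `p`-th powers of integers modulo `μ³`. -/
theorem mu_cube_dvd_pow_sub_pow (h3 : 3 ≤ p) {x : 𝓞 K} {n : ℤ} (h : mu p K ∣ x - n) :
    mu p K ^ 3 ∣ x ^ p - (n : 𝓞 K) ^ p := by
  obtain ⟨y, hy⟩ := h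
  have hx : x = (n : 𝓞 K) + mu p K * y := by rw [← hy]; ring
  obtain ⟨r, hr⟩ := exists_add_pow_prime_eq hp.out (n : 𝓞 K) (mu p K * y)
  rw [hx, hr]
  have e : (n : 𝓞 K) ^ p + (mu p K * y) ^ p + (p : 𝓞 K) * n * (mu p K * y) * r - (n : 𝓞 K) ^ p =
      mu p K ^ p * y ^ p + ((p : 𝓞 K) * mu p K) * (n * y * r) := by ring
  rw [e]
  apply dvd_add
  · exact Dvd.dvd.mul_right (pow_dvd_pow _ (by omega)) _
  · apply Dvd.dvd.mul_right
    have h1 : mu p K ^ (p - 1) * mu p K ∣ (p : 𝓞 K) * mu p K :=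
      mul_dvd_mul_right (mu_pow_dvd_p p K) _
    rw [← pow_succ] at h1
    exact (pow_dvd_pow _ (by omega)).trans h1

/-- The unit `d0 = ∏_c (∑_{j<c} ζ^j)^[c⁻²]`, as the value of `D` at `μ`. -/
noncomputable def d0 : 𝓞 K := aeval (mu p K) (D p ℤ)

/-- **Kummer's computation** (`p ∤ B₂`): if `d0^j v^p` is congruent to a rational integer modulo
`μ³`, with `v` prime to `μ`, then `p ∣ j`. -/
theorem dvd_of_mu_cube_dvd (h5 : 5 ≤ p) (j : ℕ) (v : 𝓞 K) (hv : ¬ mu p K ∣ v) (n : ℤ)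
    (h : mu p K ^ 3 ∣ d0 p K ^ j * v ^ p - (n : 𝓞 K)) : p ∣ j := by
  obtain ⟨m, hm⟩ := exists_int_mu_dvd_sub p K v
  have hvm := mu_cube_dvd_pow_sub_pow p K (by omega) hm
  have hpm : ¬ (p : ℤ) ∣ m := by
    intro hd
    apply hv
    have := (mu_dvd_intCast_iff p K m).mpr hd
    have h2 := dvd_add hm this
    rwa [sub_add_cancel] at h2
  set G : ℤ[X] := D p ℤ ^ j * C (m ^ p) - C n with hG
  have eG : aeval (mu p K) G = d0 p K ^ j * (m : 𝓞 K) ^ p - (n : 𝓞 K) := by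
    simp only [hG, map_sub, map_mul, map_pow, aeval_C, d0]
    simp only [algebraMap_int_eq, eq_intCast]
  have hdvd : mu p K ^ 3 ∣ aeval (mu p K) G := by
    rw [eG]
    have : d0 p K ^ j * (m : 𝓞 K) ^ p - (n : 𝓞 K) =
        (d0 p K ^ j * v ^ p - (n : 𝓞 K)) - d0 p K ^ j * (v ^ p - (m : 𝓞 K) ^ p) := by ring
    rw [this]
    exact dvd_sub h (Dvd.dvd.mul_left hvm _)
  obtain ⟨g0, g1, g2⟩ := dvd_coeff_of_mu_cube_dvd p K h5 G hdvd
  -- pass to `ZMod p`
  set f : (ZMod p)[X] := D p (ZMod p) ^ j * C ((m : ZMod p) ^ p) with hf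
  have emap : G.map (Int.castRingHom (ZMod p)) = f - C (n : ZMod p) := by
    simp only [hG, hf, Polynomial.map_sub, Polynomial.map_mul, Polynomial.map_pow, map_D,
      Polynomial.map_C]
    simp only [eq_intCast, Int.cast_pow]
  have hco : ∀ i, (p : ℤ) ∣ G.coeff i → f.coeff i = (C (n : ZMod p)).coeff i := by
    intro i hi
    have h1 : (G.map (Int.castRingHom (ZMod p))).coeff i = 0 := by
      rw [Polynomial.coeff_map, eq_intCast]
      exact (ZMod.intCast_zmod_eq_zero_iff_dvd _ p).mpr hi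
    rw [emap, Polynomial.coeff_sub, sub_eq_zero] at h1
    exact h1
  have hl : l2 f = 0 := by
    rw [l2_congr (hco 0 g0) (hco 1 g1) (hco 2 g2), l2_C]
  have h2 := two_ne_zero_zmod p h5
  have h3 := three_ne_zero_zmod p h5
  have hm0 : (m : ZMod p) ^ p ≠ 0 := by
    apply pow_ne_zero
    rwa [Ne, ZMod.intCast_zmod_eq_zero_iff_dvd]
  rw [hf, l2_mul h2 (coeff_zero_pow_ne (coeff_zero_D_ne p) j) (by simpa using hm0),
    l2_pow h2 (coeff_zero_D_ne p), l2_D p h5, l2_C, add_zero] at hl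
  have h24 : (24 : ZMod p) ≠ 0 := by
    have : (24 : ZMod p) = 2 * 2 * 2 * 3 := by norm_num
    rw [this]
    exact mul_ne_zero (mul_ne_zero (mul_ne_zero h2 h2) h2) h3
  have hj : (j : ZMod p) = 0 := by
    have h' : (j : ZMod p) * (-1 / 24) = 0 := hl
    rcases mul_eq_zero.mp h' with h'' | h''
    · exact h''
    · exfalso
      rw [div_eq_zero_iff] at h''
      rcases h'' with h'' | h''
      · exact one_ne_zero (neg_eq_zero.mp h'')
      · exact h24 h''
  exact (ZMod.natCast_eq_zero_iff j p).mp hj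


theorem aeval_U (n : ℕ) :
    aeval (mu p K) (U ℤ n) = ∑ j ∈ Finset.range n, Defs.zetaI p K ^ j := by
  unfold U mu
  simp [map_sum]

theorem d0_eq : d0 p K =
    ∏ c : (ZMod p)ˣ, (∑ j ∈ Finset.range (c : ZMod p).val, Defs.zetaI p K ^ j) ^ Defs.e2 p c := by
  unfold d0 D
  simp [map_prod, aeval_U]

theorem zetaI_isPrimitiveRoot : IsPrimitiveRoot (Defs.zetaI p K) p :=
  (IsCyclotomicExtension.zeta_spec p ℚ K).toInteger_isPrimitiveRoot

theorem isUnit_d0 : IsUnit (d0 p K) := by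
  rw [d0_eq]
  have : ∀ c : (ZMod p)ˣ, IsUnit ((∑ j ∈ Finset.range (c : ZMod p).val, Defs.zetaI p K ^ j) ^
      Defs.e2 p c) := by
    intro c
    apply IsUnit.pow
    apply (zetaI_isPrimitiveRoot p K).geom_sum_isUnit hp.out.two_le
    exact (ZMod.val_coe_unit_coprime c)
  exact (Finset.univ : Finset (ZMod p)ˣ).prod_induction _ IsUnit (fun a b ha hb => ha.mul hb)
    isUnit_one (fun c _ => this c)

/-- The total exponent `S = ∑_c [c⁻²]`. -/
noncomputable def S : ℕ := ∑ c : (ZMod p)ˣ, Defs.e2 p c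

theorem p_dvd_S (h5 : 5 ≤ p) : p ∣ S p := by
  rw [← ZMod.natCast_eq_zero_iff]
  unfold S
  push_cast
  simp_rw [e2_cast]
  exact sum_units_inv_sq p h5

theorem dt_eq : Defs.dt p K = Defs.lam p K ^ S p * d0 p K := by
  unfold Defs.dt S
  rw [d0_eq, ← Finset.prod_pow_eq_pow_sum, ← Finset.prod_mul_distrib]
  apply Finset.prod_congr rfl
  intro c _
  rw [← mul_pow]
  congr 1
  unfold Defs.lam
  rw [mul_neg_geom_sum]

theorem lam_eq_neg_mu : Defs.lam p K = - mu p K := by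
  unfold Defs.lam mu
  ring

theorem mem_span_lam_iff (x : 𝓞 K) : x ∈ Ideal.span {Defs.lam p K} ↔ mu p K ∣ x := by
  rw [Ideal.mem_span_singleton, lam_eq_neg_mu, neg_dvd]

theorem mem_span_lam_cube_iff (x : 𝓞 K) :
    x ∈ Ideal.span {Defs.lam p K} ^ 3 ↔ mu p K ^ 3 ∣ x := by
  rw [Ideal.span_singleton_pow, Ideal.mem_span_singleton, lam_eq_neg_mu, Odd.neg_pow (by decide),
    neg_dvd]

/-- **(E2-U1)** Kummer's computation modulo `λ³`. -/
theorem u1 (h5 : 5 ≤ p) : Defs.U1Statement p K := by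
  refine ⟨?_, ?_⟩
  · intro x _
    obtain ⟨m, hm⟩ := exists_int_mu_dvd_sub p K x
    refine ⟨m ^ p, ?_⟩
    rw [mem_span_lam_cube_iff]
    push_cast
    exact mu_cube_dvd_pow_sub_pow p K (by omega) hm
  · intro j x y hy hyx hn
    obtain ⟨n, hn⟩ := hn
    rw [mem_span_lam_iff] at hy
    rw [mem_span_lam_cube_iff] at hn
    obtain ⟨s, hs⟩ := p_dvd_S p h5
    obtain ⟨w, hw⟩ := (isUnit_d0 p K).exists_right_inv
    -- the `p`-th root
    simp only [RingOfIntegers.coe_eq_algebraMap] at hyx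
    set x' : K := (algebraMap (𝓞 K) K (Defs.lam p K)) ^ (s * j) * x with hx'
    have hd0K : algebraMap (𝓞 K) K (d0 p K) ≠ 0 := by
      rw [Ne, RingOfIntegers.coe_eq_zero_iff]
      exact (isUnit_d0 p K).ne_zero
    have e1 : x' ^ p = algebraMap (𝓞 K) K (y * w ^ j) := by
      have hwK : algebraMap (𝓞 K) K w = (algebraMap (𝓞 K) K (d0 p K))⁻¹ := by
        apply eq_inv_of_mul_eq_one_right
        rw [← map_mul, hw, map_one]
      rw [map_mul, hyx, dt_eq, hs, map_pow, hwK, hx', map_mul, map_pow]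
      have hd : (algebraMap (𝓞 K) K (d0 p K)) ^ j * ((algebraMap (𝓞 K) K (d0 p K))⁻¹) ^ j = 1 := by
        rw [← mul_pow, mul_inv_cancel₀ hd0K, one_pow]
      linear_combination (-((algebraMap (𝓞 K) K (Defs.lam p K)) ^ (s * j * p) * x ^ p)) * hd
    obtain ⟨v, hv⟩ := IsIntegrallyClosed.exists_algebraMap_eq_of_isIntegral_pow (R := 𝓞 K)
      (K := K) hp.out.pos (x := x') (by rw [e1]; exact isIntegral_algebraMap)
    have e2 : v ^ p = y * w ^ j := by
      apply RingOfIntegers.coe_injective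
      rw [← e1, ← hv, map_pow]
    have e3 : d0 p K ^ j * v ^ p = y := by
      rw [e2]
      calc d0 p K ^ j * (y * w ^ j) = y * (d0 p K * w) ^ j := by ring
        _ = y := by rw [hw, one_pow, mul_one]
    have hvμ : ¬ mu p K ∣ v := by
      intro hd
      apply hy
      rw [← e3]
      exact Dvd.dvd.mul_left (dvd_pow hd hp.out.ne_zero) _
    apply dvd_of_mu_cube_dvd p K h5 j v hvμ n
    rw [e3]
    exact hn


theorem dt_ne_zero : Defs.dt p K ≠ 0 := by
  rw [dt_eq]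
  apply mul_ne_zero
  · apply pow_ne_zero
    rw [lam_eq_neg_mu]
    exact neg_ne_zero.mpr (mu_ne_zero p K)
  · exact (isUnit_d0 p K).ne_zero

/-- `dt` is not a `p`-th power in `K` (consequence of `u1`). -/
theorem dt_not_pow (h5 : 5 ≤ p) : ¬ ∃ z : K, z ^ p = (Defs.dt p K : K) := by
  rintro ⟨z, hz⟩
  have hdt : (Defs.dt p K : K) ≠ 0 := by
    rw [RingOfIntegers.coe_eq_algebraMap, Ne, RingOfIntegers.coe_eq_zero_iff]
    exact dt_ne_zero p K
  have hz0 : z ≠ 0 := by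
    rintro rfl
    rw [zero_pow hp.out.ne_zero] at hz
    exact hdt hz.symm
  have h1 : (1 : 𝓞 K) ∉ Ideal.span {Defs.lam p K} := by
    rw [mem_span_lam_iff]
    exact fun h => (mu_prime p K).not_isUnit (isUnit_of_dvd_one h)
  have := (u1 p K h5).2 1 z⁻¹ 1 h1 (by
    rw [← hz, pow_one, inv_pow, RingOfIntegers.coe_eq_algebraMap, map_one]
    exact (mul_inv_cancel₀ (pow_ne_zero p hz0)).symm) ⟨1, by simp⟩
  exact hp.out.one_lt.ne' (Nat.dvd_one.mp this)

end Transfer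

end Fermat.Agent.Thaine.KummerU1
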