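/-
Program E2 (S14 via Thaine), helper20: (E2-FIN) assembly of `NoOmegaInvExt p` for `p ≥ 3` from
the remaining pieces, given as hypotheses:

* `hCl  : ClStatement p K`  (class groups: Thaine + FACT G),
* `hU2  : U2Statement p K`  (units).
-/
import Fermat.Agent.S14.Interface
import Fermat.Agent.Thaine.CaseThree
import Fermat.Agent.Thaine.KummerGen
import Fermat.Agent.Thaine.KummerGenAdapter
import Fermat.Agent.Thaine.KummerU1
import Fermat.Agent.Thaine.FinCore

set_option autoImplicit false
set_option linter.style.haveILetI false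

open NumberField Fermat.Agent.Thaine.Defs

namespace Fermat.Agent.Thaine.FinalOf

/-- `NoOmegaInvExt p` for a prime `p ≥ 5` from `ClStatement` and `U2Statement`. -/
theorem noOmegaInvExt_of_five_le (p : ℕ) [Fact p.Prime] (h5 : 5 ≤ p)
    (hCl : ∀ (K : Type) [Field K] [NumberField K] [IsCyclotomicExtension {p} ℚ K],
      ClStatement p K)
    (hU2 : ∀ (K : Type) [Field K] [NumberField K] [IsCyclotomicExtension {p} ℚ K],
      U2Statement p K) :
    Fermat.Agent.S14.Interface.NoOmegaInvExt p := by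
  intro K L _ _ _ _ _ _ _ _ hdeg h1 h2 _ h5'
  have hU1 := Fermat.Agent.Thaine.KummerU1.u1 p K h5
  obtain ⟨α, h0, hi, hii, hiii, hiv⟩ :=
    Fermat.Agent.Thaine.KummerGen.exists_kummerGen K L hdeg h1 h2 h5'
  exact Fermat.Agent.Thaine.FinCore.false_of_kummerGen p K
    (Fermat.Agent.Thaine.KummerGenAdapter.kummerGen_of p K hU1 h0 hi hii hiii hiv)
    (hCl K) hU1 (hU2 K)

/-- `NoOmegaInvExt p` for every prime `p ≥ 3` from `ClStatement` and `U2Statement` for `p ≥ 5`. -/
theorem noOmegaInvExt_of (p : ℕ) [Fact p.Prime] (h3 : 3 ≤ p)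
    (hCl : 5 ≤ p → ∀ (K : Type) [Field K] [NumberField K] [IsCyclotomicExtension {p} ℚ K],
      ClStatement p K)
    (hU2 : 5 ≤ p → ∀ (K : Type) [Field K] [NumberField K] [IsCyclotomicExtension {p} ℚ K],
      U2Statement p K) :
    Fermat.Agent.S14.Interface.NoOmegaInvExt p := by
  rcases Nat.lt_or_ge p 5 with h | h
  · have hp : p.Prime := Fact.out
    have h34 : p = 3 ∨ p = 4 := by omega
    rcases h34 with rfl | rfl
    · exact Fermat.Agent.Thaine.CaseThree.noOmegaInvExt_three
    · exact absurd hp (by decide)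
  · exact noOmegaInvExt_of_five_le p h (hCl h) (hU2 h)

end Fermat.Agent.Thaine.FinalOf
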