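/-
Program E2 (S14, Thaine track), piece (U2-a) (helper15): Minkowski units.

For a number field `K` Galois over `ℚ` there is a unit `η` whose Galois conjugates generate a
subgroup of finite index in the unit group: some fixed power `u ^ m`, `m ≥ 1`, of every unit `u`
lies in the subgroup generated by the conjugates of `η`.
-/
import Mathlib

set_option autoImplicit false
set_option linter.style.haveILetI false

namespace Fermat.Agent.Thaine.MinkowskiUnit

open NumberField NumberField.Units NumberField.Units.dirichletUnitTheorem NumberField.InfinitePlace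
open Module Finset Matrix

variable (K : Type*) [Field K] [NumberField K]

/-! ### Conjugation of units -/

/-- The action of `σ ∈ Gal(K/ℚ)` on the units of `𝓞 K`, as a monoid homomorphism. -/
noncomputable def conjUnit (σ : K ≃ₐ[ℚ] K) : (𝓞 K)ˣ →* (𝓞 K)ˣ :=
  Units.map ((MulSemiringAction.toRingHom (K ≃ₐ[ℚ] K) (𝓞 K) σ : 𝓞 K →+* 𝓞 K) : 𝓞 K →* 𝓞 K)

variable {K}

@[simp] theorem coe_conjUnit (σ : K ≃ₐ[ℚ] K) (u : (𝓞 K)ˣ) :
    ((conjUnit K σ u : (𝓞 K)ˣ) : 𝓞 K) = σ • (u : 𝓞 K) := rfl

theorem coe_coe_conjUnit (σ : K ≃ₐ[ℚ] K) (u : (𝓞 K)ˣ) :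
    (((conjUnit K σ u : (𝓞 K)ˣ) : 𝓞 K) : K) = σ ((u : 𝓞 K) : K) := rfl

theorem conjUnit_one (u : (𝓞 K)ˣ) : conjUnit K 1 u = u := by
  apply Units.ext
  rw [coe_conjUnit, one_smul]

theorem conjUnit_mul (σ τ : K ≃ₐ[ℚ] K) (u : (𝓞 K)ˣ) :
    conjUnit K (σ * τ) u = conjUnit K σ (conjUnit K τ u) := by
  apply Units.ext
  rw [coe_conjUnit, coe_conjUnit, coe_conjUnit, mul_smul]

/-- The value of an infinite place at a conjugate unit. -/
theorem place_conjUnit (w : InfinitePlace K) (σ : K ≃ₐ[ℚ] K) (u : (𝓞 K)ˣ) :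
    w (((conjUnit K σ u : (𝓞 K)ˣ) : 𝓞 K) : K) = (σ⁻¹ • w) ((u : 𝓞 K) : K) := by
  rw [coe_coe_conjUnit, InfinitePlace.smul_apply]
  rfl

/-! ### Spanning families of units -/

set_option backward.isDefEq.respectTransparency.types false in
/-- A family of units `u w`, indexed by the infinite places, with `log (w' (u w)) < 0` for all
`w' ≠ w`, has `ℝ`-spanning image under the logarithmic embedding (the determinant argument of
Mathlib's `unitLattice_span_eq_top`). -/
theorem span_logEmbedding_eq_top (u : InfinitePlace K → (𝓞 K)ˣ)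
    (hu : ∀ w w' : InfinitePlace K, w' ≠ w → Real.log (w' ((u w : 𝓞 K) : K)) < 0) :
    Submodule.span ℝ (Set.range fun w : {w : InfinitePlace K // w ≠ w₀} =>
      logEmbedding K (Additive.ofMul (u w.1))) = ⊤ := by
  classical
  let B := Pi.basisFun ℝ {w : InfinitePlace K // w ≠ w₀}
  let v := fun w : { w : InfinitePlace K // w ≠ w₀ } ↦ logEmbedding K (Additive.ofMul (u w.1))
  suffices B.det v ≠ 0 by
    rw [← isUnit_iff_ne_zero, ← Basis.is_basis_iff_det] at this
    exact this.2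
  rw [Basis.det_apply]
  refine det_ne_zero_of_sum_col_lt_diag (fun w ↦ ?_)
  simp_rw [Real.norm_eq_abs, B, Basis.coePiBasisFun.toMatrix_eq_transpose, Matrix.transpose_apply]
  rw [← sub_pos, sum_congr rfl (fun x hx ↦ abs_of_neg ?_), sum_neg_distrib, sub_neg_eq_add,
    sum_erase_eq_sub (mem_univ _), ← add_comm_sub]
  · refine add_pos_of_nonneg_of_pos ?_ ?_
    · rw [sub_nonneg]
      exact le_abs_self _
    · rw [sum_logEmbedding_component (u w.1)]
      refine mul_pos_of_neg_of_neg ?_ (hu w.1 _ w.prop.symm)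
      rw [mult]; split_ifs <;> norm_num
  · refine mul_neg_of_pos_of_neg ?_ (hu w.1 x ?_)
    · rw [mult]; split_ifs <;> norm_num
    · exact Subtype.ext_iff.not.mp (ne_of_mem_erase hx)

/-! ### Finite index -/

/-- A `ℤ`-submodule of the unit lattice spanning the log space over `ℝ` has a uniform exponent in
the unit lattice. -/
theorem exists_nsmul_mem (Λ : Submodule ℤ (logSpace K)) (hle : Λ ≤ unitLattice K)
    (hspan : Submodule.span ℝ (Λ : Set (logSpace K)) = ⊤) :
    ∃ m : ℕ, 0 < m ∧ ∀ x ∈ unitLattice K, m • x ∈ Λ := by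
  classical
  haveI : DiscreteTopology Λ :=
    DiscreteTopology.of_subset (s := (unitLattice K : Set (logSpace K)))
      (inferInstanceAs (DiscreteTopology (unitLattice K))) hle
  haveI : IsZLattice ℝ Λ := ⟨hspan⟩
  haveI : Module.Free ℤ (unitLattice K) := ZLattice.module_free ℝ _
  haveI : Module.Finite ℤ (unitLattice K) := ZLattice.module_finite ℝ _
  let N : Submodule ℤ (unitLattice K) := Submodule.comap (unitLattice K).subtype Λ
  have hrank : finrank ℤ N = finrank ℤ (unitLattice K) := by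
    rw [(Submodule.comapSubtypeEquivOfLe hle).finrank_eq, ZLattice.rank ℝ Λ,
      ZLattice.rank ℝ (unitLattice K)]
  haveI : Finite (unitLattice K ⧸ N) := Submodule.finiteQuotientOfFreeOfRankEq N hrank
  refine ⟨Nat.card (unitLattice K ⧸ N), Nat.card_pos, fun x hx => ?_⟩
  have h1 : Nat.card (unitLattice K ⧸ N) • (Submodule.Quotient.mk (p := N) ⟨x, hx⟩) = 0 :=
    card_nsmul_eq_zero'
  rw [← Submodule.Quotient.mk_smul, Submodule.Quotient.mk_eq_zero] at h1
  exact h1

/-- A subgroup of the unit group whose image under the logarithmic embedding spans the log space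
over `ℝ` contains a fixed positive power of every unit. -/
theorem exists_pow_mem_of_span (S : Subgroup (𝓞 K)ˣ)
    (hspan : Submodule.span ℝ
      ((fun u : (𝓞 K)ˣ => logEmbedding K (Additive.ofMul u)) '' (S : Set (𝓞 K)ˣ)) = ⊤) :
    ∃ m : ℕ, 0 < m ∧ ∀ u : (𝓞 K)ˣ, u ^ m ∈ S := by
  classical
  let Λ : Submodule ℤ (logSpace K) :=
    AddSubgroup.toIntSubmodule (S.toAddSubgroup.map (logEmbedding K))
  have hmem : ∀ x, x ∈ Λ ↔ ∃ s ∈ S, logEmbedding K (Additive.ofMul s) = x := by
    intro x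
    constructor
    · rintro ⟨s, hs, rfl⟩
      exact ⟨Additive.toMul s, hs, rfl⟩
    · rintro ⟨s, hs, rfl⟩
      exact ⟨Additive.ofMul s, hs, rfl⟩
  have hle : Λ ≤ unitLattice K := by
    intro x hx
    obtain ⟨s, -, rfl⟩ := (hmem x).mp hx
    exact ⟨Additive.ofMul s, trivial, rfl⟩
  have hspan' : Submodule.span ℝ (Λ : Set (logSpace K)) = ⊤ := by
    rw [eq_top_iff, ← hspan]
    apply Submodule.span_mono
    rintro _ ⟨s, hs, rfl⟩
    exact (hmem _).mpr ⟨s, hs, rfl⟩
  obtain ⟨m, hm, hmΛ⟩ := exists_nsmul_mem Λ hle hspan'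
  refine ⟨m * Nat.card (torsion K), Nat.mul_pos hm Nat.card_pos, fun u => ?_⟩
  obtain ⟨s, hs, hsu⟩ := (hmem _).mp
    (hmΛ (logEmbedding K (Additive.ofMul u)) ⟨Additive.ofMul u, trivial, rfl⟩)
  have htors : u ^ m * s⁻¹ ∈ torsion K := by
    rw [← logEmbedding_eq_zero_iff, ofMul_mul, map_add, ofMul_inv, map_neg, ofMul_pow, map_nsmul,
      hsu, add_neg_cancel]
  have h1 : (u ^ m * s⁻¹) ^ Nat.card (torsion K) = 1 := by
    have := pow_card_eq_one' (G := torsion K) (x := ⟨_, htors⟩)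
    exact congrArg Subtype.val this
  rw [mul_pow, inv_pow, mul_inv_eq_one, ← pow_mul] at h1
  rw [h1]
  exact S.pow_mem hs _

/-! ### The Minkowski unit -/

/-- **Minkowski unit.** If `K` is Galois over `ℚ`, there is a unit `η` such that a fixed positive
power of every unit lies in the subgroup generated by the Galois conjugates of `η`. -/
theorem exists_minkowski_unit [IsGalois ℚ K] :
    ∃ η : (𝓞 K)ˣ, ∃ m : ℕ, 0 < m ∧ ∀ u : (𝓞 K)ˣ,
      u ^ m ∈ Subgroup.closure (Set.range fun σ : K ≃ₐ[ℚ] K => conjUnit K σ η) := by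
  classical
  obtain ⟨η, hη⟩ := exists_unit K (w₀ : InfinitePlace K)
  refine ⟨η, ?_⟩
  have hσ : ∀ w : InfinitePlace K, ∃ σ : K ≃ₐ[ℚ] K, σ • (w₀ : InfinitePlace K) = w := fun w =>
    InfinitePlace.exists_smul_eq_of_comap_eq (k := ℚ) (Subsingleton.elim _ _)
  choose σ hσ using hσ
  apply exists_pow_mem_of_span
  rw [eq_top_iff, ← span_logEmbedding_eq_top (fun w => conjUnit K (σ w) η)]
  · apply Submodule.span_mono
    rintro _ ⟨w, rfl⟩
    exact ⟨conjUnit K (σ w.1) η, Subgroup.subset_closure ⟨σ w.1, rfl⟩, rfl⟩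
  · intro w w' hw'
    rw [place_conjUnit]
    apply hη
    intro h
    apply hw'
    rw [← hσ w, ← h, smul_inv_smul]

end Fermat.Agent.Thaine.MinkowskiUnit
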