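/-
Program E2 (S14, Thaine track), piece (E2-U2) (helper15): the `ω²`-eigenspace of the units of
`ℚ(ζ_p)` modulo `p`-th powers is spanned by `dt`.
-/
import Mathlib
import Fermat.Agent.Thaine.Defs
import Fermat.Agent.Thaine.MinkowskiUnit
import Fermat.Agent.Thaine.EigenCyclic

set_option autoImplicit false
set_option linter.style.haveILetI false
set_option linter.unusedSectionVars false

namespace Fermat.Agent.Thaine.UnitsEigen

open NumberField Fermat.Agent.Thaine.Defs Fermat.Agent.Thaine.MinkowskiUnit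

/-! ### The Galois module `Additive (𝓞 K)ˣ` -/

section Action

variable (K : Type) [Field K] [NumberField K]

/-- The Galois action on units, as a `DistribMulAction` on `Additive (𝓞 K)ˣ`. -/
@[instance_reducible]
noncomputable def unitsAction : DistribMulAction (K ≃ₐ[ℚ] K) (Additive (𝓞 K)ˣ) where
  smul σ u := Additive.ofMul (conjUnit K σ (Additive.toMul u))
  one_smul u := by
    show Additive.ofMul (conjUnit K 1 (Additive.toMul u)) = u
    rw [conjUnit_one]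
    rfl
  mul_smul σ τ u := by
    show Additive.ofMul (conjUnit K (σ * τ) (Additive.toMul u)) =
      Additive.ofMul (conjUnit K σ (Additive.toMul (Additive.ofMul (conjUnit K τ (Additive.toMul u)))))
    rw [conjUnit_mul]
    rfl
  smul_zero σ := by
    show Additive.ofMul (conjUnit K σ (Additive.toMul 0)) = 0
    rw [toMul_zero, map_one]
    rfl
  smul_add σ u v := by
    show Additive.ofMul (conjUnit K σ (Additive.toMul (u + v))) =
      Additive.ofMul (conjUnit K σ (Additive.toMul u)) + Additive.ofMul (conjUnit K σ (Additive.toMul v))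
    rw [toMul_add, map_mul]
    rfl

attribute [local instance] unitsAction

theorem smul_ofMul (σ : K ≃ₐ[ℚ] K) (u : (𝓞 K)ˣ) :
    σ • Additive.ofMul u = Additive.ofMul (conjUnit K σ u) := rfl

/-- The Minkowski unit in additive form. -/
theorem exists_minkowski_additive [IsGalois ℚ K] :
    ∃ (η : Additive (𝓞 K)ˣ) (m : ℕ), m ≠ 0 ∧ ∀ u : Additive (𝓞 K)ˣ,
      m • u ∈ AddSubgroup.closure (Set.range fun σ : K ≃ₐ[ℚ] K => σ • η) := by
  obtain ⟨η, m, hm, h⟩ := exists_minkowski_unit (K := K)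
  refine ⟨Additive.ofMul η, m, hm.ne', fun u => ?_⟩
  have h1 := h (Additive.toMul u)
  have h2 : Additive.ofMul (Additive.toMul u ^ m) ∈
      (Subgroup.closure (Set.range fun σ : K ≃ₐ[ℚ] K => conjUnit K σ η)).toAddSubgroup := h1
  rw [Subgroup.toAddSubgroup_closure] at h2
  have h3 : (Additive.toMul ⁻¹' (Set.range fun σ : K ≃ₐ[ℚ] K => conjUnit K σ η) :
      Set (Additive (𝓞 K)ˣ)) = Set.range fun σ : K ≃ₐ[ℚ] K => σ • Additive.ofMul η := by
    ext x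
    constructor
    · rintro ⟨σ, hσ⟩
      exact ⟨σ, congrArg Additive.ofMul hσ⟩
    · rintro ⟨σ, rfl⟩
      exact ⟨σ, rfl⟩
  rw [h3] at h2
  exact h2

end Action

/-! ### Pure algebra -/

/-- From a nontrivial relation `x • U + y • D ∈ p M` with `D ∉ p M` we get `U ∈ ℕ D + p M`. -/
theorem abstract_span {M : Type*} [AddCommGroup M] {p : ℕ} (hp : p.Prime) (U D W : M) (x y : ℤ)
    (hxy : ¬ ((p : ℤ) ∣ x ∧ (p : ℤ) ∣ y)) (h : x • U + y • D = (p : ℤ) • W)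
    (hD : ¬ ∃ V : M, D = (p : ℤ) • V) :
    ∃ (j : ℕ) (V : M), U = (j : ℤ) • D + (p : ℤ) • V := by
  have hpZ : Prime (p : ℤ) := Nat.prime_iff_prime_int.mp hp
  by_cases hx : (p : ℤ) ∣ x
  · exfalso
    have hy : ¬ (p : ℤ) ∣ y := fun hy => hxy ⟨hx, hy⟩
    obtain ⟨x', rfl⟩ := hx
    have hcop : IsCoprime (p : ℤ) y := (Prime.coprime_iff_not_dvd hpZ).mpr hy
    obtain ⟨b, a, hab⟩ := hcop
    apply hD
    refine ⟨a • (W - x' • U) + b • D, ?_⟩
    have h1 : D = (b * p + a * y) • D := by rw [hab, one_smul]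
    refine h1.trans ?_
    linear_combination (norm := module) a • h
  · have hcop : IsCoprime (p : ℤ) x := (Prime.coprime_iff_not_dvd hpZ).mpr hx
    obtain ⟨b, a, hab⟩ := hcop
    have hp0 : (p : ℤ) ≠ 0 := by exact_mod_cast hp.ne_zero
    refine ⟨((-(a * y)) % (p : ℤ)).toNat, ((-(a * y)) / (p : ℤ)) • D + a • W + b • U, ?_⟩
    have hj : ((((-(a * y)) % (p : ℤ)).toNat : ℕ) : ℤ) = (-(a * y)) % (p : ℤ) :=
      Int.toNat_of_nonneg (Int.emod_nonneg _ hp0)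
    rw [hj]
    have hdiv : (-(a * y)) % (p : ℤ) + (p : ℤ) * ((-(a * y)) / (p : ℤ)) = -(a * y) :=
      Int.emod_add_mul_ediv _ _
    have h1 : U = (b * p + a * x) • U := by rw [hab, one_smul]
    have h2 : ((-(a * y)) % (p : ℤ)) • D =
        (-(a * y)) • D - ((p : ℤ) * ((-(a * y)) / (p : ℤ))) • D := by
      rw [← sub_smul]
      congr 1
      linarith
    rw [h2]
    refine h1.trans ?_
    linear_combination (norm := module) a • h

/-! ### Lifting roots of units -/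

section Lift

variable {K : Type} [Field K] [NumberField K]

/-- The coercion of units to `K`, in `algebraMap` form. -/
noncomputable def cK (v : (𝓞 K)ˣ) : K := algebraMap (𝓞 K) K (v : 𝓞 K)

theorem cK_def (v : (𝓞 K)ˣ) : cK v = algebraMap (𝓞 K) K (v : 𝓞 K) := rfl

theorem cK_eq_coe (v : (𝓞 K)ˣ) : cK v = ((v : 𝓞 K) : K) := rfl

theorem cK_one : cK (1 : (𝓞 K)ˣ) = 1 := by rw [cK_def, Units.val_one, map_one]

theorem cK_mul (v w : (𝓞 K)ˣ) : cK (v * w) = cK v * cK w := by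
  rw [cK_def, Units.val_mul, map_mul]; rfl

theorem cK_pow (v : (𝓞 K)ˣ) (n : ℕ) : cK (v ^ n) = cK v ^ n := by
  rw [cK_def, Units.val_pow_eq_pow_val, map_pow]; rfl

theorem cK_neg (v : (𝓞 K)ˣ) : cK (-v) = -cK v := by
  rw [cK_def, Units.val_neg, map_neg]; rfl

theorem cK_ne_zero (v : (𝓞 K)ˣ) : cK v ≠ 0 := by
  intro h0
  apply v.ne_zero
  apply RingOfIntegers.coe_injective
  exact h0.trans (map_zero _).symm

theorem cK_inv (v : (𝓞 K)ˣ) : cK v⁻¹ = (cK v)⁻¹ := by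
  rw [← mul_eq_one_iff_eq_inv₀ (cK_ne_zero v), ← cK_mul, inv_mul_cancel, cK_one]

theorem cK_injective : Function.Injective (cK (K := K)) :=
  fun _ _ h => Units.ext (RingOfIntegers.coe_injective h)

theorem cK_conjUnit (σ : K ≃ₐ[ℚ] K) (v : (𝓞 K)ˣ) : cK (conjUnit K σ v) = σ (cK v) := rfl

/-- An element of `K` whose `n`-th power (`n > 0`) is a unit of `𝓞 K` is a unit of `𝓞 K`. -/
theorem exists_unit_of_pow_eq {n : ℕ} (hn : 0 < n) (y : K) (v : (𝓞 K)ˣ)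
    (h : y ^ n = cK v) : ∃ w : (𝓞 K)ˣ, cK w = y := by
  have h1 : IsIntegral ℤ y := by
    apply IsIntegral.of_pow hn
    rw [h]
    exact RingOfIntegers.isIntegral_coe _
  have h2 : IsIntegral ℤ y⁻¹ := by
    apply IsIntegral.of_pow hn
    rw [inv_pow, h, ← cK_inv]
    exact RingOfIntegers.isIntegral_coe _
  have hy0 : y ≠ 0 := by
    rintro rfl
    rw [zero_pow hn.ne'] at h
    exact cK_ne_zero v h.symm
  refine ⟨⟨⟨y, h1⟩, ⟨y⁻¹, h2⟩, ?_, ?_⟩, rfl⟩
  · apply RingOfIntegers.coe_injective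
    show y * y⁻¹ = 1
    exact mul_inv_cancel₀ hy0
  · apply RingOfIntegers.coe_injective
    show y⁻¹ * y = 1
    exact inv_mul_cancel₀ hy0

end Lift

/-! ### Eigen-units -/

section Eigen

variable (p : ℕ) [hp : Fact p.Prime] (K : Type) [Field K] [NumberField K]
  [IsCyclotomicExtension {p} ℚ K]

attribute [local instance] unitsAction

/-- The exponent of `σ` on `μ_p`, as a natural number in `[1, p - 1]`. -/
noncomputable def expoU (σ : K ≃ₐ[ℚ] K) : ℕ := ((chi p K σ : (ZMod p)ˣ) : ZMod p).val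

theorem actsBy_expoU (σ : K ≃ₐ[ℚ] K) : ActsBy p K σ (expoU p K σ) := by
  haveI : NeZero p := ⟨hp.out.ne_zero⟩
  intro z hz
  exact IsCyclotomicExtension.Rat.galEquivZMod_apply_of_pow_eq p K σ hz

theorem expoU_cast (σ : K ≃ₐ[ℚ] K) : ((expoU p K σ : ℕ) : ZMod p) = (chi p K σ : (ZMod p)ˣ) := by
  haveI : NeZero p := ⟨hp.out.ne_zero⟩
  unfold expoU
  rw [ZMod.natCast_zmod_val]

/-- `u` is an `ω²`-eigen-unit modulo `p`-th powers (unit level). -/
def IsEigen (u : (𝓞 K)ˣ) : Prop :=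
  ∀ σ : K ≃ₐ[ℚ] K, ∃ w : (𝓞 K)ˣ, conjUnit K σ u = u ^ (expoU p K σ ^ 2) * w ^ p

theorem card_gal : Fintype.card (K ≃ₐ[ℚ] K) = p - 1 := by
  rw [Fintype.card_congr (chi p K).toEquiv, ZMod.card_units p]

/-- Two eigen-units are dependent modulo `p`-th powers and torsion. -/
theorem exists_zpow_mul_zpow (u d : (𝓞 K)ˣ) (hu : IsEigen p K u) (hd : IsEigen p K d) :
    ∃ (x y : ℤ) (w t : (𝓞 K)ˣ), ¬ ((p : ℤ) ∣ x ∧ (p : ℤ) ∣ y) ∧ u ^ x * d ^ y = w ^ p * t ∧
      IsOfFinOrder t := by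
  haveI : NeZero p := ⟨hp.out.ne_zero⟩
  haveI : IsGalois ℚ K := IsCyclotomicExtension.isGalois {p} ℚ K
  obtain ⟨η, m, hm, hη⟩ := exists_minkowski_additive K
  have hcard : ¬ p ∣ Fintype.card (K ≃ₐ[ℚ] K) := by
    rw [card_gal p K]
    intro h
    have := Nat.le_of_dvd (by have := hp.out.two_le; omega) h
    have := hp.out.two_le
    omega
  let c : (K ≃ₐ[ℚ] K) → ℤ := fun σ => ((expoU p K σ ^ 2 : ℕ) : ℤ)
  have hc1 : (p : ℤ) ∣ c 1 - 1 := by
    rw [← ZMod.intCast_zmod_eq_zero_iff_dvd]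
    simp only [c]
    push_cast
    rw [expoU_cast, map_one, Units.val_one]
    ring
  have hcm : ∀ σ τ : K ≃ₐ[ℚ] K, (p : ℤ) ∣ c (σ * τ) - c σ * c τ := by
    intro σ τ
    rw [← ZMod.intCast_zmod_eq_zero_iff_dvd]
    simp only [c]
    push_cast
    rw [expoU_cast, expoU_cast, expoU_cast, map_mul, Units.val_mul]
    ring
  have hE : ∀ v : (𝓞 K)ˣ, IsEigen p K v → ∀ σ : K ≃ₐ[ℚ] K, ∃ w : Additive (𝓞 K)ˣ,
      σ • Additive.ofMul v - c σ • Additive.ofMul v = (p : ℤ) • w := by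
    intro v hv σ
    obtain ⟨w, hw⟩ := hv σ
    refine ⟨Additive.ofMul w, ?_⟩
    rw [smul_ofMul, hw, ofMul_mul, ofMul_pow, ofMul_pow, natCast_zsmul, natCast_zsmul]
    abel
  obtain ⟨x, y, hxy, w, t, h1, k, hk⟩ := EigenCyclic.exists_combination hp.out hcard c hc1 hcm
    η m hm hη (Additive.ofMul u) (Additive.ofMul d) (hE u hu) (hE d hd)
  refine ⟨x, y, Additive.toMul w, Additive.toMul t, hxy, ?_, ?_⟩
  · have h2 := congrArg Additive.toMul h1
    rw [toMul_add, toMul_add, toMul_zsmul, toMul_zsmul, toMul_zsmul, toMul_ofMul, toMul_ofMul,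
      zpow_natCast] at h2
    exact h2
  · rw [isOfFinOrder_iff_pow_eq_one]
    refine ⟨p ^ k, pow_pos hp.out.pos k, ?_⟩
    have h2 := congrArg Additive.toMul hk
    rw [toMul_nsmul, toMul_zero] at h2
    exact h2

/-! ### Roots of unity -/

theorem zetaI_spec : IsPrimitiveRoot (zetaI p K) p := by
  haveI : NeZero p := ⟨hp.out.ne_zero⟩
  exact (IsCyclotomicExtension.zeta_spec p ℚ K).toInteger_isPrimitiveRoot

theorem coe_zetaI : ((zetaI p K : 𝓞 K) : K) = IsCyclotomicExtension.zeta p ℚ K := rfl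

/-- `ζ` as a unit of `𝓞 K`. -/
noncomputable def zetaU : (𝓞 K)ˣ := ((zetaI_spec p K).isUnit hp.out.ne_zero).unit

theorem coe_zetaU : ((zetaU p K : (𝓞 K)ˣ) : 𝓞 K) = zetaI p K := IsUnit.unit_spec _

theorem cK_zetaU : cK (zetaU p K) = IsCyclotomicExtension.zeta p ℚ K := by
  rw [cK_eq_coe, coe_zetaU, coe_zetaI]

theorem zetaU_pow_p : zetaU p K ^ p = 1 := by
  apply Units.ext
  rw [Units.val_pow_eq_pow_val, coe_zetaU, (zetaI_spec p K).pow_eq_one, Units.val_one]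

theorem zetaU_pow_eq_one_iff (s : ℕ) : zetaU p K ^ s = 1 ↔ p ∣ s := by
  rw [← (zetaI_spec p K).pow_eq_one_iff_dvd, Units.ext_iff, Units.val_pow_eq_pow_val, coe_zetaU,
    Units.val_one]

theorem conjUnit_zetaU (σ : K ≃ₐ[ℚ] K) : conjUnit K σ (zetaU p K) = zetaU p K ^ expoU p K σ := by
  haveI : NeZero p := ⟨hp.out.ne_zero⟩
  apply cK_injective
  rw [cK_conjUnit, cK_pow, cK_zetaU]
  exact actsBy_expoU p K σ _ (IsCyclotomicExtension.zeta_spec p ℚ K).pow_eq_one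

theorem conjUnit_neg_one (σ : K ≃ₐ[ℚ] K) : conjUnit K σ (-1) = -1 := by
  apply Units.ext
  rw [coe_conjUnit, Units.val_neg, Units.val_one, smul_neg, smul_one]

/-- Every torsion unit is a power of `-ζ`. -/
theorem torsion_eq (hp2 : p ≠ 2) (t : (𝓞 K)ˣ) (ht : IsOfFinOrder t) :
    ∃ r : ℕ, t = (-zetaU p K) ^ r := by
  haveI : NeZero p := ⟨hp.out.ne_zero⟩
  have hodd : Odd p := hp.out.odd_of_ne_two hp2
  have ht' : IsOfFinOrder (cK t) := by
    rw [isOfFinOrder_iff_pow_eq_one] at ht ⊢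
    obtain ⟨n, hn, h⟩ := ht
    refine ⟨n, hn, ?_⟩
    rw [← cK_pow, h, cK_one]
  obtain ⟨r, hr⟩ := IsPrimitiveRoot.exists_neg_pow_of_isOfFinOrder hodd
    (IsCyclotomicExtension.zeta_spec p ℚ K) ht'
  refine ⟨r, ?_⟩
  apply cK_injective
  rw [hr, cK_pow, cK_neg, cK_zetaU]

/-- If `ζ ^ s` is a `p`-th power of a unit then `p ∣ s`. -/
theorem dvd_of_zetaU_pow_eq (hp2 : p ≠ 2) (s : ℕ) (v : (𝓞 K)ˣ) (h : zetaU p K ^ s = v ^ p) :
    p ∣ s := by
  have hodd : Odd p := hp.out.odd_of_ne_two hp2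
  have hv : IsOfFinOrder v := by
    rw [isOfFinOrder_iff_pow_eq_one]
    refine ⟨p * p, Nat.mul_pos hp.out.pos hp.out.pos, ?_⟩
    rw [pow_mul, ← h, ← pow_mul, mul_comm, pow_mul, zetaU_pow_p, one_pow]
  obtain ⟨r, rfl⟩ := torsion_eq p K hp2 v hv
  have h1 : ((-zetaU p K) ^ r) ^ p = (-1) ^ r := by
    rw [← pow_mul, mul_comm, pow_mul, neg_pow, zetaU_pow_p, mul_one, hodd.neg_one_pow]
  rw [h1] at h
  have h2 : zetaU p K ^ (2 * s) = 1 := by
    rw [mul_comm, pow_mul, h, ← pow_mul, mul_comm, pow_mul, neg_one_sq, one_pow]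
  have h3 : p ∣ 2 * s := (zetaU_pow_eq_one_iff p K _).mp h2
  exact (Nat.Coprime.dvd_mul_left ((Nat.coprime_primes hp.out Nat.prime_two).mpr hp2)).mp h3

/-! ### The eigenspace is at most one-dimensional -/

theorem exists_expoU_eq_two (hp2 : p ≠ 2) : ∃ σ : K ≃ₐ[ℚ] K, expoU p K σ = 2 := by
  have h2 : ((2 : ℕ) : ZMod p) ≠ 0 := by
    rw [Ne, ZMod.natCast_eq_zero_iff]
    intro h
    exact hp2 ((Nat.prime_dvd_prime_iff_eq hp.out Nat.prime_two).mp h)
  refine ⟨(chi p K).symm (Units.mk0 ((2 : ℕ) : ZMod p) h2), ?_⟩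
  unfold expoU
  rw [MulEquiv.apply_symm_apply, Units.val_mk0, ZMod.val_natCast]
  apply Nat.mod_eq_of_lt
  have := hp.out.two_le
  omega

/-- Unit-level statement: two `ω²`-eigen-units, the second of which is not a `p`-th power. -/
theorem eigen_span (hp5 : 5 ≤ p) (u d : (𝓞 K)ˣ) (hu : IsEigen p K u) (hd : IsEigen p K d)
    (hd' : ¬ ∃ v : (𝓞 K)ˣ, d = v ^ p) : ∃ (j : ℕ) (v : (𝓞 K)ˣ), u = d ^ j * v ^ p := by
  have hp2 : p ≠ 2 := by omega
  have hodd : Odd p := hp.out.odd_of_ne_two hp2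
  obtain ⟨x, y, w, t, hxy, h1, ht⟩ := exists_zpow_mul_zpow p K u d hu hd
  obtain ⟨r, rfl⟩ := torsion_eq p K hp2 t ht
  obtain ⟨σ₂, hσ₂⟩ := exists_expoU_eq_two p K hp2
  obtain ⟨a, ha⟩ := hu σ₂
  obtain ⟨b, hb⟩ := hd σ₂
  rw [hσ₂] at ha hb
  -- absorb the sign into the `p`-th power
  have h1' : u ^ x * d ^ y = (w * (-1) ^ r) ^ p * zetaU p K ^ r := by
    rw [h1, neg_eq_neg_one_mul (zetaU p K), mul_pow, mul_pow, ← pow_mul, mul_comm r p, pow_mul,
      hodd.neg_one_pow, mul_assoc]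
  set W' := w * (-1) ^ r with hW'
  -- apply `σ₂`
  have h2 := congrArg (conjUnit K σ₂) h1'
  rw [map_mul, map_zpow, map_zpow, map_mul, map_pow, map_pow, ha, hb, conjUnit_zetaU, hσ₂] at h2
  -- `ζ ^ (2 r)` is a `p`-th power
  have h3 : zetaU p K ^ (2 * r) = (conjUnit K σ₂ W' * (W' ^ 4)⁻¹ * (a ^ x)⁻¹ * (b ^ y)⁻¹) ^ p := by
    have h1a := congrArg Additive.ofMul h1'
    have h2a := congrArg Additive.ofMul h2
    apply Additive.ofMul.injective
    simp only [ofMul_mul, ofMul_zpow, ofMul_pow, ofMul_inv] at h1a h2a ⊢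
    linear_combination (norm := module) h2a - (4 : ℤ) • h1a
  have h4 : p ∣ 2 * r := dvd_of_zetaU_pow_eq p K hp2 _ _ h3
  have h5 : p ∣ r :=
    (Nat.Coprime.dvd_mul_left ((Nat.coprime_primes hp.out Nat.prime_two).mpr hp2)).mp h4
  rw [(zetaU_pow_eq_one_iff p K r).mpr h5, mul_one] at h1'
  -- the pure algebra
  have h6 : x • Additive.ofMul u + y • Additive.ofMul d = (p : ℤ) • Additive.ofMul W' := by
    have := congrArg Additive.ofMul h1'
    simp only [ofMul_mul, ofMul_zpow, ofMul_pow] at this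
    rw [this, natCast_zsmul]
  have h7 : ¬ ∃ V : Additive (𝓞 K)ˣ, Additive.ofMul d = (p : ℤ) • V := by
    rintro ⟨V, hV⟩
    apply hd'
    refine ⟨Additive.toMul V, ?_⟩
    have := congrArg Additive.toMul hV
    rw [toMul_ofMul, toMul_zsmul, zpow_natCast] at this
    exact this
  obtain ⟨j, V, hV⟩ := abstract_span hp.out _ _ _ x y hxy h6 h7
  refine ⟨j, Additive.toMul V, ?_⟩
  have := congrArg Additive.toMul hV
  rw [toMul_ofMul, toMul_add, toMul_zsmul, toMul_zsmul, toMul_ofMul, zpow_natCast, zpow_natCast]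
    at this
  exact this

end Eigen

/-! ### Eigen-elements of `K` -/

section EigK

variable (p : ℕ) [hp : Fact p.Prime] (K : Type) [Field K] [NumberField K]
  [IsCyclotomicExtension {p} ℚ K]

/-- `z` is an `ω²`-eigen-element of `K` modulo `p`-th powers. -/
def EigK (z : K) : Prop :=
  ∀ σ : K ≃ₐ[ℚ] K, ∃ x : K, σ z = z ^ (expoU p K σ ^ 2) * x ^ p

variable {p K}

theorem EigK.mul {z z' : K} (h : EigK p K z) (h' : EigK p K z') : EigK p K (z * z') := by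
  intro σ
  obtain ⟨x, hx⟩ := h σ
  obtain ⟨x', hx'⟩ := h' σ
  refine ⟨x * x', ?_⟩
  rw [map_mul, hx, hx']
  ring

theorem EigK.inv {z : K} (h : EigK p K z) : EigK p K z⁻¹ := by
  intro σ
  obtain ⟨x, hx⟩ := h σ
  refine ⟨x⁻¹, ?_⟩
  rw [map_inv₀, hx, mul_inv, inv_pow, inv_pow]

theorem eigK_pow_p (y : K) : EigK p K (y ^ p) := by
  intro σ
  by_cases hy : y = 0
  · refine ⟨0, ?_⟩
    rw [hy, zero_pow hp.out.ne_zero, map_zero, mul_zero]
  · refine ⟨σ y * (y ^ (expoU p K σ ^ 2))⁻¹, ?_⟩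
    rw [map_pow, mul_pow, inv_pow, ← pow_mul, ← pow_mul, mul_comm p, mul_comm,
      inv_mul_cancel_right₀ (pow_ne_zero _ hy)]

theorem isEigen_of_eigK (v : (𝓞 K)ˣ) (h : EigK p K (cK v)) : IsEigen p K v := by
  intro σ
  obtain ⟨x, hx⟩ := h σ
  have h1 : x ^ p = cK (conjUnit K σ v * (v ^ (expoU p K σ ^ 2))⁻¹) := by
    rw [cK_mul, cK_inv, cK_pow, cK_conjUnit, hx, mul_comm, ← mul_assoc,
      inv_mul_cancel₀ (pow_ne_zero _ (cK_ne_zero v)), one_mul]
  obtain ⟨w, hw⟩ := exists_unit_of_pow_eq hp.out.pos x _ h1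
  refine ⟨w, ?_⟩
  apply cK_injective
  rw [cK_conjUnit, hx, cK_mul, cK_pow, cK_pow, hw]


variable (p K)

/-! ### `dt` is an eigen-element -/

theorem e2_cast (c : (ZMod p)ˣ) :
    ((e2 p c : ℕ) : ZMod p) = (((c⁻¹ : (ZMod p)ˣ) ^ 2 : (ZMod p)ˣ) : ZMod p) := by
  haveI : NeZero p := ⟨hp.out.ne_zero⟩
  unfold e2
  rw [ZMod.natCast_zmod_val]

/-- The factor `1 - ζ ^ c` of `dt`, in `K`. -/
noncomputable def fac (c : (ZMod p)ˣ) : K :=
  1 - (IsCyclotomicExtension.zeta p ℚ K) ^ (c : ZMod p).val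

theorem fac_ne_zero (c : (ZMod p)ˣ) : fac p K c ≠ 0 := by
  haveI : NeZero p := ⟨hp.out.ne_zero⟩
  unfold fac
  rw [sub_ne_zero, ne_comm, Ne, (IsCyclotomicExtension.zeta_spec p ℚ K).pow_eq_one_iff_dvd]
  intro h
  have h0 : (((c : ZMod p).val : ℕ) : ZMod p) = 0 := (ZMod.natCast_eq_zero_iff _ _).mpr h
  rw [ZMod.natCast_zmod_val] at h0
  exact c.ne_zero h0

theorem algebraMap_dt : algebraMap (𝓞 K) K (dt p K) = ∏ c : (ZMod p)ˣ, fac p K c ^ e2 p c := by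
  unfold dt fac
  rw [map_prod]
  refine Finset.prod_congr rfl (fun c _ => ?_)
  rw [map_pow, map_sub, map_one, map_pow]
  rfl

theorem apply_fac (σ : K ≃ₐ[ℚ] K) (c : (ZMod p)ˣ) :
    σ (fac p K c) = fac p K (chi p K σ * c) := by
  haveI : NeZero p := ⟨hp.out.ne_zero⟩
  have hζ := IsCyclotomicExtension.zeta_spec p ℚ K
  unfold fac
  rw [map_sub, map_one, map_pow, actsBy_expoU p K σ _ hζ.pow_eq_one, ← pow_mul,
    pow_eq_pow_mod _ hζ.pow_eq_one, Units.val_mul, ZMod.val_mul]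
  rfl

theorem exists_e2_eq (a c : (ZMod p)ˣ) :
    ∃ m : ℤ, ((e2 p (a⁻¹ * c) : ℕ) : ℤ) = (((a : ZMod p).val ^ 2 * e2 p c : ℕ) : ℤ) + p * m := by
  haveI : NeZero p := ⟨hp.out.ne_zero⟩
  have h : ((e2 p (a⁻¹ * c) : ℕ) : ZMod p) = (((a : ZMod p).val ^ 2 * e2 p c : ℕ) : ZMod p) := by
    rw [Nat.cast_mul, Nat.cast_pow, ZMod.natCast_zmod_val, e2_cast, e2_cast, mul_inv, inv_inv,
      mul_pow, Units.val_mul, Units.val_pow_eq_pow_val]
  rw [ZMod.natCast_eq_natCast_iff, Nat.modEq_iff_dvd] at h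
  obtain ⟨m, hm⟩ := h
  exact ⟨-m, by linarith⟩

theorem eigK_dt : EigK p K (algebraMap (𝓞 K) K (dt p K)) := by
  intro σ
  set a := chi p K σ with ha
  choose m hm using exists_e2_eq p a
  refine ⟨∏ c : (ZMod p)ˣ, fac p K c ^ m c, ?_⟩
  rw [algebraMap_dt, map_prod, ← Finset.prod_pow, ← Finset.prod_pow, ← Finset.prod_mul_distrib]
  simp_rw [map_pow, apply_fac]
  rw [← ha]
  -- reindex by `c' = a * c`
  have h1 : ∏ c : (ZMod p)ˣ, fac p K (a * c) ^ e2 p c =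
      ∏ c : (ZMod p)ˣ, fac p K c ^ e2 p (a⁻¹ * c) := by
    refine Fintype.prod_equiv (Equiv.mulLeft a) _ _ (fun c => ?_)
    rw [Equiv.coe_mulLeft, inv_mul_cancel_left]
  rw [h1]
  refine Finset.prod_congr rfl (fun c _ => ?_)
  have h2 : fac p K c ^ e2 p (a⁻¹ * c) = fac p K c ^ ((e2 p (a⁻¹ * c) : ℕ) : ℤ) :=
    (zpow_natCast _ _).symm
  rw [h2, hm c, zpow_add₀ (fac_ne_zero p K c), zpow_natCast, mul_comm (p : ℤ) (m c), zpow_mul,
    zpow_natCast, mul_comm _ (e2 p c), pow_mul]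
  rfl


/-! ### `dt = (λ ^ n) ^ p * d0` -/

theorem sum_sq_units (hp5 : 5 ≤ p) : ∑ c : (ZMod p)ˣ, ((c : ZMod p)) ^ 2 = 0 := by
  have h2 : ((2 : ℕ) : ZMod p) ≠ 0 := by
    rw [Ne, ZMod.natCast_eq_zero_iff]
    intro h
    have := Nat.le_of_dvd (by norm_num) h
    omega
  let g : (ZMod p)ˣ := Units.mk0 ((2 : ℕ) : ZMod p) h2
  have h3 : (g : ZMod p) ^ 2 - 1 ≠ 0 := by
    have : (g : ZMod p) ^ 2 - 1 = ((3 : ℕ) : ZMod p) := by
      simp only [g, Units.val_mk0]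
      push_cast
      ring
    rw [this, Ne, ZMod.natCast_eq_zero_iff]
    intro h
    have := Nat.le_of_dvd (by norm_num) h
    omega
  have h4 : ∑ c : (ZMod p)ˣ, ((c : ZMod p)) ^ 2 = (g : ZMod p) ^ 2 * ∑ c : (ZMod p)ˣ, ((c : ZMod p)) ^ 2 := by
    rw [Finset.mul_sum]
    refine Fintype.sum_equiv (Equiv.mulLeft g⁻¹) _ _ (fun c => ?_)
    simp only [Equiv.coe_mulLeft, Units.val_mul]
    rw [mul_pow, ← mul_assoc, ← mul_pow, ← Units.val_mul, mul_inv_cancel, Units.val_one, one_pow, one_mul]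
  have h5 : ((g : ZMod p) ^ 2 - 1) * ∑ c : (ZMod p)ˣ, ((c : ZMod p)) ^ 2 = 0 := by
    rw [sub_mul, one_mul, ← h4, sub_self]
  exact (mul_eq_zero.mp h5).resolve_left h3

theorem dvd_sum_e2 (hp5 : 5 ≤ p) : p ∣ ∑ c : (ZMod p)ˣ, e2 p c := by
  rw [← ZMod.natCast_eq_zero_iff, Nat.cast_sum]
  simp_rw [e2_cast]
  rw [← sum_sq_units p hp5]
  refine Fintype.sum_equiv (Equiv.inv _) _ _ (fun c => ?_)
  rw [Equiv.inv_apply, Units.val_pow_eq_pow_val]

theorem exists_unit_factor (c : (ZMod p)ˣ) :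
    ∃ ε : (𝓞 K)ˣ, 1 - zetaI p K ^ (c : ZMod p).val = lam p K * (ε : 𝓞 K) := by
  have hcop : ((c : ZMod p).val).Coprime p := by
    rw [Nat.coprime_comm, hp.out.coprime_iff_not_dvd]
    intro h
    have h0 : (((c : ZMod p).val : ℕ) : ZMod p) = 0 := (ZMod.natCast_eq_zero_iff _ _).mpr h
    haveI : NeZero p := ⟨hp.out.ne_zero⟩
    rw [ZMod.natCast_zmod_val] at h0
    exact c.ne_zero h0
  obtain ⟨ε, hε⟩ := (zetaI_spec p K).associated_sub_one_pow_sub_one_of_coprime hcop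
  refine ⟨ε, ?_⟩
  unfold lam
  have : (1 - zetaI p K) * (ε : 𝓞 K) = -((zetaI p K - 1) * ε) := by ring
  rw [this, hε]
  ring

/-- `dt = (λ ^ n) ^ p * d0` with `d0` a unit. -/
theorem exists_dt_eq (hp5 : 5 ≤ p) :
    ∃ (n : ℕ) (d0 : (𝓞 K)ˣ), dt p K = (lam p K ^ n) ^ p * (d0 : 𝓞 K) := by
  choose ε hε using exists_unit_factor p K
  obtain ⟨n, hn⟩ := dvd_sum_e2 p hp5
  refine ⟨n, ∏ c : (ZMod p)ˣ, ε c ^ e2 p c, ?_⟩
  unfold dt
  simp_rw [hε, mul_pow]
  rw [Finset.prod_mul_distrib, Finset.prod_pow_eq_pow_sum, hn, ← pow_mul, mul_comm n p]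
  congr 1
  rw [Units.coe_prod]
  simp_rw [Units.val_pow_eq_pow_val]

theorem algebraMap_lam_ne_zero : algebraMap (𝓞 K) K (lam p K) ≠ 0 := by
  haveI : NeZero p := ⟨hp.out.ne_zero⟩
  rw [Ne, map_eq_zero_iff _ (RingOfIntegers.coe_injective)]
  unfold lam
  rw [sub_eq_zero]
  intro h
  exact (zetaI_spec p K).ne_one hp.out.one_lt h.symm

/-! ### The main theorem -/

/-- **(E2-U2)**, with the input from (E2-U1) in the form "`dt` is not a `p`-th power in `K`". -/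
theorem u2_of_not_pow (hp5 : 5 ≤ p) (hdt : ¬ ∃ z : K, z ^ p = (dt p K : K)) :
    U2Statement p K := by
  intro u hu
  obtain ⟨n, d0, hd0⟩ := exists_dt_eq p K hp5
  set L : K := algebraMap (𝓞 K) K (lam p K) with hL
  have hL0 : L ≠ 0 := algebraMap_lam_ne_zero p K
  have hK : algebraMap (𝓞 K) K (dt p K) = (L ^ n) ^ p * cK d0 := by
    rw [hd0, map_mul, map_pow, map_pow]
    rfl
  have hd0E : EigK p K (cK d0) := by
    have h1 : cK d0 = algebraMap (𝓞 K) K (dt p K) * ((L ^ n) ^ p)⁻¹ := by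
      rw [hK, mul_comm, ← mul_assoc, inv_mul_cancel₀ (pow_ne_zero _ (pow_ne_zero _ hL0)), one_mul]
    rw [h1]
    exact (eigK_dt p K).mul (eigK_pow_p _).inv
  have hd0I : IsEigen p K d0 := isEigen_of_eigK d0 hd0E
  have huE : EigK p K (cK u) := fun σ => hu σ _ (actsBy_expoU p K σ)
  have huI : IsEigen p K u := isEigen_of_eigK u huE
  have hd0' : ¬ ∃ v : (𝓞 K)ˣ, d0 = v ^ p := by
    rintro ⟨v, rfl⟩
    apply hdt
    refine ⟨L ^ n * cK v, ?_⟩
    rw [mul_pow, ← cK_pow]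
    exact hK.symm
  obtain ⟨j, v, hv⟩ := eigen_span p K hp5 u d0 huI hd0I hd0'
  refine ⟨j, cK v * ((L ^ n) ^ j)⁻¹, ?_⟩
  show cK u = algebraMap (𝓞 K) K (dt p K) ^ j * (cK v * ((L ^ n) ^ j)⁻¹) ^ p
  rw [hK, hv, cK_mul, cK_pow, cK_pow, mul_pow, mul_pow, inv_pow, ← pow_mul, ← pow_mul, ← pow_mul,
    mul_comm p j]
  have h2 : (L ^ (n * (j * p))) ≠ 0 := pow_ne_zero _ hL0
  field_simp
  rw [← pow_mul]

/-- **(E2-U2)**: `U1Statement p K → U2Statement p K` for `p ≥ 5`. -/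
theorem u2 (hp5 : 5 ≤ p) (h1 : U1Statement p K) : U2Statement p K := by
  apply u2_of_not_pow p K hp5
  rintro ⟨z, hz⟩
  have hdt0 : (dt p K : K) ≠ 0 := by
    obtain ⟨n, d0, hd0⟩ := exists_dt_eq p K hp5
    show algebraMap (𝓞 K) K (dt p K) ≠ 0
    rw [hd0, map_mul, map_pow, map_pow]
    exact mul_ne_zero (pow_ne_zero _ (pow_ne_zero _ (algebraMap_lam_ne_zero p K))) (cK_ne_zero d0)
  have hz0 : z ≠ 0 := by
    rintro rfl
    rw [zero_pow hp.out.ne_zero] at hz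
    exact hdt0 hz.symm
  have hone : (1 : 𝓞 K) ∉ Ideal.span {lam p K} := by
    rw [Ideal.mem_span_singleton]
    intro h
    have hu : IsUnit (lam p K) := isUnit_of_dvd_one h
    have hprime : Prime (lam p K) := by
      haveI : NeZero p := ⟨hp.out.ne_zero⟩
      have := (IsCyclotomicExtension.zeta_spec p ℚ K).zeta_sub_one_prime'
      have h2 : lam p K = -((IsCyclotomicExtension.zeta_spec p ℚ K).toInteger - 1) := by
        unfold lam zetaI
        ring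
      rw [h2]
      exact this.neg
    exact hprime.not_isUnit hu
  have := h1.2 1 z⁻¹ 1 hone (by
    show algebraMap (𝓞 K) K 1 = algebraMap (𝓞 K) K (dt p K) ^ 1 * z⁻¹ ^ p
    rw [map_one, pow_one, inv_pow, hz]
    exact (mul_inv_cancel₀ hdt0).symm) ⟨1, by simp⟩
  exact hp.out.one_lt.ne' (Nat.dvd_one.mp this)

end EigK

end Fermat.Agent.Thaine.UnitsEigen
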