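/-
Program E2 (S14 via Thaine), helper20: `NoOmegaInvExt p` for `p ≥ 3` from `ThaineClassStatement`
(everything else is on main: `KummerGen`, `KummerU1`, `UnitsEigen`, `FactG`, `ClassEigen`,
`CaseThree`).
-/
import Fermat.Agent.Thaine.FinalOf
import Fermat.Agent.Thaine.UnitsEigen
import Fermat.Agent.Thaine.FactG
import Fermat.Agent.Thaine.ClassEigen

set_option autoImplicit false

open NumberField Fermat.Agent.Thaine.Defs

namespace Fermat.Agent.Thaine.FinalOfTC

/-- `NoOmegaInvExt p` for every prime `p ≥ 3` from `ThaineClassStatement` (for `p ≥ 5`). -/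
theorem noOmegaInvExt_of_thaineClass (p : ℕ) [Fact p.Prime] (h3 : 3 ≤ p)
    (hTC : 5 ≤ p → ∀ (K : Type) [Field K] [NumberField K] [IsCyclotomicExtension {p} ℚ K],
      ThaineClassStatement p K) :
    Fermat.Agent.S14.Interface.NoOmegaInvExt p :=
  Fermat.Agent.Thaine.FinalOf.noOmegaInvExt_of p h3
    (fun h5 K _ _ _ => Fermat.Agent.Thaine.ClassEigen.clStatement p K (hTC h5 K)
      (Fermat.Agent.Thaine.FactG.factG p K h3
        (Fermat.Agent.Thaine.KummerU1.dt_not_pow p K h5)))
    (fun h5 K _ _ _ => Fermat.Agent.Thaine.UnitsEigen.u2 p K h5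
      (Fermat.Agent.Thaine.KummerU1.u1 p K h5))

end Fermat.Agent.Thaine.FinalOfTC
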