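/-
Program E2 (helper24), first half of row 282 (E2-CL a):
`ThaineStatement p K → ThaineClassStatement p K`.

For a good prime `𝔩` (degree one, `l = N𝔩`, not above `p`, `dt` not a `p`-th power residue):
* `l ≡ 1 mod p`, every integer of `K` is congruent to a rational integer modulo `𝔩`,
  the primes above `l` are the `p - 1` distinct conjugates `σ • 𝔩`;
* Thaine's congruences, transported to `𝔩`, give `dt * g ^ S ≡ 1 mod 𝔩` with
  `S = ∑_σ r(σ𝔩) [χ(σ)²]`, hence `p ∤ S`;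
* in the class group modulo `p`-th powers `ε (σ x) = (ε x) ^ [χ(σ)²]`, so Thaine's relation gives
  `(ε [𝔩]) ^ S = 1` modulo `p`-th powers, hence `ε [𝔩]` is a `p`-th power.
-/
import Mathlib
import Fermat.Agent.Thaine.Defs

set_option autoImplicit false
set_option linter.unusedSectionVars false
set_option linter.style.haveILetI false
set_option linter.unusedVariables false

namespace Fermat.Agent.Thaine.ThaineClass

open NumberField IsDedekindDomain FractionalIdeal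
open Fermat.Agent.Thaine.Defs
open scoped nonZeroDivisors Pointwise

section Part2
section General

variable {R R' : Type*} [CommRing R] [IsDomain R] [CommRing R'] [IsDomain R']

theorem ringEquivOfRingEquiv_coeIdeal (K L : Type*) [Field K] [Algebra R K] [IsFractionRing R K]
    [Field L] [Algebra R' L] [IsFractionRing R' L] (g : R ≃+* R') (I : Ideal R) :
    FractionalIdeal.ringEquivOfRingEquiv K L g (I : FractionalIdeal R⁰ K) =
      ((I.map (g : R →+* R') : Ideal R') : FractionalIdeal R'⁰ L) := by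
  ext y
  rw [← FractionalIdeal.mem_coe, ← FractionalIdeal.val_eq_coe,
    FractionalIdeal.ringEquivOfRingEquiv_apply_val]
  simp only [Submodule.mem_map, FractionalIdeal.val_eq_coe, FractionalIdeal.mem_coe,
    FractionalIdeal.mem_coeIdeal]
  constructor
  · rintro ⟨x, ⟨a, ha, rfl⟩, rfl⟩
    refine ⟨g a, Ideal.mem_map_of_mem _ ha, ?_⟩
    change _ = IsFractionRing.ringEquivOfRingEquiv g (algebraMap R K a)
    rw [IsFractionRing.ringEquivOfRingEquiv_algebraMap]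
  · rintro ⟨b, hb, rfl⟩
    obtain ⟨a, ha, rfl⟩ := (Ideal.mem_map_of_equiv g b).mp hb
    refine ⟨algebraMap R K a, ⟨a, ha, rfl⟩, ?_⟩
    change IsFractionRing.ringEquivOfRingEquiv g (algebraMap R K a) = _
    rw [IsFractionRing.ringEquivOfRingEquiv_algebraMap]

set_option linter.overlappingInstances false in
theorem map_mem_nonZeroDivisors [IsDedekindDomain R] [IsDedekindDomain R'] (g : R ≃+* R')
    (I : (Ideal R)⁰) : (I.1.map (g : R →+* R')) ∈ (Ideal R')⁰ := by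
  rw [mem_nonZeroDivisors_iff_ne_zero]
  have hI : I.1 ≠ ⊥ := mem_nonZeroDivisors_iff_ne_zero.mp I.2
  intro h
  apply hI
  rw [Ideal.zero_eq_bot] at h
  exact (Ideal.map_eq_bot_iff_of_injective (f := (g : R →+* R')) g.injective).mp h

set_option linter.overlappingInstances false in
set_option backward.isDefEq.respectTransparency.types false in
/-- The class group isomorphism induced by a ring isomorphism sends the class of an ideal to the
class of its image. -/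
theorem mulEquiv_mk0 [IsDedekindDomain R] [IsDedekindDomain R'] (g : R ≃+* R')
    (I : (Ideal R)⁰) :
    ClassGroup.mulEquiv g (ClassGroup.mk0 I) =
      ClassGroup.mk0 ⟨I.1.map (g : R →+* R'), map_mem_nonZeroDivisors g I⟩ := by
  rw [ClassGroup.mulEquiv_apply, MulEquiv.symm_apply_eq, ClassGroup.equiv_mk0,
    ClassGroup.equiv_mk0, QuotientGroup.congr_mk']
  congr 1
  ext1
  simp only [Units.coe_mapEquiv, FractionalIdeal.coe_mk0]
  exact ringEquivOfRingEquiv_coeIdeal _ _ g I.1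

end General

variable (p : ℕ) [Fact p.Prime] (K : Type) [Field K] [NumberField K]
  [IsCyclotomicExtension {p} ℚ K]

/-- the nonzero ideal `σ • I`. -/
noncomputable def smul0 (σ : K ≃ₐ[ℚ] K) (I : (Ideal (𝓞 K))⁰) : (Ideal (𝓞 K))⁰ :=
  ⟨σ • I.1, map_mem_nonZeroDivisors (MulSemiringAction.toRingEquiv (K ≃ₐ[ℚ] K) (𝓞 K) σ) I⟩

@[simp] theorem coe_smul0 (σ : K ≃ₐ[ℚ] K) (I : (Ideal (𝓞 K))⁰) :
    ((smul0 K σ I : (Ideal (𝓞 K))⁰) : Ideal (𝓞 K)) = σ • (I : Ideal (𝓞 K)) := rfl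

theorem galCl_mk0 (σ : K ≃ₐ[ℚ] K) (I : (Ideal (𝓞 K))⁰) :
    galCl K σ (ClassGroup.mk0 I) = ClassGroup.mk0 (smul0 K σ I) := by
  unfold galCl
  rw [mulEquiv_mk0]
  rfl

theorem galCl_mul (σ τ : K ≃ₐ[ℚ] K) (x : ClassGroup (𝓞 K)) :
    galCl K (σ * τ) x = galCl K σ (galCl K τ x) := by
  obtain ⟨I, rfl⟩ := ClassGroup.mk0_surjective x
  rw [galCl_mk0, galCl_mk0, galCl_mk0]
  congr 1
  apply Subtype.ext
  simp only [coe_smul0]
  rw [mul_smul]

/-- `f2 c = [c²]`. -/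
def f2 (c : (ZMod p)ˣ) : ℕ := (((c ^ 2 : (ZMod p)ˣ) : (ZMod p)ˣ) : ZMod p).val

theorem e2_eq_f2_inv (c : (ZMod p)ˣ) : e2 p c = f2 p c⁻¹ := rfl

theorem e2_inv (c : (ZMod p)ˣ) : e2 p c⁻¹ = f2 p c := by
  unfold e2 f2
  rw [inv_inv]

/-- `ε` as a monoid hom. -/
noncomputable def epsHom : ClassGroup (𝓞 K) →* ClassGroup (𝓞 K) where
  toFun := eps p K
  map_one' := by
    unfold eps
    simp
  map_mul' x y := by
    unfold eps
    simp only [map_mul, mul_pow]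
    rw [Finset.prod_mul_distrib]

@[simp] theorem epsHom_apply (x : ClassGroup (𝓞 K)) : epsHom p K x = eps p K x := rfl

end Part2

section Part3
variable (p : ℕ) [Fact p.Prime] (K : Type) [Field K] [NumberField K]
  [IsCyclotomicExtension {p} ℚ K]

theorem e2_mul_inv_modEq (c d : (ZMod p)ˣ) :
    e2 p (c * d⁻¹) ≡ e2 p c * f2 p d [MOD p] := by
  rw [← ZMod.natCast_eq_natCast_iff]
  unfold e2 f2
  push_cast
  rw [ZMod.natCast_zmod_val, ZMod.natCast_zmod_val, ZMod.natCast_zmod_val]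
  rw [mul_inv, inv_inv, mul_pow]

/-- The subgroup of `p`-th powers of the class group. -/
noncomputable def Pp : Subgroup (ClassGroup (𝓞 K)) := (powMonoidHom p).range

theorem mem_Pp {x : ClassGroup (𝓞 K)} : x ∈ Pp p K ↔ ∃ y, x = y ^ p := by
  unfold Pp
  rw [MonoidHom.mem_range]
  simp only [powMonoidHom_apply]
  exact ⟨fun ⟨y, hy⟩ => ⟨y, hy.symm⟩, fun ⟨y, hy⟩ => ⟨y, hy.symm⟩⟩

/-- The projection to the class group modulo `p`-th powers. -/
noncomputable def piP : ClassGroup (𝓞 K) →* ClassGroup (𝓞 K) ⧸ Pp p K := QuotientGroup.mk' (Pp p K)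

theorem piP_eq_one_iff {x : ClassGroup (𝓞 K)} : piP p K x = 1 ↔ ∃ y, x = y ^ p := by
  unfold piP
  rw [QuotientGroup.mk'_apply, QuotientGroup.eq_one_iff, mem_Pp]

theorem piP_pow_p (x : ClassGroup (𝓞 K)) : piP p K x ^ p = 1 := by
  rw [← map_pow, piP_eq_one_iff]
  exact ⟨x, rfl⟩

theorem piP_pow_congr (x : ClassGroup (𝓞 K)) {a b : ℕ} (h : a ≡ b [MOD p]) :
    piP p K x ^ a = piP p K x ^ b := by
  rw [pow_eq_pow_mod a (piP_pow_p p K x), pow_eq_pow_mod b (piP_pow_p p K x), h]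

/-- The eigen-relation: `ε (σ x) = (ε x)^[χ(σ)²]` modulo `p`-th powers. -/
theorem piP_eps_galCl (τ : K ≃ₐ[ℚ] K) (x : ClassGroup (𝓞 K)) :
    piP p K (eps p K (galCl K τ x)) = piP p K (eps p K x) ^ f2 p (chi p K τ) := by
  unfold eps
  rw [map_prod, map_prod, ← Finset.prod_pow]
  rw [← Equiv.prod_comp (Equiv.mulRight τ⁻¹)]
  refine Finset.prod_congr rfl fun ρ _ => ?_
  simp only [Equiv.coe_mulRight]
  rw [← galCl_mul, inv_mul_cancel_right, map_pow, map_pow, ← pow_mul]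
  apply piP_pow_congr
  rw [map_mul, map_inv]
  exact e2_mul_inv_modEq p _ _

end Part3

section Part4
variable (p : ℕ) [Fact p.Prime] (K : Type) [Field K] [NumberField K]
  [IsCyclotomicExtension {p} ℚ K]

theorem eps_isPow_of_relation (x j : ClassGroup (𝓞 K)) (n : ℕ) (hn : p ∣ n)
    (R : (K ≃ₐ[ℚ] K) → ℕ)
    (hrel : j ^ n * ∏ σ : K ≃ₐ[ℚ] K, galCl K σ x ^ R σ = 1)
    (hS : ¬ p ∣ ∑ σ : K ≃ₐ[ℚ] K, R σ * f2 p (chi p K σ)) :
    ∃ y, eps p K x = y ^ p := by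
  rw [← piP_eq_one_iff]
  have h1 := congrArg (fun z => piP p K (epsHom p K z)) hrel
  simp only [map_mul, map_pow, map_prod, map_one, epsHom_apply] at h1
  obtain ⟨m, rfl⟩ := hn
  rw [pow_mul, piP_pow_p, one_pow, one_mul] at h1
  have h2 : ∀ σ : K ≃ₐ[ℚ] K, piP p K (eps p K (galCl K σ x)) ^ R σ
      = piP p K (eps p K x) ^ (R σ * f2 p (chi p K σ)) := by
    intro σ
    rw [piP_eps_galCl, ← pow_mul, mul_comm]
  rw [Finset.prod_congr rfl (fun σ _ => h2 σ), Finset.prod_pow_eq_pow_sum] at h1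
  have h3 := orderOf_dvd_of_pow_eq_one h1
  have h4 := orderOf_dvd_of_pow_eq_one (piP_pow_p p K (eps p K x))
  have hp : p.Prime := Fact.out
  rcases (Nat.dvd_prime hp).mp h4 with h5 | h5
  · exact orderOf_eq_one_iff.mp h5
  · rw [h5] at h3
    exact absurd h3 hS

end Part4

section Part5
variable (p : ℕ) [Fact p.Prime] (K : Type) [Field K] [NumberField K]
  [IsCyclotomicExtension {p} ℚ K]

theorem zetaI_isPrimitiveRoot : IsPrimitiveRoot (zetaI p K) p :=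
  (IsCyclotomicExtension.zeta_spec p ℚ K).toInteger_isPrimitiveRoot

theorem zetaI_pow_p : zetaI p K ^ p = 1 := (zetaI_isPrimitiveRoot p K).pow_eq_one

theorem zetaI_sub_one_dvd : zetaI p K - 1 ∣ (p : 𝓞 K) :=
  (IsCyclotomicExtension.zeta_spec p ℚ K).toInteger_sub_one_dvd_prime'

/-- The Galois action on `ζ` through the cyclotomic character. -/
theorem smul_zetaI (σ : K ≃ₐ[ℚ] K) :
    σ • zetaI p K = zetaI p K ^ ((chi p K σ : (ZMod p)ˣ) : ZMod p).val := by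
  apply RingOfIntegers.ext
  have h := IsPrimitiveRoot.autToPow_spec ℚ (IsCyclotomicExtension.zeta_spec p ℚ K) σ
  change σ ((zetaI p K : 𝓞 K) : K) = _
  push_cast
  unfold chi
  rw [IsCyclotomicExtension.autEquivPow_apply]
  exact h.symm

end Part5

section Part6
variable {p : ℕ} [Fact p.Prime] {K : Type} [Field K] [NumberField K]
  [IsCyclotomicExtension {p} ℚ K]

variable {𝔩 : Ideal (𝓞 K)}

theorem good_isMaximal (h : IsGoodPrime p K 𝔩) : 𝔩.IsMaximal :=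
  Ideal.IsPrime.isMaximal h.1 h.2.1

theorem good_card (h : IsGoodPrime p K 𝔩) : Nat.card (𝓞 K ⧸ 𝔩) = Ideal.absNorm 𝔩 := by
  rw [Ideal.absNorm_apply, Submodule.cardQuot_apply]

/-- modulo a prime of degree one every integer of `K` is congruent to a rational integer. -/
theorem exists_nat_sub_mem (h : IsGoodPrime p K 𝔩) (x : 𝓞 K) :
    ∃ n : ℕ, x - (n : 𝓞 K) ∈ 𝔩 := by
  haveI : Finite (𝓞 K ⧸ 𝔩) := Ideal.finiteQuotientOfFreeOfNeBot 𝔩 h.2.1
  letI : Fintype (𝓞 K ⧸ 𝔩) := Fintype.ofFinite _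
  have hcard : Fintype.card (𝓞 K ⧸ 𝔩) = Ideal.absNorm 𝔩 := by
    rw [← Nat.card_eq_fintype_card, good_card h]
  let e := ZMod.ringEquivOfPrime (𝓞 K ⧸ 𝔩) h.2.2.1 hcard
  haveI : NeZero (Ideal.absNorm 𝔩) := ⟨h.2.2.1.ne_zero⟩
  refine ⟨(e.symm (Ideal.Quotient.mk 𝔩 x)).val, ?_⟩
  rw [← Ideal.Quotient.eq, map_natCast, ← map_natCast e, ZMod.natCast_zmod_val,
    RingEquiv.apply_symm_apply]

theorem pow_absNorm_sub_mem (h : IsGoodPrime p K 𝔩) (x : 𝓞 K) :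
    x ^ Ideal.absNorm 𝔩 - x ∈ 𝔩 := by
  haveI := good_isMaximal h
  haveI : Finite (𝓞 K ⧸ 𝔩) := Ideal.finiteQuotientOfFreeOfNeBot 𝔩 h.2.1
  letI : Fintype (𝓞 K ⧸ 𝔩) := Fintype.ofFinite _
  letI : Field (𝓞 K ⧸ 𝔩) := Ideal.Quotient.field 𝔩
  have hcard : Fintype.card (𝓞 K ⧸ 𝔩) = Ideal.absNorm 𝔩 := by
    rw [← Nat.card_eq_fintype_card, good_card h]
  rw [← Ideal.Quotient.eq, map_pow, ← hcard]
  exact FiniteField.pow_card _

theorem zetaI_sub_one_notMem (h : IsGoodPrime p K 𝔩) : zetaI p K - 1 ∉ 𝔩 := by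
  intro hmem
  exact h.2.2.2.1 (Ideal.mem_of_dvd 𝔩 (zetaI_sub_one_dvd p K) hmem)

theorem zeta_pow_modEq (h : IsGoodPrime p K 𝔩) {a b : ℕ}
    (hab : zetaI p K ^ a - zetaI p K ^ b ∈ 𝔩) : a ≡ b [MOD p] := by
  have hp : p.Prime := Fact.out
  set z : 𝓞 K ⧸ 𝔩 := Ideal.Quotient.mk 𝔩 (zetaI p K) with hz
  have hzp : z ^ p = 1 := by rw [hz, ← map_pow, zetaI_pow_p, map_one]
  have hz1 : z ≠ 1 := by
    intro h1
    apply zetaI_sub_one_notMem h
    rw [← Ideal.Quotient.eq, map_one]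
    exact h1
  have hord : orderOf z = p := orderOf_eq_prime hzp hz1
  have hzab : z ^ a = z ^ b := by
    rw [hz, ← map_pow, ← map_pow, Ideal.Quotient.eq]
    exact hab
  rw [pow_eq_pow_mod a hzp, pow_eq_pow_mod b hzp] at hzab
  have := pow_injOn_Iio_orderOf (x := z) (by rw [Set.mem_Iio, hord]; exact Nat.mod_lt _ hp.pos)
    (by rw [Set.mem_Iio, hord]; exact Nat.mod_lt _ hp.pos) hzab
  exact this

theorem absNorm_mod_eq_one (h : IsGoodPrime p K 𝔩) : Ideal.absNorm 𝔩 % p = 1 := by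
  have hp : p.Prime := Fact.out
  have h1 : zetaI p K ^ Ideal.absNorm 𝔩 - zetaI p K ^ 1 ∈ 𝔩 := by
    rw [pow_one]
    exact pow_absNorm_sub_mem h _
  have h2 := zeta_pow_modEq h h1
  rw [Nat.ModEq, Nat.mod_eq_of_lt hp.one_lt] at h2
  exact h2

theorem smul_sub_mem_of_smul_eq (h : IsGoodPrime p K 𝔩) (ρ : K ≃ₐ[ℚ] K) (hρ : ρ • 𝔩 = 𝔩)
    (x : 𝓞 K) : ρ • x - x ∈ 𝔩 := by
  obtain ⟨n, hn⟩ := exists_nat_sub_mem h x
  have h1 : ρ • (x - (n : 𝓞 K)) ∈ 𝔩 := by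
    have := Ideal.smul_mem_pointwise_smul ρ _ 𝔩 hn
    rwa [hρ] at this
  have h2 : ρ • x - x = ρ • (x - (n : 𝓞 K)) - (x - (n : 𝓞 K)) := by
    have h3 : ρ • ((n : ℕ) : 𝓞 K) = (n : 𝓞 K) :=
      map_natCast (MulSemiringAction.toRingHom (K ≃ₐ[ℚ] K) (𝓞 K) ρ) n
    rw [smul_sub, h3]
    ring
  rw [h2]
  exact 𝔩.sub_mem h1 hn

theorem eq_one_of_smul_eq (h : IsGoodPrime p K 𝔩) (ρ : K ≃ₐ[ℚ] K) (hρ : ρ • 𝔩 = 𝔩) : ρ = 1 := by
  have hp : p.Prime := Fact.out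
  have h1 := smul_sub_mem_of_smul_eq h ρ hρ (zetaI p K)
  rw [smul_zetaI] at h1
  nth_rewrite 2 [← pow_one (zetaI p K)] at h1
  have h2 := zeta_pow_modEq h h1
  apply (chi p K).injective
  rw [map_one]
  apply Units.ext
  rw [Units.val_one]
  have h3 := (ZMod.natCast_eq_natCast_iff _ _ _).mpr h2
  rwa [ZMod.natCast_zmod_val, Nat.cast_one] at h3

theorem smul_injective (h : IsGoodPrime p K 𝔩) :
    Function.Injective (fun σ : K ≃ₐ[ℚ] K => σ • 𝔩) := by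
  intro σ τ hστ
  simp only at hστ
  have h1 : (τ⁻¹ * σ) • 𝔩 = 𝔩 := by
    rw [mul_smul, hστ, inv_smul_smul]
  have h2 := eq_one_of_smul_eq h _ h1
  rw [inv_mul_eq_one] at h2
  exact h2.symm

end Part6

section Part7
theorem exists_primitive_root (l : ℕ) [Fact l.Prime] :
    ∃ g : ℕ, orderOf (g : ZMod l) = l - 1 := by
  obtain ⟨u, hu⟩ := IsCyclic.exists_generator (α := (ZMod l)ˣ)
  refine ⟨((u : (ZMod l)ˣ) : ZMod l).val, ?_⟩
  rw [ZMod.natCast_zmod_val, orderOf_units, orderOf_eq_card_of_forall_mem_zpowers hu,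
    Nat.card_eq_fintype_card, ZMod.card_units]

theorem pow_trick {M : Type*} [CommMonoid M] (d u : M) (k : ℕ) (h : d * u ^ (k + 1) = 1) :
    (d * u ^ k) ^ (k + 1) = d := by
  calc (d * u ^ k) ^ (k + 1) = d * (d * u ^ (k + 1)) ^ k := by
        rw [mul_pow, mul_pow, pow_succ' d k, ← pow_mul, ← pow_mul, mul_comm k (k + 1)]
        rw [mul_assoc]
    _ = d := by rw [h, one_pow, mul_one]

variable {p : ℕ} [Fact p.Prime] {K : Type} [Field K] [NumberField K]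
  [IsCyclotomicExtension {p} ℚ K]

variable {𝔩 : Ideal (𝓞 K)}

theorem under_eq_span (h : IsGoodPrime p K 𝔩) :
    Ideal.span {((Ideal.absNorm 𝔩 : ℕ) : ℤ)} = 𝔩.under ℤ := by
  have hmax : (Ideal.span {((Ideal.absNorm 𝔩 : ℕ) : ℤ)}).IsMaximal :=
    PrincipalIdealRing.isMaximal_of_irreducible (Nat.prime_iff_prime_int.mp h.2.2.1).irreducible
  haveI := h.1
  refine hmax.eq_of_le (Ideal.comap_ne_top _ h.1.ne_top) ?_
  rw [Ideal.span_singleton_le_iff_mem, Ideal.under_def, Ideal.mem_comap]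
  have : algebraMap ℤ (𝓞 K) ((Ideal.absNorm 𝔩 : ℕ) : ℤ) = ((Ideal.absNorm 𝔩 : ℕ) : 𝓞 K) := by
    simp
  rw [this]
  exact Ideal.absNorm_mem 𝔩

theorem span_ne_bot (h : IsGoodPrime p K 𝔩) :
    Ideal.span {((Ideal.absNorm 𝔩 : ℕ) : ℤ)} ≠ ⊥ := by
  rw [Ne, Ideal.span_singleton_eq_bot]
  exact_mod_cast h.2.2.1.ne_zero

theorem span_isMaximal (h : IsGoodPrime p K 𝔩) :
    (Ideal.span {((Ideal.absNorm 𝔩 : ℕ) : ℤ)}).IsMaximal :=
  PrincipalIdealRing.isMaximal_of_irreducible (Nat.prime_iff_prime_int.mp h.2.2.1).irreducible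

theorem mem_primesOverFinset_iff_exists (h : IsGoodPrime p K 𝔩) (𝔮 : Ideal (𝓞 K)) :
    𝔮 ∈ IsDedekindDomain.primesOverFinset (Ideal.span {((Ideal.absNorm 𝔩 : ℕ) : ℤ)}) (𝓞 K) ↔
      ∃ σ : K ≃ₐ[ℚ] K, σ • 𝔩 = 𝔮 := by
  haveI := span_isMaximal h
  haveI : IsGalois ℚ K := IsCyclotomicExtension.isGalois {p} ℚ K
  haveI := h.1
  haveI : 𝔩.LiesOver (Ideal.span {((Ideal.absNorm 𝔩 : ℕ) : ℤ)}) := ⟨under_eq_span h⟩
  rw [IsDedekindDomain.mem_primesOverFinset_iff (span_ne_bot h)]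
  constructor
  · rintro ⟨h1, h2⟩
    exact Ideal.exists_smul_eq_of_isGaloisGroup (Ideal.span {((Ideal.absNorm 𝔩 : ℕ) : ℤ)}) 𝔩 𝔮
      (K ≃ₐ[ℚ] K)
  · rintro ⟨σ, rfl⟩
    exact ⟨inferInstance, inferInstance⟩

theorem prod_primesOver_eq (h : IsGoodPrime p K 𝔩) {M : Type*} [CommMonoid M]
    (F : Ideal (𝓞 K) → M) :
    ∏ 𝔮 ∈ IsDedekindDomain.primesOverFinset (Ideal.span {((Ideal.absNorm 𝔩 : ℕ) : ℤ)}) (𝓞 K), F 𝔮 =
      ∏ σ : K ≃ₐ[ℚ] K, F (σ • 𝔩) := by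
  symm
  refine Finset.prod_bij (fun σ _ => σ • 𝔩) ?_ ?_ ?_ ?_
  · intro σ _
    exact (mem_primesOverFinset_iff_exists h _).mpr ⟨σ, rfl⟩
  · intro σ _ τ _ hστ
    exact smul_injective h hστ
  · intro 𝔮 h𝔮
    obtain ⟨σ, hσ⟩ := (mem_primesOverFinset_iff_exists h _).mp h𝔮
    exact ⟨σ, Finset.mem_univ _, hσ⟩
  · intro σ _
    rfl

end Part7

section Part8
variable {p : ℕ} [Fact p.Prime] {K : Type} [Field K] [NumberField K]
  [IsCyclotomicExtension {p} ℚ K]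

variable {𝔩 : Ideal (𝓞 K)}

/-- Transport of Thaine's congruence from `σ • 𝔩` to `𝔩`. -/
theorem cong_transport (σ : K ≃ₐ[ℚ] K) (g R : ℕ)
    (hc : (1 - zetaI p K) * (g : 𝓞 K) ^ R - 1 ∈ σ • 𝔩) :
    (1 - zetaI p K ^ (((chi p K σ)⁻¹ : (ZMod p)ˣ) : ZMod p).val) * (g : 𝓞 K) ^ R - 1 ∈ 𝔩 := by
  rw [Ideal.mem_pointwise_smul_iff_inv_smul_mem] at hc
  have h3 : σ⁻¹ • ((g : ℕ) : 𝓞 K) = (g : 𝓞 K) :=
    map_natCast (MulSemiringAction.toRingHom (K ≃ₐ[ℚ] K) (𝓞 K) σ⁻¹) g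
  rw [smul_sub, smul_mul', smul_sub, smul_pow', smul_one, h3, smul_zetaI, map_inv] at hc
  exact hc

/-- `dt` re-indexed over the Galois group. -/
theorem dt_eq_prod :
    dt p K = ∏ σ : K ≃ₐ[ℚ] K,
      (1 - zetaI p K ^ (((chi p K σ)⁻¹ : (ZMod p)ˣ) : ZMod p).val) ^ f2 p (chi p K σ) := by
  unfold dt
  symm
  refine Fintype.prod_equiv ((chi p K).toEquiv.trans (Equiv.inv _)) _ _ ?_
  intro σ
  simp only [Equiv.trans_apply, MulEquiv.toEquiv_eq_coe, EquivLike.coe_coe, Equiv.inv_apply]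
  rw [e2_inv]

/-- for a good prime the weighted sum of Thaine's exponents is prime to `p`. -/
theorem not_dvd_sum (h : IsGoodPrime p K 𝔩) (g : ℕ) (R : (K ≃ₐ[ℚ] K) → ℕ)
    (hc : ∀ σ : K ≃ₐ[ℚ] K, (1 - zetaI p K) * (g : 𝓞 K) ^ R σ - 1 ∈ σ • 𝔩) :
    ¬ p ∣ ∑ σ : K ≃ₐ[ℚ] K, R σ * f2 p (chi p K σ) := by
  have hp : p.Prime := Fact.out
  intro hdvd
  apply h.2.2.2.2
  obtain ⟨m, hm⟩ := hdvd
  have key : Ideal.Quotient.mk 𝔩 (dt p K) *
      (Ideal.Quotient.mk 𝔩 ((g : 𝓞 K) ^ m)) ^ p = 1 := by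
    rw [← map_pow, ← pow_mul, mul_comm m p, ← hm, ← map_mul, dt_eq_prod,
      ← Finset.prod_pow_eq_pow_sum, ← Finset.prod_mul_distrib, map_prod]
    refine Finset.prod_eq_one fun σ _ => ?_
    rw [pow_mul, ← mul_pow, map_pow]
    have := cong_transport σ g (R σ) (hc σ)
    rw [← Ideal.Quotient.eq, map_one] at this
    rw [this, one_pow]
  have hk : p - 1 + 1 = p := Nat.sub_add_cancel hp.one_le
  refine ⟨dt p K * ((g : 𝓞 K) ^ m) ^ (p - 1), ?_⟩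
  rw [← Ideal.Quotient.eq, map_pow, map_mul, map_pow]
  have key' : Ideal.Quotient.mk 𝔩 (dt p K) *
      (Ideal.Quotient.mk 𝔩 ((g : 𝓞 K) ^ m)) ^ (p - 1 + 1) = 1 := by
    rw [hk]; exact key
  have := pow_trick _ _ (p - 1) key'
  rw [hk] at this
  exact this

end Part8

section Part9
variable (p : ℕ) [Fact p.Prime] (K : Type) [Field K] [NumberField K]
  [IsCyclotomicExtension {p} ℚ K]

theorem thaineClassStatement (hTH : ThaineStatement p K) : ThaineClassStatement p K := by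
  intro 𝔩 h
  have hp : p.Prime := Fact.out
  haveI : Fact (Ideal.absNorm 𝔩).Prime := ⟨h.2.2.1⟩
  have hl2 : 2 ≤ Ideal.absNorm 𝔩 := h.2.2.1.two_le
  obtain ⟨g, hg⟩ := exists_primitive_root (Ideal.absNorm 𝔩)
  obtain ⟨κ, J, r, hκ, hspan, hcong⟩ := hTH (Ideal.absNorm 𝔩) (absNorm_mod_eq_one h) g hg
  rw [prod_primesOver_eq h (fun 𝔮 => 𝔮 ^ r 𝔮)] at hspan
  have hJ : J ≠ ⊥ := by
    rintro rfl
    rw [Ideal.bot_pow (by omega), Ideal.bot_mul, Ideal.span_singleton_eq_bot] at hspan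
    exact hκ hspan
  have hdvd : p ∣ Ideal.absNorm 𝔩 - 1 := by
    have h1 := absNorm_mod_eq_one h
    have h2 : (Ideal.absNorm 𝔩 - 1) % p = 0 := by
      have h3 := Nat.mod_add_div (Ideal.absNorm 𝔩) p
      rw [h1] at h3
      have : Ideal.absNorm 𝔩 - 1 = p * (Ideal.absNorm 𝔩 / p) := by omega
      rw [this, Nat.mul_mod_right]
    exact Nat.dvd_of_mod_eq_zero h2
  set 𝔩' : (Ideal (𝓞 K))⁰ := ⟨𝔩, mem_nonZeroDivisors_iff_ne_zero.mpr h.2.1⟩ with h𝔩'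
  set J' : (Ideal (𝓞 K))⁰ := ⟨J, mem_nonZeroDivisors_iff_ne_zero.mpr hJ⟩ with hJ'
  have hκ' : Ideal.span {κ} ∈ (Ideal (𝓞 K))⁰ := by
    rw [mem_nonZeroDivisors_iff_ne_zero, Ne, Ideal.zero_eq_bot, Ideal.span_singleton_eq_bot]
    exact hκ
  have hrel0 : (⟨Ideal.span {κ}, hκ'⟩ : (Ideal (𝓞 K))⁰) =
      J' ^ (Ideal.absNorm 𝔩 - 1) * ∏ σ : K ≃ₐ[ℚ] K, smul0 K σ 𝔩' ^ r (σ • 𝔩) := by
    apply Subtype.ext
    rw [Submonoid.coe_mul, SubmonoidClass.coe_pow, Submonoid.coe_finsetProd]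
    simp only [SubmonoidClass.coe_pow, coe_smul0]
    exact hspan
  have hrel : ClassGroup.mk0 J' ^ (Ideal.absNorm 𝔩 - 1) *
      ∏ σ : K ≃ₐ[ℚ] K, galCl K σ (ClassGroup.mk0 𝔩') ^ r (σ • 𝔩) = 1 := by
    have h1 := congrArg ClassGroup.mk0 hrel0
    rw [map_mul, map_pow, map_prod] at h1
    simp only [map_pow] at h1
    rw [(ClassGroup.mk0_eq_one_iff hκ').mpr ⟨⟨κ, rfl⟩⟩] at h1
    rw [h1]
    congr 1
    refine Finset.prod_congr rfl fun σ _ => ?_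
    rw [galCl_mk0]
  refine eps_isPow_of_relation p K (ClassGroup.mk0 𝔩') (ClassGroup.mk0 J') _ hdvd
    (fun σ => r (σ • 𝔩)) hrel ?_
  refine not_dvd_sum h g _ fun σ => ?_
  exact hcong (σ • 𝔩) ((mem_primesOverFinset_iff_exists h _).mpr ⟨σ, rfl⟩)

end Part9

end Fermat.Agent.Thaine.ThaineClass
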