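/-
Program E2 (S14 via Thaine), helper20: invariant ideals in a Galois extension of number fields which
is unramified outside a finite set `T` of `G`-fixed primes (generalising helper13's
`CFT/InvariantIdeal.lean`, where `T = ∅`).

* `exists_eq_map_mul_prod` : a nonzero `G`-invariant ideal `A` of `𝓞 L` is
  `b 𝓞 L * ∏_{P ∈ T} P ^ n P` with `b 𝓞 L` prime to `T`;
* `mem_pow_of_eq`, `not_mem_pow_succ_of_eq` : `n P` is the exact power of `P` in `A`.
-/
import Fermat.Agent.CFT.InvariantIdeal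

set_option autoImplicit false
set_option linter.style.haveILetI false
set_option linter.unusedSectionVars false

open NumberField Fermat.Agent.CFT.InvariantIdeal
open scoped Pointwise nonZeroDivisors

namespace Fermat.Agent.Thaine.InvariantDecomp

variable {K L : Type*} [Field K] [Field L] [NumberField K] [NumberField L] [Algebra K L]
  [IsGalois K L]

/-- If `P` is unramified over `K` then `(P ∩ 𝓞 K) 𝓞 L` is the product of the primes over
`P ∩ 𝓞 K`. -/
theorem ext_under_eq_prod (P : Ideal (𝓞 L)) [P.IsPrime] (q : Ideal (𝓞 K)) [q.IsMaximal]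
    [P.LiesOver q] (hq0 : q ≠ ⊥) (he : P.ramificationIdx (𝓞 K) = 1) :
    ext (L := L) q = ∏ P' ∈ (q.primesOver (𝓞 L)).toFinset, P' := by
  rw [ext, Ideal.map_algebraMap_eq_finsetProd_pow hq0]
  refine Finset.prod_congr rfl fun P' hP' => ?_
  rw [Set.mem_toFinset] at hP'
  haveI : P'.IsPrime := hP'.1
  haveI : P'.LiesOver q := hP'.2
  rw [← Ideal.ramificationIdxIn_eq_ramificationIdx q P' (L ≃ₐ[K] L),
    Ideal.ramificationIdxIn_eq_ramificationIdx q P (L ≃ₐ[K] L), he, pow_one]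

/-- If a `G`-invariant ideal is divisible by an unramified prime `P`, it is divisible by
`(P ∩ 𝓞 K) 𝓞 L`. -/
theorem ext_under_dvd (P : Ideal (𝓞 L)) [P.IsPrime] (hP : P ≠ ⊥)
    (he : P.ramificationIdx (𝓞 K) = 1) {A : Ideal (𝓞 L)}
    (hinv : ∀ σ : L ≃ₐ[K] L, σ • A = A) (hAP : A ≤ P) :
    ext (L := L) (P.under (𝓞 K)) ∣ A := by
  set q : Ideal (𝓞 K) := P.under (𝓞 K) with hq
  haveI : P.LiesOver q := ⟨rfl⟩
  have hq0 : q ≠ ⊥ := by
    intro h
    exact hP (Ideal.eq_bot_of_comap_eq_bot h)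
  haveI : q.IsMaximal := Ring.DimensionLEOne.maximalOfPrime hq0 inferInstance
  rw [ext_under_eq_prod P q hq0 he]
  refine Finset.prod_primes_dvd A ?_ ?_
  · intro P' hP'
    rw [Set.mem_toFinset] at hP'
    haveI : P'.IsPrime := hP'.1
    haveI : P'.LiesOver q := hP'.2
    exact Ideal.prime_of_isPrime (Ideal.ne_bot_of_liesOver_of_ne_bot hq0 P') inferInstance
  · intro P' hP'
    rw [Set.mem_toFinset] at hP'
    haveI : P'.IsPrime := hP'.1
    haveI : P'.LiesOver q := hP'.2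
    obtain ⟨σ, rfl⟩ := Ideal.exists_smul_eq_of_isGaloisGroup q P P' (L ≃ₐ[K] L)
    rw [Ideal.dvd_iff_le, ← hinv σ]
    exact Ideal.pointwise_smul_le_pointwise_smul_iff.mpr hAP

/-- A `G`-fixed prime is the only prime over its contraction. -/
theorem eq_of_under_eq_of_fixed (P P' : Ideal (𝓞 L)) [P.IsPrime] [P'.IsPrime]
    (hfix : ∀ σ : L ≃ₐ[K] L, σ • P = P) (h : P'.under (𝓞 K) = P.under (𝓞 K)) : P' = P := by
  set q : Ideal (𝓞 K) := P.under (𝓞 K) with hq
  haveI : P.LiesOver q := ⟨rfl⟩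
  haveI : P'.LiesOver q := ⟨h.symm⟩
  obtain ⟨σ, rfl⟩ := Ideal.exists_smul_eq_of_isGaloisGroup q P P' (L ≃ₐ[K] L)
  exact hfix σ

/-- **Decomposition of invariant ideals**: `L/K` Galois, unramified outside the finite set `T`
of `G`-fixed primes. -/
theorem exists_eq_map_mul_prod (T : Finset (Ideal (𝓞 L)))
    (hT : ∀ P ∈ T, P.IsPrime ∧ P ≠ ⊥ ∧ ∀ σ : L ≃ₐ[K] L, σ • P = P)
    (hunr : ∀ P : Ideal (𝓞 L), P.IsPrime → P ≠ ⊥ → P ∉ T → P.ramificationIdx (𝓞 K) = 1)
    (A : Ideal (𝓞 L)) (hA : A ≠ ⊥) (hinv : ∀ σ : L ≃ₐ[K] L, σ • A = A) :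
    ∃ (b : Ideal (𝓞 K)) (n : Ideal (𝓞 L) → ℕ), b ≠ ⊥ ∧ (∀ P ∈ T, ¬ ext (L := L) b ≤ P) ∧
      A = ext b * ∏ P ∈ T, P ^ n P := by
  classical
  revert hA hinv
  refine WellFoundedGT.induction
    (motive := fun A : Ideal (𝓞 L) => A ≠ ⊥ → (∀ σ : L ≃ₐ[K] L, σ • A = A) →
      ∃ (b : Ideal (𝓞 K)) (n : Ideal (𝓞 L) → ℕ), b ≠ ⊥ ∧ (∀ P ∈ T, ¬ ext (L := L) b ≤ P) ∧
        A = ext b * ∏ P ∈ T, P ^ n P) A ?_
  intro A ih hA hinv
  by_cases htop : A = ⊤
  · refine ⟨⊤, fun _ => 0, top_ne_bot, ?_, ?_⟩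
    · intro P hP h
      rw [ext, Ideal.map_top, top_le_iff] at h
      exact (hT P hP).1.ne_top h
    · rw [htop, ext, Ideal.map_top, Finset.prod_eq_one (fun P _ => pow_zero P), mul_one]
  obtain ⟨P, hPmax, hAP⟩ := Ideal.exists_le_maximal A htop
  haveI : P.IsPrime := hPmax.isPrime
  have hP0 : P ≠ ⊥ := fun h => hA (le_bot_iff.mp (h ▸ hAP))
  by_cases hPT : P ∈ T
  · -- peel off the fixed prime `P`
    obtain ⟨A', hA'⟩ : P ∣ A := Ideal.dvd_iff_le.mpr hAP
    have hA'0 : A' ≠ ⊥ := by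
      rintro rfl
      exact hA (by rw [hA', Ideal.mul_bot])
    have hlt : A < A' := by
      refine lt_of_le_of_ne (hA' ▸ Ideal.mul_le_right) ?_
      intro h
      have h1 : P * A' = 1 * A' := by rw [one_mul, ← hA', h]
      have h2 : P = 1 := mul_right_cancel₀ hA'0 h1
      exact hPmax.ne_top (Ideal.one_eq_top (R := 𝓞 L) ▸ h2)
    have hinv' : ∀ σ : L ≃ₐ[K] L, σ • A' = A' := by
      intro σ
      have h1 := hinv σ
      rw [hA', smul_mul', (hT P hPT).2.2 σ] at h1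
      exact mul_left_cancel₀ hP0 h1
    obtain ⟨b', n', hb'0, hb'T, hb'⟩ := ih A' hlt hA'0 hinv'
    refine ⟨b', fun Q => if Q = P then n' Q + 1 else n' Q, hb'0, hb'T, ?_⟩
    rw [hA', hb']
    have hprod : ∏ Q ∈ T, Q ^ (if Q = P then n' Q + 1 else n' Q) =
        P * ∏ Q ∈ T, Q ^ n' Q := by
      rw [← Finset.mul_prod_erase T _ hPT, ← Finset.mul_prod_erase T (fun Q => Q ^ n' Q) hPT]
      simp only [if_true]
      rw [pow_succ, mul_comm (P ^ n' P) P, mul_assoc]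
      congr 2
      refine Finset.prod_congr rfl fun Q hQ => ?_
      rw [if_neg (Finset.ne_of_mem_erase hQ)]
    rw [hprod]
    ring
  · -- peel off the extended ideal `(P ∩ 𝓞 K) 𝓞 L`
    have he := hunr P inferInstance hP0 hPT
    set q : Ideal (𝓞 K) := P.under (𝓞 K) with hq
    have hq0 : q ≠ ⊥ := by
      intro h
      exact hP0 (Ideal.eq_bot_of_comap_eq_bot h)
    obtain ⟨A', hA'⟩ := ext_under_dvd P hP0 he hinv hAP
    have hqL0 : ext (L := L) q ≠ ⊥ := ext_ne_bot hq0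
    have hA'0 : A' ≠ ⊥ := by
      rintro rfl
      exact hA (by rw [hA', Ideal.mul_bot])
    have hqP : ext (L := L) q ≤ P := Ideal.map_le_iff_le_comap.mpr le_rfl
    have hlt : A < A' := by
      refine lt_of_le_of_ne (hA' ▸ Ideal.mul_le_right) ?_
      intro h
      have h1 : ext (L := L) q * A' = 1 * A' := by rw [one_mul, ← hA', h]
      have h2 : ext (L := L) q = 1 := mul_right_cancel₀ hA'0 h1
      exact hPmax.ne_top (top_le_iff.mp (Ideal.one_eq_top (R := 𝓞 L) ▸ h2 ▸ hqP))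
    have hinv' : ∀ σ : L ≃ₐ[K] L, σ • A' = A' := by
      intro σ
      have h1 := hinv σ
      rw [hA', smul_mul', smul_map_algebraMap] at h1
      exact mul_left_cancel₀ hqL0 h1
    obtain ⟨b', n', hb'0, hb'T, hb'⟩ := ih A' hlt hA'0 hinv'
    refine ⟨q * b', n', mul_ne_zero hq0 hb'0, ?_, ?_⟩
    · intro Q hQT hle
      haveI : Q.IsPrime := (hT Q hQT).1
      rw [ext, Ideal.map_mul] at hle
      rcases (Ideal.IsPrime.mul_le inferInstance).mp hle with h | h
      · -- `Q` lies over `q`, hence `Q = P`, contradiction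
        have hQq : Q.under (𝓞 K) = q := by
          haveI : q.IsMaximal := Ring.DimensionLEOne.maximalOfPrime hq0 inferInstance
          have : q ≤ Q.under (𝓞 K) := Ideal.map_le_iff_le_comap.mp h
          exact (Ideal.IsMaximal.eq_of_le inferInstance
            (Ideal.IsPrime.under (𝓞 K) Q).ne_top this).symm
        have := eq_of_under_eq_of_fixed Q P (hT Q hQT).2.2 hQq.symm
        exact hPT (this ▸ hQT)
      · exact hb'T Q hQT h
    · rw [hA', hb', ext, ext, ext, Ideal.map_mul]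
      ring

/-- In a decomposition `A = B * ∏_{P ∈ T} P ^ n P` with `B` prime to `T`, `n Q` is the exact power
of `Q ∈ T` dividing `A` (general Dedekind domain). -/
theorem le_pow_and_not_le_pow_succ {R : Type*} [CommRing R] [IsDedekindDomain R]
    (T : Finset (Ideal R)) (hT : ∀ P ∈ T, P.IsPrime ∧ P ≠ ⊥) (B : Ideal R)
    (hB : ∀ P ∈ T, ¬ B ≤ P) (n : Ideal R → ℕ) (Q : Ideal R) (hQ : Q ∈ T) :
    (B * ∏ P ∈ T, P ^ n P) ≤ Q ^ n Q ∧ ¬ (B * ∏ P ∈ T, P ^ n P) ≤ Q ^ (n Q + 1) := by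
  classical
  haveI : Q.IsPrime := (hT Q hQ).1
  have hQ0 : Q ≠ ⊥ := (hT Q hQ).2
  have hQp : Prime Q := Ideal.prime_of_isPrime hQ0 inferInstance
  have hprod : B * ∏ P ∈ T, P ^ n P = Q ^ n Q * (B * ∏ P ∈ T.erase Q, P ^ n P) := by
    rw [← Finset.mul_prod_erase T (fun P => P ^ n P) hQ]
    ring
  refine ⟨?_, ?_⟩
  · rw [hprod]
    exact Ideal.mul_le_left
  · intro hle
    rw [hprod, ← Ideal.dvd_iff_le, pow_succ, mul_dvd_mul_iff_left (pow_ne_zero _ hQ0)] at hle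
    rcases hQp.dvd_mul.mp hle with h | h
    · exact hB Q hQ (Ideal.dvd_iff_le.mp h)
    · obtain ⟨P, hP, hdvd⟩ := (Prime.dvd_finsetProd_iff hQp _).mp h
      have hPT : P ∈ T := Finset.mem_of_mem_erase hP
      have hPQ : P ≤ Q := Ideal.dvd_iff_le.mp (hQp.dvd_of_dvd_pow hdvd)
      haveI : P.IsPrime := (hT P hPT).1
      have hPmax : P.IsMaximal := Ring.DimensionLEOne.maximalOfPrime (hT P hPT).2 inferInstance
      have : P = Q := hPmax.eq_of_le (Ideal.IsPrime.ne_top inferInstance) hPQ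
      exact Finset.ne_of_mem_erase hP this

end Fermat.Agent.Thaine.InvariantDecomp
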