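/-
Program E2 (S14 via Thaine), helper20: assembly of Thaine's principal ideal for an ABSTRACT
`Kl = K(ζ_l)` from the pieces of `TowerDefs.lean` and the local congruence lemma.
-/
import Fermat.Agent.Thaine.TowerDefs
import Fermat.Agent.Thaine.InvariantDecomp

set_option autoImplicit false
set_option linter.style.haveILetI false
set_option linter.unusedSectionVars false

open NumberField Fermat.Agent.Thaine.Defs Fermat.Agent.Thaine.TowerDefs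
  Fermat.Agent.CFT.InvariantIdeal Fermat.Agent.Thaine.InvariantDecomp
open scoped Pointwise

namespace Fermat.Agent.Thaine.ThaineAsm

variable (p l : ℕ) [Fact p.Prime] [Fact l.Prime]
  (K : Type) [Field K] [NumberField K] [IsCyclotomicExtension {p} ℚ K]
  (Kl : Type) [Field Kl] [NumberField Kl] [Algebra K Kl] [IsCyclotomicExtension {l} K Kl]

/-- The shape of the local congruence lemma (`LocalCongr.local_congr`) for `𝓞 Kl`. -/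
def LocalCongrStatement : Prop :=
  ∀ (τ : 𝓞 Kl ≃+* 𝓞 Kl) (𝔔 : Ideal (𝓞 Kl)) [𝔔.IsPrime], 𝔔 ≠ ⊥ → (∀ x, τ x - x ∈ 𝔔) →
    ∀ (π ν : 𝓞 Kl), π ∈ 𝔔 → π ∉ 𝔔 ^ 2 → τ π = π * ν →
    ∀ (u β : 𝓞 Kl), u * τ β = β → ∀ r : ℕ, β ∈ 𝔔 ^ r → β ∉ 𝔔 ^ (r + 1) → u * ν ^ r - 1 ∈ 𝔔

theorem span_l_ne_bot : (Ideal.span {(l : ℤ)}) ≠ ⊥ := by
  simp [(Fact.out : l.Prime).ne_zero]

/-- Membership in `primesOverFinset (l)`. -/
theorem mem_primesOverFinset_l_iff (F : Type) [Field F] [NumberField F] (P : Ideal (𝓞 F)) :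
    P ∈ IsDedekindDomain.primesOverFinset (Ideal.span {(l : ℤ)}) (𝓞 F) ↔
      P.IsPrime ∧ (l : 𝓞 F) ∈ P := by
  rw [IsDedekindDomain.mem_primesOverFinset_iff (span_l_ne_bot l)]
  constructor
  · rintro ⟨hP, hlies⟩
    refine ⟨hP, ?_⟩
    have h1 : (l : ℤ) ∈ Ideal.span {(l : ℤ)} := Ideal.mem_span_singleton_self _
    rw [hlies.over, Ideal.mem_comap] at h1
    simpa using h1
  · rintro ⟨hP, hl⟩
    refine ⟨hP, ⟨?_⟩⟩
    have hle : Ideal.span {(l : ℤ)} ≤ P.under ℤ := by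
      rw [Ideal.span_singleton_le_iff_mem, Ideal.mem_comap]
      simpa using hl
    haveI := hP
    exact (inferInstance : (Ideal.span {(l : ℤ)}).IsMaximal).eq_of_le
      (Ideal.IsPrime.under ℤ P).ne_top hle

/-- A prime over `l` of `Kl` is fixed by the Galois group (from `OverLStatement`). -/
theorem smul_eq_of_forall_sub_mem (𝔔 : Ideal (𝓞 Kl))
    (h : ∀ (σ : Kl ≃ₐ[K] Kl) (x : 𝓞 Kl), σ • x - x ∈ 𝔔) (σ : Kl ≃ₐ[K] Kl) : σ • 𝔔 = 𝔔 := by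
  have key : ∀ ρ : Kl ≃ₐ[K] Kl, ρ • 𝔔 ≤ 𝔔 := by
    intro ρ x hx
    rw [Ideal.mem_pointwise_smul_iff_inv_smul_mem] at hx
    have h1 := h ρ (ρ⁻¹ • x)
    rw [smul_inv_smul] at h1
    have : x = (x - ρ⁻¹ • x) + ρ⁻¹ • x := by ring
    rw [this]
    exact 𝔔.add_mem h1 hx
  refine le_antisymm (key σ) ?_
  rw [Ideal.subset_pointwise_smul_iff]
  exact key σ⁻¹

theorem thaine_of_tower (hpl : l % p = 1)
    (hirr : IrredStatement p l K) (hgen : GeneratorStatement p l K Kl)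
    (hunit : UnitStatement p l K Kl) (hunr : UnramStatement p l K Kl)
    (hover : OverLStatement p l K Kl) (hloc : LocalCongrStatement Kl)
    (g : ℕ) (hg : orderOf (g : ZMod l) = l - 1) :
    ∃ (κ : 𝓞 K) (J : Ideal (𝓞 K)) (r : Ideal (𝓞 K) → ℕ), κ ≠ 0 ∧
      Ideal.span {κ} = J ^ (l - 1) *
        ∏ 𝔮 ∈ IsDedekindDomain.primesOverFinset (Ideal.span {(l : ℤ)}) (𝓞 K), 𝔮 ^ r 𝔮 ∧
      ∀ 𝔮 ∈ IsDedekindDomain.primesOverFinset (Ideal.span {(l : ℤ)}) (𝓞 K),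
        (1 - zetaI p K) * (g : 𝓞 K) ^ r 𝔮 - 1 ∈ 𝔮 := by
  classical
  haveI : NeZero l := ⟨(Fact.out : l.Prime).ne_zero⟩
  haveI : IsGalois K Kl := IsCyclotomicExtension.isGalois {l} K Kl
  haveI : FiniteDimensional K Kl := IsCyclotomicExtension.finiteDimensional {l} K Kl
  have hirr' := hirr hpl
  have hζ := IsCyclotomicExtension.zeta_spec l K Kl
  set ζl : 𝓞 Kl := hζ.toInteger with hζl
  have hζl' : IsPrimitiveRoot ζl l := hζ.toInteger_isPrimitiveRoot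
  obtain ⟨τ, hτgen, hτz⟩ := hgen hpl g hg
  obtain ⟨hu, hH⟩ := hunit hpl ζl hζl'
  obtain ⟨β, hβ0, hβ⟩ := hH τ hτgen
  set u := thaineUnit p K Kl ζl with hu_def
  -- invariance of `(β)`
  set A : Ideal (𝓞 Kl) := Ideal.span {β} with hA
  have hA0 : A ≠ ⊥ := by
    rw [hA, Ne, Ideal.span_singleton_eq_bot]; exact hβ0
  have hτA : τ • A = A := by
    rw [hA, Ideal.smul_closure, Set.smul_set_singleton]
    conv_rhs => rw [← hβ]
    exact (Ideal.span_singleton_mul_left_unit hu _).symm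
  have hinv : ∀ σ : Kl ≃ₐ[K] Kl, σ • A = A := by
    intro σ
    have : Subgroup.zpowers τ ≤ MulAction.stabilizer (Kl ≃ₐ[K] Kl) A := by
      rw [Subgroup.zpowers_le]; exact hτA
    exact this (hτgen σ)
  -- the set `T` of primes over `l`
  set T : Finset (Ideal (𝓞 Kl)) :=
    IsDedekindDomain.primesOverFinset (Ideal.span {(l : ℤ)}) (𝓞 Kl) with hTdef
  have hTmem : ∀ P : Ideal (𝓞 Kl), P ∈ T ↔ P.IsPrime ∧ (l : 𝓞 Kl) ∈ P :=
    fun P => mem_primesOverFinset_l_iff l Kl P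
  have hl0 : (l : 𝓞 Kl) ≠ 0 := by
    exact_mod_cast (Fact.out : l.Prime).ne_zero
  have hT : ∀ P ∈ T, P.IsPrime ∧ P ≠ ⊥ ∧ ∀ σ : Kl ≃ₐ[K] Kl, σ • P = P := by
    intro P hP
    obtain ⟨hPp, hlP⟩ := (hTmem P).mp hP
    refine ⟨hPp, ?_, ?_⟩
    · rintro rfl
      exact hl0 (by simpa using hlP)
    · exact smul_eq_of_forall_sub_mem K Kl P (hover hpl P hPp hlP).1
  have hunr' : ∀ P : Ideal (𝓞 Kl), P.IsPrime → P ≠ ⊥ → P ∉ T →
      P.ramificationIdx (𝓞 K) = 1 := by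
    intro P hPp hP0 hPT
    exact hunr hpl P hPp hP0 (fun h => hPT ((hTmem P).mpr ⟨hPp, h⟩))
  obtain ⟨b, n, hb0, hbT, hAeq⟩ := exists_eq_map_mul_prod T hT hunr' A hA0 hinv
  -- the norm
  set TK : Finset (Ideal (𝓞 K)) :=
    IsDedekindDomain.primesOverFinset (Ideal.span {(l : ℤ)}) (𝓞 K) with hTKdef
  have hTKmem : ∀ 𝔮 : Ideal (𝓞 K), 𝔮 ∈ TK ↔ 𝔮.IsPrime ∧ (l : 𝓞 K) ∈ 𝔮 :=
    fun 𝔮 => mem_primesOverFinset_l_iff l K 𝔮
  have hmaps : ∀ P ∈ T, P.under (𝓞 K) ∈ TK := by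
    intro P hP
    obtain ⟨hPp, hlP⟩ := (hTmem P).mp hP
    haveI := hPp
    refine (hTKmem _).mpr ⟨Ideal.IsPrime.under (𝓞 K) P, ?_⟩
    rw [Ideal.under_def, Ideal.mem_comap, map_natCast]
    exact hlP
  let r : Ideal (𝓞 K) → ℕ := fun 𝔮 => ∑ P ∈ T.filter (fun P => P.under (𝓞 K) = 𝔮), n P
  have hfin : Module.finrank (𝓞 K) (𝓞 Kl) = l - 1 := by
    rw [← IsFractionRing.finrank_eq (𝓞 K) K (𝓞 Kl) Kl, IsCyclotomicExtension.finrank Kl hirr',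
      Nat.totient_prime (Fact.out : l.Prime)]
  have hnorm : Ideal.span {Algebra.intNorm (𝓞 K) (𝓞 Kl) β} =
      b ^ (l - 1) * ∏ 𝔮 ∈ TK, 𝔮 ^ r 𝔮 := by
    rw [← Ideal.relNorm_singleton, ← hA, hAeq, map_mul, map_prod, ext,
      Ideal.relNorm_algebraMap (𝓞 Kl) b, hfin]
    congr 1
    rw [← Finset.prod_fiberwise_of_maps_to hmaps]
    refine Finset.prod_congr rfl fun 𝔮 _ => ?_
    rw [← Finset.prod_pow_eq_pow_sum]
    refine Finset.prod_congr rfl fun P hP => ?_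
    rw [Finset.mem_filter] at hP
    obtain ⟨hPp, hlP⟩ := (hTmem P).mp hP.1
    rw [map_pow, (hover hpl P hPp hlP).2.2, hP.2]
  refine ⟨Algebra.intNorm (𝓞 K) (𝓞 Kl) β, b, r, Algebra.intNorm_ne_zero.mpr hβ0, hnorm, ?_⟩
  -- the local congruences
  intro 𝔮 h𝔮
  obtain ⟨h𝔮p, hl𝔮⟩ := (hTKmem 𝔮).mp h𝔮
  haveI := h𝔮p
  obtain ⟨⟨𝔔, h𝔔p, h𝔔over⟩⟩ := 𝔮.nonempty_primesOver (S := 𝓞 Kl)
  haveI := h𝔔p
  have h𝔮eq : 𝔮 = 𝔔.under (𝓞 K) := h𝔔over.over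
  have hl𝔔 : (l : 𝓞 Kl) ∈ 𝔔 := by
    have : (l : 𝓞 K) ∈ 𝔔.under (𝓞 K) := h𝔮eq ▸ hl𝔮
    rw [Ideal.under_def, Ideal.mem_comap, map_natCast] at this
    exact this
  have h𝔔T : 𝔔 ∈ T := (hTmem 𝔔).mpr ⟨h𝔔p, hl𝔔⟩
  obtain ⟨hfix, hunif, -⟩ := hover hpl 𝔔 h𝔔p hl𝔔
  have hr : r 𝔮 = n 𝔔 := by
    have hfilter : T.filter (fun P => P.under (𝓞 K) = 𝔮) = {𝔔} := by
      ext P
      rw [Finset.mem_filter, Finset.mem_singleton]
      constructor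
      · rintro ⟨hPT, hPu⟩
        haveI := (hT P hPT).1
        exact eq_of_under_eq_of_fixed 𝔔 P (hT 𝔔 h𝔔T).2.2 (hPu.trans h𝔮eq)
      · rintro rfl
        exact ⟨h𝔔T, h𝔮eq.symm⟩
    change ∑ P ∈ T.filter (fun P => P.under (𝓞 K) = 𝔮), n P = n 𝔔
    rw [hfilter, Finset.sum_singleton]
  obtain ⟨hle, hnle⟩ := le_pow_and_not_le_pow_succ T
    (fun P hP => ⟨(hT P hP).1, (hT P hP).2.1⟩) (ext b) hbT n 𝔔 h𝔔T
  rw [← hAeq, hA, Ideal.span_singleton_le_iff_mem] at hle hnle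
  obtain ⟨hπ, hπ2⟩ := hunif ζl hζl'
  have hζpow : ζl ^ l = 1 := hζl'.pow_eq_one
  have hτπ : (MulSemiringAction.toRingEquiv (Kl ≃ₐ[K] Kl) (𝓞 Kl) τ) (1 - ζl) =
      (1 - ζl) * ∑ i ∈ Finset.range g, ζl ^ i := by
    rw [mul_neg_geom_sum]
    change τ • (1 - ζl) = 1 - ζl ^ g
    rw [smul_sub, smul_one, hτz ζl hζpow]
  have hcong := hloc (MulSemiringAction.toRingEquiv (Kl ≃ₐ[K] Kl) (𝓞 Kl) τ) 𝔔 (hT 𝔔 h𝔔T).2.1
    (fun x => hfix τ x) (1 - ζl) (∑ i ∈ Finset.range g, ζl ^ i) hπ hπ2 hτπ u β hβ (n 𝔔) hle hnle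
  rw [hr, h𝔮eq, Ideal.under_def, Ideal.mem_comap]
  rw [← Ideal.Quotient.eq_zero_iff_mem] at hcong hπ ⊢
  have hζ1 : Ideal.Quotient.mk 𝔔 ζl = 1 := by
    rw [map_sub, map_one, sub_eq_zero] at hπ
    exact hπ.symm
  rw [hu_def, thaineUnit] at hcong
  simp only [map_sub, map_mul, map_pow, map_one, map_sum, hζ1, one_pow, Finset.sum_const,
    Finset.card_range, mul_one, map_natCast, nsmul_eq_mul] at hcong ⊢
  exact hcong

end Fermat.Agent.Thaine.ThaineAsm
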