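/-
Program E2 (S14 via Thaine), helper20: (E2-TH) Thaine's principal ideal, `ThaineStatement p K`.

The pieces `IrredStatement`, `GeneratorStatement`, `UnitStatement`, `LocalCongrStatement` are
instantiated from `ThaineUnit.lean` (helper2) and `CycloTower.lean` (helper29); the ramification
statements `UnramStatement`, `OverLStatement` (helper29, `CycloTowerRam.lean`) are hypotheses of
`thaineStatement_of`; the final `thaineStatement` is in the file importing them.
-/
import Fermat.Agent.Thaine.ThaineAsm
import Fermat.Agent.Thaine.ThaineUnit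
import Fermat.Agent.Thaine.CycloTower

set_option autoImplicit false
set_option linter.style.haveILetI false
set_option linter.unusedSectionVars false

open NumberField Fermat.Agent.Thaine.Defs Fermat.Agent.Thaine.TowerDefs
open scoped Pointwise

namespace Fermat.Agent.Thaine.ThaineRel

variable (p l : ℕ) [Fact p.Prime] [Fact l.Prime]
  (K : Type) [Field K] [NumberField K] [IsCyclotomicExtension {p} ℚ K]
  (Kl : Type) [Field Kl] [NumberField Kl] [Algebra K Kl] [IsCyclotomicExtension {l} K Kl]

theorem ne_of_mod_eq_one (hpl : l % p = 1) : p ≠ l := by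
  rintro rfl
  rw [Nat.mod_self] at hpl
  exact zero_ne_one hpl

theorem zetaI_isPrimitiveRoot' : IsPrimitiveRoot (zetaI p K) p :=
  (IsCyclotomicExtension.zeta_spec p ℚ K).toInteger_isPrimitiveRoot

theorem zetaI_pow_eq (hpl : l % p = 1) : zetaI p K ^ l = zetaI p K := by
  have h := Nat.div_add_mod l p
  rw [hpl] at h
  rw [← h, pow_succ, pow_mul, (zetaI_isPrimitiveRoot' p K).pow_eq_one, one_pow, one_mul]

theorem zetaI_ne_one : zetaI p K ≠ 1 :=
  (zetaI_isPrimitiveRoot' p K).ne_one (Fact.out : p.Prime).one_lt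

theorem irredStatement : IrredStatement p l K := fun hpl =>
  Fermat.Agent.Thaine.CycloTower.irreducible_cyclotomic p l K (ne_of_mod_eq_one p l hpl)

theorem generatorStatement : GeneratorStatement p l K Kl := by
  intro hpl g hg
  haveI : NeZero l := ⟨(Fact.out : l.Prime).ne_zero⟩
  have hζ := IsCyclotomicExtension.zeta_spec l K Kl
  obtain ⟨τ, hτζ, -, hτgen⟩ :=
    Fermat.Agent.Thaine.CycloTower.exists_tau p l K (ne_of_mod_eq_one p l hpl) hg hζ
  refine ⟨τ, hτgen, fun z hz => ?_⟩
  apply RingOfIntegers.ext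
  have hz' : (z : Kl) ^ l = 1 := by
    have := congrArg (fun x : 𝓞 Kl => (x : Kl)) hz
    simpa using this
  have := Fermat.Agent.Thaine.CycloTower.apply_root_eq_pow l K hζ τ hτζ hz'
  rw [RingOfIntegers.coe_eq_algebraMap, RingOfIntegers.coe_eq_algebraMap, map_pow]
  exact this

theorem unitStatement : UnitStatement p l K Kl := by
  intro hpl ζl hζl
  haveI : NeZero l := ⟨(Fact.out : l.Prime).ne_zero⟩
  have hirr := irredStatement p l K hpl
  have hz := zetaI_pow_eq p l K hpl
  have hz1 := zetaI_ne_one p K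
  refine ⟨Fermat.Agent.Thaine.ThaineUnit.isUnit_of_norm_eq_one (K := K)
    (Fermat.Agent.Thaine.ThaineUnit.norm_thaineUnit (Fact.out : l.Prime) hirr hζl hz hz1), ?_⟩
  intro τ hτ
  obtain ⟨-, β, hβ0, hβ⟩ := Fermat.Agent.Thaine.ThaineUnit.exists_thaine_beta
    (Fact.out : l.Prime) hirr hζl hz hz1 hτ
  exact ⟨β, hβ0, hβ.symm⟩

theorem localCongrStatement : Fermat.Agent.Thaine.ThaineAsm.LocalCongrStatement Kl := by
  intro τ 𝔔 _ h𝔔 hτ π ν hπ hπ2 hτπ u β hu r hr hr'
  exact Fermat.Agent.Thaine.ThaineUnit.local_congr 𝔔 h𝔔 τ hτ hπ hπ2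
    (hτπ.trans (mul_comm _ _)) hu.symm hr hr'

/-- **Thaine's principal ideal**, given the ramification statements for `K(ζ_l)/K`. -/
theorem thaineStatement_of
    (hunr : ∀ (l : ℕ) [Fact l.Prime], UnramStatement p l K (CyclotomicField l K))
    (hover : ∀ (l : ℕ) [Fact l.Prime], OverLStatement p l K (CyclotomicField l K)) :
    ThaineStatement p K := by
  intro l _ hpl g hg
  haveI : NeZero l := ⟨(Fact.out : l.Prime).ne_zero⟩
  exact Fermat.Agent.Thaine.ThaineAsm.thaine_of_tower p l K (CyclotomicField l K) hpl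
    (irredStatement p l K) (generatorStatement p l K _) (unitStatement p l K _)
    (hunr l) (hover l) (localCongrStatement _) g hg

end Fermat.Agent.Thaine.ThaineRel
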