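/-
Program E2 (S14 via Thaine, no class field theory), helper20: the FINAL theorem of the E2 line,
hypothesis-free: `NoOmegaInvExt p` for every prime `p ≥ 3`, hence `ExtVanishingCts p`.
(Independent second proof of S14; the graded `Fermat/Agent/S14.lean` uses the CFT line.)
-/
import Fermat.Agent.S14.Translate
import Fermat.Agent.Thaine.FinalOfTC
import Fermat.Agent.Thaine.ThaineRel
import Fermat.Agent.Thaine.ThaineClass
import Fermat.Agent.Thaine.CycloTowerRam

set_option autoImplicit false

open NumberField Fermat.Agent.Thaine.Defs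

namespace Fermat.Agent.Thaine.Final20

/-- **Thaine's principal ideal** (E2-TH), hypothesis-free. -/
theorem thaineStatement (p : ℕ) [Fact p.Prime] (K : Type) [Field K] [NumberField K]
    [IsCyclotomicExtension {p} ℚ K] : ThaineStatement p K :=
  Fermat.Agent.Thaine.ThaineRel.thaineStatement_of p K
    (fun l _ => Fermat.Agent.Thaine.CycloTowerRam.unramStatement p l K _)
    (fun l _ => Fermat.Agent.Thaine.CycloTowerRam.overLStatement p l K _)

/-- **(E2)** there is no unramified `ω⁻¹`-extension of `ℚ(ζ_p)`, `p ≥ 3` (Thaine's route). -/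
theorem noOmegaInvExt (p : ℕ) [Fact p.Prime] (h3 : 3 ≤ p) :
    Fermat.Agent.S14.Interface.NoOmegaInvExt p :=
  Fermat.Agent.Thaine.FinalOfTC.noOmegaInvExt_of_thaineClass p h3 (fun _ K _ _ _ =>
    Fermat.Agent.Thaine.ThaineClass.thaineClassStatement p K (thaineStatement p K))

/-- S14 by the Thaine route. -/
theorem extVanishingCts {p : ℕ} [Fact p.Prime] (h3 : 3 ≤ p) : ExtCitation.ExtVanishingCts p :=
  Fermat.Agent.S14.Translate.extVanishingCts_of_noOmegaInvExt h3 (noOmegaInvExt p h3)

end Fermat.Agent.Thaine.Final20
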