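/-
Program E2 (Thaine track), conditional FINAL assembly (helper8) = integration test of the shapes:

`noOmegaInvExt_of (h3 : 3 ≤ p) (hCl : 5 ≤ p → ∀ K, ClStatement p K) (hU2 : 5 ≤ p → ∀ K, U2Statement p K) :
    Interface.NoOmegaInvExt p`

from `KummerGen.exists_kummerGen` (helper11), `KummerGenAdapter.kummerGen_of` + `FinCore`
(helper19), `KummerU1.u1` (helper9) and `CaseThree.noOmegaInvExt_three` (helper27).
So E2 is reduced to `ClStatement` and `U2Statement` (for `p ≥ 5`).
-/
import Fermat.Agent.S14.Interface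
import Fermat.Agent.S14.Translate
import Fermat.Agent.Thaine.KummerGen
import Fermat.Agent.Thaine.KummerGenAdapter
import Fermat.Agent.Thaine.FinCore
import Fermat.Agent.Thaine.KummerU1
import Fermat.Agent.Thaine.CaseThree

set_option autoImplicit false

namespace Fermat.Agent.Thaine.FinalCond8

open NumberField Fermat.Agent.Thaine.Defs Fermat.Agent.S14.Interface

theorem noOmegaInvExt_of {p : ℕ} [Fact p.Prime] (h3 : 3 ≤ p)
    (hCl : 5 ≤ p → ∀ (K : Type) [Field K] [NumberField K] [IsCyclotomicExtension {p} ℚ K],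
      ClStatement p K)
    (hU2 : 5 ≤ p → ∀ (K : Type) [Field K] [NumberField K] [IsCyclotomicExtension {p} ℚ K],
      U2Statement p K) :
    NoOmegaInvExt p := by
  by_cases h5 : 5 ≤ p
  · intro K L _ _ _ _ _ _ _ _ hdeg hunr hsplit _ hconj
    obtain ⟨α, h0, hi, hii, hiii, hiv⟩ :=
      Fermat.Agent.Thaine.KummerGen.exists_kummerGen K L hdeg hunr hsplit hconj
    have hU1 := Fermat.Agent.Thaine.KummerU1.u1 p K h5
    exact Fermat.Agent.Thaine.FinCore.false_of_kummerGen p K
      (Fermat.Agent.Thaine.KummerGenAdapter.kummerGen_of p K hU1 h0 hi hii hiii hiv)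
      (hCl h5 K) hU1 (hU2 h5 K)
  · have hp : p.Prime := Fact.out
    have hp3 : p = 3 := by
      have h4 : p ≠ 4 := by
        rintro rfl
        exact absurd hp (by decide)
      omega
    subst hp3
    exact Fermat.Agent.Thaine.CaseThree.noOmegaInvExt_three

/-- S14 from the two remaining E2 statements. -/
theorem extVanishingCts_of {p : ℕ} [Fact p.Prime] (h3 : 3 ≤ p)
    (hCl : 5 ≤ p → ∀ (K : Type) [Field K] [NumberField K] [IsCyclotomicExtension {p} ℚ K],
      ClStatement p K)
    (hU2 : 5 ≤ p → ∀ (K : Type) [Field K] [NumberField K] [IsCyclotomicExtension {p} ℚ K],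
      U2Statement p K) :
    ExtCitation.ExtVanishingCts p :=
  Fermat.Agent.S14.Translate.extVanishingCts_of_noOmegaInvExt h3 (noOmegaInvExt_of h3 hCl hU2)

end Fermat.Agent.Thaine.FinalCond8
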