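import Fermat.Agent.Thaine.Defs

/-!
# The Galois action on ideal classes, computed on ideals

* `mulEquiv_mk0` : `ClassGroup.mulEquiv g (mk0 I) = mk0 (I.map g)`.
* `galCl_mk0` : the action of `σ ∈ Gal(K/ℚ)` on the class of an ideal.
* `epsHom` : `eps p K` is a monoid homomorphism.
-/

set_option autoImplicit false

namespace Fermat.Agent.Thaine.GalClMk0

open NumberField nonZeroDivisors Fermat.Agent.Thaine.Defs

section general

variable {R S : Type*} [CommRing R] [IsDomain R] [CommRing S] [IsDomain S]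

theorem map_mem_nonZeroDivisors (g : R ≃+* S) {I : Ideal R} (hI : I ∈ (Ideal R)⁰) :
    I.map (g : R →+* S) ∈ (Ideal S)⁰ := by
  rw [mem_nonZeroDivisors_iff_ne_zero] at hI ⊢
  intro h
  apply hI
  rw [Ideal.zero_eq_bot] at h ⊢
  exact (Ideal.map_eq_bot_iff_of_injective g.injective).mp h

variable (K L : Type*) [Field K] [Algebra R K] [IsFractionRing R K] [Field L] [Algebra S L]
  [IsFractionRing S L]

/-- The transport of fractional ideals along a ring isomorphism, on integral ideals. -/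
theorem ringEquivOfRingEquiv_coeIdeal (g : R ≃+* S) (I : Ideal R) :
    FractionalIdeal.ringEquivOfRingEquiv K L g (I : FractionalIdeal R⁰ K) =
      ((I.map (g : R →+* S) : Ideal S) : FractionalIdeal S⁰ L) := by
  ext x
  rw [← FractionalIdeal.mem_coe, ← FractionalIdeal.val_eq_coe,
    FractionalIdeal.ringEquivOfRingEquiv_apply_val, FractionalIdeal.mem_coeIdeal]
  simp only [FractionalIdeal.val_eq_coe, Submodule.mem_map, FractionalIdeal.mem_coe,
    FractionalIdeal.mem_coeIdeal]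
  constructor
  · rintro ⟨y, ⟨a, ha, rfl⟩, rfl⟩
    refine ⟨g a, Ideal.mem_map_of_mem _ ha, ?_⟩
    exact (IsFractionRing.semilinearEquivOfRingEquiv_algebraMap K L g a).symm
  · rintro ⟨b, hb, rfl⟩
    have hb' : g.symm b ∈ I := by
      have := Ideal.mem_map_of_mem (g.symm : S →+* R) hb
      rwa [Ideal.map_map, show ((g.symm : S →+* R).comp (g : R →+* S)) = RingHom.id R from by
        ext; simp, Ideal.map_id] at this
    refine ⟨algebraMap R K (g.symm b), ⟨g.symm b, hb', rfl⟩, ?_⟩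
    refine (IsFractionRing.semilinearEquivOfRingEquiv_algebraMap K L g (g.symm b)).trans ?_
    rw [RingEquiv.apply_symm_apply]

end general

section classGroup

variable {R S : Type*} [CommRing R] [IsDedekindDomain R] [CommRing S] [IsDedekindDomain S]

set_option backward.isDefEq.respectTransparency.types false in
/-- `ClassGroup.mulEquiv` on the class of an integral ideal. -/
theorem mulEquiv_mk0 (g : R ≃+* S) (I : (Ideal R)⁰) :
    ClassGroup.mulEquiv g (ClassGroup.mk0 I) =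
      ClassGroup.mk0 ⟨(I : Ideal R).map (g : R →+* S), map_mem_nonZeroDivisors g I.2⟩ := by
  rw [ClassGroup.mulEquiv_apply, MulEquiv.symm_apply_eq, ClassGroup.equiv_mk0,
    ClassGroup.equiv_mk0, QuotientGroup.mk'_apply, QuotientGroup.congr_mk]
  congr 1
  ext1
  rw [Units.coe_mapEquiv, FractionalIdeal.coe_mk0, FractionalIdeal.coe_mk0]
  exact ringEquivOfRingEquiv_coeIdeal _ _ g I

end classGroup

section galois

variable (p : ℕ) [Fact p.Prime] (K : Type) [Field K] [NumberField K]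
  [IsCyclotomicExtension {p} ℚ K]

/-- The ring automorphism of `𝓞 K` induced by `σ`. -/
noncomputable abbrev intEquiv (σ : K ≃ₐ[ℚ] K) : 𝓞 K ≃+* 𝓞 K :=
  MulSemiringAction.toRingEquiv (K ≃ₐ[ℚ] K) (𝓞 K) σ

theorem intEquiv_apply (σ : K ≃ₐ[ℚ] K) (x : 𝓞 K) : ((intEquiv K σ x : 𝓞 K) : K) = σ (x : K) := rfl

/-- The image of a nonzero ideal under `σ`. -/
noncomputable def mapIdeal0 (σ : K ≃ₐ[ℚ] K) (I : (Ideal (𝓞 K))⁰) : (Ideal (𝓞 K))⁰ :=
  ⟨(I : Ideal (𝓞 K)).map (intEquiv K σ : 𝓞 K →+* 𝓞 K), map_mem_nonZeroDivisors _ I.2⟩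

theorem coe_mapIdeal0 (σ : K ≃ₐ[ℚ] K) (I : (Ideal (𝓞 K))⁰) :
    (mapIdeal0 K σ I : Ideal (𝓞 K)) = (I : Ideal (𝓞 K)).map (intEquiv K σ : 𝓞 K →+* 𝓞 K) := rfl

/-- The Galois action on the class of an ideal. -/
theorem galCl_mk0 (σ : K ≃ₐ[ℚ] K) (I : (Ideal (𝓞 K))⁰) :
    galCl K σ (ClassGroup.mk0 I) = ClassGroup.mk0 (mapIdeal0 K σ I) :=
  mulEquiv_mk0 (intEquiv K σ) I

/-- `eps` as a monoid homomorphism. -/
noncomputable def epsHom : ClassGroup (𝓞 K) →* ClassGroup (𝓞 K) :=
  ∏ σ : K ≃ₐ[ℚ] K, (powMonoidHom (e2 p (chi p K σ))).comp (galCl K σ).toMonoidHom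

theorem epsHom_apply (x : ClassGroup (𝓞 K)) : epsHom p K x = eps p K x := by
  simp [epsHom, eps]

theorem eps_mul (x y : ClassGroup (𝓞 K)) : eps p K (x * y) = eps p K x * eps p K y := by
  simp only [← epsHom_apply, map_mul]

theorem eps_one : eps p K 1 = 1 := by
  simp only [← epsHom_apply, map_one]

theorem eps_pow (x : ClassGroup (𝓞 K)) (n : ℕ) : eps p K (x ^ n) = eps p K x ^ n := by
  simp only [← epsHom_apply, map_pow]

theorem eps_inv (x : ClassGroup (𝓞 K)) : eps p K x⁻¹ = (eps p K x)⁻¹ := by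
  simp only [← epsHom_apply, map_inv]

end galois

end Fermat.Agent.Thaine.GalClMk0
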