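/-
Program E2 (Thaine track), piece (AN-split), helper5: the density input (IT) of FACT G.

`K` a number field containing a primitive `p`-th root of unity, `d ∈ 𝓞 K` not a `p`-th power in
`K`.  The set `residuePrimes p d` of primes `q` of `K` of prime norm, not containing `p`, at which
`d` is a nonzero `p`-th power residue satisfies
`p * ∑_{q ∈ residuePrimes} N q ^ (-s) ≤ log (1 / (s - 1)) + B` on `(1, 2]`
(each such `q` has `p` primes of the same norm above it in `K' = K(d^(1/p))`, and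
`∑_Q N Q ^ (-s) ≤ log (1 / (s - 1)) + B` for `K'`).
-/
import Mathlib
import Fermat.Agent.Thaine.KummerSplit
import Fermat.Agent.CFT.SplitPrimes

set_option autoImplicit false
set_option linter.unusedSectionVars false
set_option linter.style.haveILetI false

open NumberField IsDedekindDomain Module Polynomial
open Fermat.Agent.Thaine.KummerSplit Fermat.Agent.CFT.SplitPrimes

namespace Fermat.Agent.Thaine.KummerSplitIT

universe u

variable {K : Type u} [Field K] [NumberField K]

/-- The primes of `K` of prime absolute norm, not containing `p`, at which `d` is a nonzero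
`p`-th power residue. -/
def residuePrimes (p : ℕ) (d : 𝓞 K) : Set (HeightOneSpectrum (𝓞 K)) :=
  {q | (Ideal.absNorm q.asIdeal).Prime ∧ (p : 𝓞 K) ∉ q.asIdeal ∧
    ∃ x : 𝓞 K, x ∉ q.asIdeal ∧ x ^ p - d ∈ q.asIdeal}

section Fixed

variable {K' : Type*} [Field K'] [NumberField K'] [Algebra K K']

/-- For a fixed model `K'` of `K(d^(1/p))`. -/
theorem mul_primeIdealZetaSum_le {p : ℕ} (hp : p.Prime) {ζ : 𝓞 K} (hζ : IsPrimitiveRoot ζ p)
    (d : 𝓞 K) (hd : ∀ y : K, y ^ p ≠ (d : K)) (θ : 𝓞 K')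
    (hθ : θ ^ p = algebraMap (𝓞 K) (𝓞 K') d) (hdeg : finrank K K' = p) {s : ℝ} (hs : 1 < s) :
    (p : ℝ) * (residuePrimes p d).primeIdealZetaSum s ≤ primeZeta K' s := by
  classical
  -- choose the primes above
  have hex : ∀ q : residuePrimes p d, ∃ Q : Fin p → Ideal (𝓞 K'), Function.Injective Q ∧
      ∀ i, (Q i).IsPrime ∧ (Q i).under (𝓞 K) = q.1.asIdeal ∧
        Ideal.absNorm (Q i) = Ideal.absNorm q.1.asIdeal := by
    rintro ⟨q, hl, hqp, x, hxq, hx⟩
    haveI : q.asIdeal.IsMaximal := q.isMaximal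
    exact exists_primes_over hp hζ d hd θ hθ hdeg q.asIdeal hl hqp x hx hxq
  choose Q hQinj hQ using hex
  have hne : ∀ (q : residuePrimes p d) (i : Fin p), Q q i ≠ ⊥ := by
    intro q i h
    have h1 := (hQ q i).2.2
    rw [h, Ideal.absNorm_bot] at h1
    exact q.2.1.ne_zero h1.symm
  let f : residuePrimes p d × Fin p → HeightOneSpectrum (𝓞 K') :=
    fun x => ⟨Q x.1 x.2, (hQ x.1 x.2).1, hne x.1 x.2⟩
  have hf : Function.Injective f := by
    rintro ⟨q, i⟩ ⟨q', i'⟩ h
    have h1 : Q q i = Q q' i' := congrArg HeightOneSpectrum.asIdeal h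
    have h2 : q.1.asIdeal = q'.1.asIdeal := by
      rw [← (hQ q i).2.1, ← (hQ q' i').2.1, h1]
    have h3 : q = q' := Subtype.ext (HeightOneSpectrum.ext h2)
    subst h3
    rw [hQinj q h1]
  have hval : ∀ x : residuePrimes p d × Fin p, xP K' s (f x) = xP K s x.1.1 := by
    intro x
    unfold xP
    rw [show (f x).asIdeal = Q x.1 x.2 from rfl, (hQ x.1 x.2).2.2]
  have hsum' : Summable (xP K' s ∘ f) := (summable_xP K' hs).comp_injective hf
  have h1 : ∑' x, (xP K' s ∘ f) x ≤ primeZeta K' s :=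
    tsum_comp_le_tsum_of_inj (summable_xP K' hs) (fun P => (xP_pos K' s P).le) hf
  have h2 : ∑' x, (xP K' s ∘ f) x = (p : ℝ) * (residuePrimes p d).primeIdealZetaSum s := by
    rw [hsum'.tsum_prod' (fun _ => (hasSum_fintype _).summable)]
    have : ∀ q : residuePrimes p d, ∑' i : Fin p, (xP K' s ∘ f) (q, i) = (p : ℝ) * xP K s q.1 := by
      intro q
      rw [tsum_fintype]
      simp only [Function.comp_apply, hval, Finset.sum_const, Finset.card_univ, Fintype.card_fin,
        nsmul_eq_mul]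
    simp_rw [this]
    rw [tsum_mul_left]
    rfl
  rw [← h2]
  exact h1

end Fixed

/-- A model of `K(d^(1/p))`: a number field `K'` over `K` of degree `p` with a `p`-th root of `d`
in its ring of integers. -/
theorem exists_kummer_field {p : ℕ} (hp : p.Prime) (d : 𝓞 K) (hd : ∀ y : K, y ^ p ≠ (d : K)) :
    ∃ (K' : Type u) (_ : Field K') (_ : NumberField K') (_ : Algebra K K') (θ : 𝓞 K'),
      θ ^ p = algebraMap (𝓞 K) (𝓞 K') d ∧ finrank K K' = p := by
  have H : Irreducible (X ^ p - C (d : K)) := X_pow_sub_C_irreducible_of_prime hp hd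
  haveI : Fact (Irreducible (X ^ p - C (d : K))) := ⟨H⟩
  let K' := AdjoinRoot (X ^ p - C (d : K))
  have hne : (X ^ p - C (d : K)) ≠ 0 := H.ne_zero
  haveI : Module.Finite K K' := (AdjoinRoot.powerBasis hne).finite
  haveI : NumberField K' := NumberField.of_module_finite K K'
  have hroot : (AdjoinRoot.root (X ^ p - C (d : K))) ^ p = algebraMap K K' (d : K) :=
    root_X_pow_sub_C_pow p (d : K)
  have hint : IsIntegral ℤ (AdjoinRoot.root (X ^ p - C (d : K))) := by
    apply IsIntegral.of_pow hp.pos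
    rw [hroot]
    exact (RingOfIntegers.isIntegral_coe d).algebraMap
  refine ⟨K', inferInstance, inferInstance, inferInstance, ⟨_, hint⟩, ?_, ?_⟩
  · apply RingOfIntegers.ext
    rw [coe_algebraMap]
    exact hroot
  · rw [(AdjoinRoot.powerBasis hne).finrank, AdjoinRoot.powerBasis_dim, natDegree_X_pow_sub_C]

/-- **(IT)** in the shape consumed by `FirstIneqCore.exists_prime_ne_one_of`. -/
theorem residuePrimes_bound {p : ℕ} (hp : p.Prime) {ζ : 𝓞 K} (hζ : IsPrimitiveRoot ζ p)
    (d : 𝓞 K) (hd : ∀ y : K, y ^ p ≠ (d : K)) :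
    ∃ B : ℝ, ∀ s ∈ Set.Ioc (1 : ℝ) 2,
      (p : ℝ) * (residuePrimes p d).primeIdealZetaSum s ≤ Real.log (1 / (s - 1)) + B := by
  obtain ⟨K', _, _, _, θ, hθ, hdeg⟩ := exists_kummer_field hp d hd
  obtain ⟨B, hB⟩ := primeZeta_bound K'
  refine ⟨B, fun s hs => ?_⟩
  have h1 := mul_primeIdealZetaSum_le hp hζ d hd θ hθ hdeg hs.1
  have h2 := (abs_le.mp (hB s hs)).2
  linarith

end Fermat.Agent.Thaine.KummerSplitIT
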