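/-
Program E2 (Thaine track), helper5: a prime of prime norm, not over `p`, outside
`residuePrimes p dt` is a good prime in the sense of `Thaine/Defs`.
-/
import Mathlib
import Fermat.Agent.Thaine.Defs
import Fermat.Agent.Thaine.KummerSplitIT

set_option autoImplicit false
set_option linter.unusedSectionVars false

open NumberField IsDedekindDomain
open Fermat.Agent.Thaine.Defs Fermat.Agent.Thaine.KummerSplit Fermat.Agent.Thaine.KummerSplitIT

namespace Fermat.Agent.Thaine.GoodPrimeAux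

variable (p : ℕ) [hp : Fact p.Prime] (K : Type) [Field K] [NumberField K]
  [IsCyclotomicExtension {p} ℚ K]

theorem isPrimitiveRoot_zetaI : IsPrimitiveRoot (zetaI p K) p :=
  (IsCyclotomicExtension.zeta_spec p ℚ K).toInteger_isPrimitiveRoot

/-- A prime ideal containing `dt` contains `p`. -/
theorem natCast_mem_of_dt_mem (q : Ideal (𝓞 K)) [hq : q.IsPrime] (h : dt p K ∈ q) :
    (p : 𝓞 K) ∈ q := by
  unfold dt at h
  obtain ⟨c, -, hc⟩ := (hq.prod_mem_iff).mp h
  have hc' : 1 - zetaI p K ^ (c : ZMod p).val ∈ q := hq.mem_of_pow_mem _ hc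
  have hval0 : 0 < (c : ZMod p).val := by
    rw [Nat.pos_iff_ne_zero, Ne, ZMod.val_eq_zero]
    exact c.ne_zero
  have hvalp : (c : ZMod p).val < p := ZMod.val_lt _
  obtain ⟨w, hw⟩ := one_sub_pow_dvd hp.out (isPrimitiveRoot_zetaI p K) hval0 hvalp
  rw [hw]
  exact Ideal.mul_mem_right _ _ hc'

/-- A prime of prime norm not containing `p` and outside `residuePrimes p dt` is good. -/
theorem isGoodPrime_of_not_mem (q : HeightOneSpectrum (𝓞 K))
    (hl : (Ideal.absNorm q.asIdeal).Prime) (hqp : (p : 𝓞 K) ∉ q.asIdeal)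
    (hT : q ∉ residuePrimes p (dt p K)) : IsGoodPrime p K q.asIdeal := by
  refine ⟨q.isPrime, q.ne_bot, hl, hqp, ?_⟩
  rintro ⟨y, hy⟩
  by_cases hyq : y ∈ q.asIdeal
  · apply hqp
    have := q.isPrime
    apply natCast_mem_of_dt_mem p K q.asIdeal
    have : dt p K = y ^ p - (y ^ p - dt p K) := by ring
    rw [this]
    exact Ideal.sub_mem _ (Ideal.pow_mem_of_mem _ hyq _ hp.out.pos) hy
  · exact hT ⟨hl, hqp, y, hyq, hy⟩

/-- Conversely, a good prime is not in `residuePrimes p dt`. -/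
theorem not_mem_of_isGoodPrime (q : HeightOneSpectrum (𝓞 K)) (h : IsGoodPrime p K q.asIdeal) :
    q ∉ residuePrimes p (dt p K) := by
  rintro ⟨-, -, x, -, hx⟩
  exact h.2.2.2.2 ⟨x, hx⟩

end Fermat.Agent.Thaine.GoodPrimeAux
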