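/-
Program E2 (S14 via Thaine's argument), piece (TH-c), helper1: the local congruence.

`B` a Dedekind domain, `P` a prime ideal, `τ` a ring automorphism of `B` in the inertia group of `P`
(`τ x ≡ x mod P` for all `x`), `π ∈ P \ P²` a uniformizer with `τ π = c π`, `c ≡ g mod P`.
Then `τ x ≡ g^r x mod P^(r+1)` for all `x ∈ P^r`, and hence if `τ β = u β` with
`β ∈ P^r \ P^(r+1)`, then `u ≡ g^r mod P`.

Application (Thaine): `B = 𝓞 (K(ζ_l))`, `P` a prime over `l`, `τ : ζ_l ↦ ζ_l^g`, `π = 1 - ζ_l`,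
`c = 1 + ζ_l + … + ζ_l^(g-1) ≡ g`.
-/
import Mathlib

set_option autoImplicit false
set_option linter.unusedSectionVars false

namespace Fermat.Agent.Thaine.InertiaCong

open Ideal UniqueFactorizationMonoid

variable {B : Type*} [CommRing B]

section General

variable (P : Ideal B) (τ : B ≃+* B) (hτ : ∀ x, τ x - x ∈ P)
include hτ

/-- An element of the inertia group maps `P` into itself. -/
theorem map_mem {x : B} (hx : x ∈ P) : τ x ∈ P := by
  have h := P.add_mem (hτ x) hx
  rwa [sub_add_cancel] at h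

/-- An element of the inertia group maps `P ^ k` into itself. -/
theorem map_mem_pow (k : ℕ) {x : B} (hx : x ∈ P ^ k) : τ x ∈ P ^ k := by
  have h1 : Ideal.map (τ : B →+* B) P ≤ P := by
    rw [Ideal.map_le_iff_le_comap]
    intro y hy
    exact map_mem P τ hτ hy
  have h2 : Ideal.map (τ : B →+* B) (P ^ k) ≤ P ^ k := by
    rw [Ideal.map_pow]
    exact Ideal.pow_right_mono h1 k
  exact h2 (Ideal.mem_map_of_mem (τ : B →+* B) hx)

end General

section Dedekind

variable [IsDedekindDomain B] (P : Ideal B) [hP : P.IsPrime] (τ : B ≃+* B)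
  (hτ : ∀ x, τ x - x ∈ P) {π c g : B} (hπ : π ∈ P) (hπ2 : π ∉ P ^ 2) (hc : τ π = c * π)
  (hg : c - g ∈ P)
include hτ hπ hπ2 hc hg

theorem ne_bot_of_uniformizer : P ≠ ⊥ := by
  rintro rfl
  apply hπ2
  rw [Ideal.mem_bot] at hπ
  rw [hπ]
  exact Ideal.zero_mem _

/-- The case `r = 1`: `τ y ≡ g y mod P²` for `y ∈ P`. -/
theorem map_sub_mul_mem_sq {y : B} (hy : y ∈ P) : τ y - g * y ∈ P ^ 2 := by
  have hP0 : P ≠ ⊥ := ne_bot_of_uniformizer P τ hτ hπ hπ2 hc hg
  obtain ⟨d, e, he, hde⟩ := Ideal.exists_mul_add_mem_pow_succ (P := P) hP0 (i := 1) π y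
    (by simpa using hπ) (by simpa using hπ2) (by simpa using hy)
  have he' : e ∈ P ^ 2 := by simpa using he
  have h1 : τ y - g * y = π * (c * (τ d - d) + (c - g) * d) + (τ e - g * e) := by
    rw [← hde, map_add, map_mul, hc]
    ring
  rw [h1]
  refine Ideal.add_mem _ ?_ (Ideal.sub_mem _ (map_mem_pow P τ hτ 2 he') (Ideal.mul_mem_left _ _ he'))
  rw [pow_two]
  exact Ideal.mul_mem_mul hπ
    (P.add_mem (P.mul_mem_left _ (hτ d)) (P.mul_mem_right _ hg))

/-- **Key congruence**: `τ x ≡ g^r x mod P^(r+1)` for `x ∈ P^r`. -/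
theorem map_sub_pow_mul_mem (r : ℕ) {x : B} (hx : x ∈ P ^ r) : τ x - g ^ r * x ∈ P ^ (r + 1) := by
  induction r generalizing x with
  | zero => simpa using hτ x
  | succ r ih =>
    rw [pow_succ] at hx
    refine Submodule.mul_induction_on hx ?_ ?_
    · intro a ha b hb
      have h1 : τ (a * b) - g ^ (r + 1) * (a * b) =
          (τ a - g ^ r * a) * τ b + g ^ r * a * (τ b - g * b) := by
        rw [map_mul]; ring
      rw [h1, pow_succ (n := r + 1)]
      refine Ideal.add_mem _ (Ideal.mul_mem_mul (ih ha) (map_mem P τ hτ hb)) ?_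
      have h2 : g ^ r * a * (τ b - g * b) ∈ P ^ r * P ^ 2 :=
        Ideal.mul_mem_mul (Ideal.mul_mem_left _ _ ha)
          (map_sub_mul_mem_sq P τ hτ hπ hπ2 hc hg hb)
      have h3 : P ^ r * P ^ 2 = P ^ (r + 1) * P := by
        rw [← pow_add, ← pow_succ]
      rwa [h3] at h2
    · intro a b ha hb
      have h1 : τ (a + b) - g ^ (r + 1) * (a + b) =
          (τ a - g ^ (r + 1) * a) + (τ b - g ^ (r + 1) * b) := by
        rw [map_add]; ring
      rw [h1]
      exact Ideal.add_mem _ ha hb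

/-- **(TH-c)** If `τ β = u β` with `β ∈ P^r \ P^(r+1)` then `u ≡ g^r mod P`. -/
theorem cong_of_inertia {β u : B} {r : ℕ} (hr : β ∈ P ^ r) (hr' : β ∉ P ^ (r + 1))
    (hu : τ β = u * β) : u - g ^ r ∈ P := by
  have h1 : (u - g ^ r) * β ∈ P ^ (r + 1) := by
    have := map_sub_pow_mul_mem P τ hτ hπ hπ2 hc hg r hr
    rwa [hu, ← sub_mul] at this
  rcases Ideal.IsPrime.mul_mem_pow P h1 with h | h
  · exact h
  · exact absurd h hr'

/-- **(TH-c), inverse convention**: if `β = u τ β` with `β ∈ P^r \ P^(r+1)` then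
`u g^r ≡ 1 mod P`. -/
theorem cong_of_inertia' {β u : B} {r : ℕ} (hr : β ∈ P ^ r) (hr' : β ∉ P ^ (r + 1))
    (hu : β = u * τ β) : u * g ^ r - 1 ∈ P := by
  have h1 : (u * g ^ r - 1) * β ∈ P ^ (r + 1) := by
    have h2 := Ideal.mul_mem_left _ u (map_sub_pow_mul_mem P τ hτ hπ hπ2 hc hg r hr)
    have h3 : u * (τ β - g ^ r * β) = -((u * g ^ r - 1) * β) := by
      rw [mul_sub, ← hu]; ring
    rw [h3] at h2
    exact (Ideal.neg_mem_iff _).mp h2
  rcases Ideal.IsPrime.mul_mem_pow P h1 with h | h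
  · exact h
  · exact absurd h hr'

omit hτ hπ hπ2 hc hg in
/-- Membership in terms of the multiplicity of `P` in `(β)`. -/
theorem mem_pow_count {β : B} (hβ : β ≠ 0) (hP0 : P ≠ ⊥) :
    β ∈ P ^ Multiset.count P (normalizedFactors (Ideal.span {β})) ∧
      β ∉ P ^ (Multiset.count P (normalizedFactors (Ideal.span {β})) + 1) := by
  have hI : Ideal.span {β} ≠ 0 := by
    rw [Ne, Ideal.zero_eq_bot, Ideal.span_singleton_eq_bot]; exact hβ
  have hirr : Irreducible P := (Ideal.prime_of_isPrime hP0 hP).irreducible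
  have key : ∀ n : ℕ, β ∈ P ^ n ↔ n ≤ Multiset.count P (normalizedFactors (Ideal.span {β})) := by
    intro n
    rw [← Ideal.span_singleton_le_iff_mem, ← Ideal.dvd_iff_le,
      UniqueFactorizationMonoid.dvd_iff_normalizedFactors_le_normalizedFactors
        (pow_ne_zero n hirr.ne_zero) hI,
      UniqueFactorizationMonoid.normalizedFactors_pow,
      UniqueFactorizationMonoid.normalizedFactors_irreducible hirr, normalize_eq,
      Multiset.le_iff_count]
    constructor
    · intro h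
      simpa using h P
    · intro h Q
      rw [Multiset.count_nsmul, Multiset.count_singleton]
      split_ifs with hQ
      · subst hQ; simpa using h
      · simp
  exact ⟨(key _).mpr le_rfl, fun h ↦ by have := (key _).mp h; omega⟩

/-- **(TH-c), count form**: `u ≡ g ^ v_P(β) mod P`. -/
theorem cong_of_inertia_count {β u : B} (hβ : β ≠ 0) (hu : τ β = u * β) :
    u - g ^ Multiset.count P (normalizedFactors (Ideal.span {β})) ∈ P := by
  have hP0 : P ≠ ⊥ := ne_bot_of_uniformizer P τ hτ hπ hπ2 hc hg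
  obtain ⟨h1, h2⟩ := mem_pow_count P hβ hP0
  exact cong_of_inertia P τ hτ hπ hπ2 hc hg h1 h2 hu

/-- **(TH-c), inverse convention, count form**: `u g ^ v_P(β) ≡ 1 mod P` if `β = u τ β`. -/
theorem cong_of_inertia_count' {β u : B} (hβ : β ≠ 0) (hu : β = u * τ β) :
    u * g ^ Multiset.count P (normalizedFactors (Ideal.span {β})) - 1 ∈ P := by
  have hP0 : P ≠ ⊥ := ne_bot_of_uniformizer P τ hτ hπ hπ2 hc hg
  obtain ⟨h1, h2⟩ := mem_pow_count P hβ hP0
  exact cong_of_inertia' P τ hτ hπ hπ2 hc hg h1 h2 hu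

end Dedekind

section Geometric

variable (P : Ideal B)

/-- `1 - z^n = (∑_{i<n} z^i) (1 - z)`. -/
theorem one_sub_pow_eq (z : B) (n : ℕ) :
    1 - z ^ n = (∑ i ∈ Finset.range n, z ^ i) * (1 - z) := by
  rw [geom_sum_mul_neg]

/-- If `z ≡ 1 mod P` then `∑_{i<n} z^i ≡ n mod P`. -/
theorem geom_sum_sub_natCast_mem {z : B} (hz : z - 1 ∈ P) (n : ℕ) :
    (∑ i ∈ Finset.range n, z ^ i) - (n : B) ∈ P := by
  have h1 : ∀ i : ℕ, z ^ i - 1 ∈ P := by
    intro i
    have : z ^ i - 1 = (∑ j ∈ Finset.range i, z ^ j) * (z - 1) := by rw [geom_sum_mul]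
    rw [this]
    exact P.mul_mem_left _ hz
  have h2 : (∑ i ∈ Finset.range n, z ^ i) - (n : B) = ∑ i ∈ Finset.range n, (z ^ i - 1) := by
    rw [Finset.sum_sub_distrib]
    simp
  rw [h2]
  exact Ideal.sum_mem _ fun i _ ↦ h1 i

end Geometric

end Fermat.Agent.Thaine.InertiaCong
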