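/-
Program E2 (S14 via Thaine's argument), piece (TH-b), helper1: the relative norm of a
Galois-invariant ideal in a Galois extension `L/K` of number fields which is unramified outside a
finite set `T` of `G`-fixed primes of `𝓞 L`.

Generalises helper13's `CFT/InvariantIdeal.lean` (everywhere unramified case).

* `exists_eq_map_of_unram` : an invariant ideal all of whose prime divisors are unramified is
  extended from `𝓞 K`;
* `exists_decomp`          : `A = (b 𝓞 L) * ∏_{Q ∈ T} Q ^ e Q`, `b 𝓞 L` prime to `T`;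
* `relNorm_of_invariant`   : `N(A) = b ^ [L:K] * ∏_{Q ∈ T} N(Q) ^ e Q`, `e Q = v_Q(A)`;
* `span_intNorm_of_invariant` : the same indexed by primes of `𝓞 K`, for a principal ideal
  (the shape of `Thaine.Defs.ThaineStatement`).
-/
import Mathlib
import Fermat.Agent.CFT.InvariantIdeal

set_option autoImplicit false
set_option linter.style.haveILetI false
set_option linter.unusedSectionVars false

open NumberField
open scoped Pointwise nonZeroDivisors

namespace Fermat.Agent.Thaine.InvariantNorm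

open Fermat.Agent.CFT.InvariantIdeal

variable {K L : Type*} [Field K] [Field L] [NumberField K] [NumberField L] [Algebra K L]
  [IsGalois K L]

/-! ### Invariance of a principal ideal `(β)` with `u τ β = β` -/

theorem smul_span_singleton (σ : L ≃ₐ[K] L) (β : 𝓞 L) :
    σ • Ideal.span {β} = Ideal.span {σ • β} := by
  rw [Ideal.pointwise_smul_def, Ideal.map_span, Set.image_singleton]
  rfl

/-- If `u * τ β = β` with `u` a unit and `τ` a generator of `Gal(L/K)`, then `(β)` is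
Galois-invariant. -/
theorem smul_span_eq_of_mul_smul_eq (τ : L ≃ₐ[K] L) (hgen : ∀ σ : L ≃ₐ[K] L, σ ∈ Subgroup.zpowers τ)
    {u β : 𝓞 L} (hu : IsUnit u) (h : u * τ • β = β) :
    ∀ σ : L ≃ₐ[K] L, σ • Ideal.span {β} = Ideal.span {β} := by
  have hτ : τ • Ideal.span {β} = Ideal.span {β} := by
    rw [smul_span_singleton]
    conv_rhs => rw [← h]
    rw [Ideal.span_singleton_mul_left_unit hu]
  intro σ
  have hmem : σ ∈ MulAction.stabilizer (L ≃ₐ[K] L) (Ideal.span {β} : Ideal (𝓞 L)) := by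
    have hle : Subgroup.zpowers τ ≤ MulAction.stabilizer (L ≃ₐ[K] L) (Ideal.span {β} : Ideal (𝓞 L)) := by
      rw [Subgroup.zpowers_le]
      exact hτ
    exact hle (hgen σ)
  exact hmem

/-! ### Invariant ideals with unramified support are extended -/

/-- If all primes over `q` are unramified, `q 𝓞 L` is the product of the primes over `q`. -/
theorem map_eq_prod_primesOver_of_unram (q : Ideal (𝓞 K)) [q.IsMaximal] (hq : q ≠ ⊥)
    (hunr : ∀ P ∈ q.primesOver (𝓞 L), P.ramificationIdx (𝓞 K) = 1) :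
    ext (L := L) q = ∏ P ∈ (q.primesOver (𝓞 L)).toFinset, P := by
  rw [ext, Ideal.map_algebraMap_eq_finsetProd_pow hq]
  refine Finset.prod_congr rfl fun P hP => ?_
  rw [Set.mem_toFinset] at hP
  rw [hunr P hP, pow_one]

/-- If a `G`-invariant ideal `A` is divisible by a prime `P` and all primes containing `A` are
unramified, then `A` is divisible by `(P ∩ 𝓞 K) 𝓞 L`. -/
theorem ext_under_dvd_of_unram {A : Ideal (𝓞 L)}
    (hinv : ∀ σ : L ≃ₐ[K] L, σ • A = A)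
    (hunr : ∀ P : Ideal (𝓞 L), P.IsPrime → A ≤ P → P.ramificationIdx (𝓞 K) = 1)
    (P : Ideal (𝓞 L)) [P.IsPrime] (hP : P ≠ ⊥) (hAP : A ≤ P) :
    ext (L := L) (P.under (𝓞 K)) ∣ A := by
  set q : Ideal (𝓞 K) := P.under (𝓞 K) with hq
  haveI : P.LiesOver q := ⟨rfl⟩
  have hq0 : q ≠ ⊥ := by
    intro h
    exact hP (Ideal.eq_bot_of_comap_eq_bot h)
  haveI : q.IsMaximal := Ring.DimensionLEOne.maximalOfPrime hq0 inferInstance
  have hle : ∀ P' ∈ q.primesOver (𝓞 L), A ≤ P' := by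
    intro P' hP'
    haveI : P'.IsPrime := hP'.1
    haveI : P'.LiesOver q := hP'.2
    obtain ⟨σ, rfl⟩ := Ideal.exists_smul_eq_of_isGaloisGroup q P P' (L ≃ₐ[K] L)
    rw [← hinv σ]
    exact Ideal.pointwise_smul_le_pointwise_smul_iff.mpr hAP
  rw [map_eq_prod_primesOver_of_unram q hq0 (fun P' hP' => hunr P' hP'.1 (hle P' hP'))]
  refine Finset.prod_primes_dvd A ?_ ?_
  · intro P' hP'
    rw [Set.mem_toFinset] at hP'
    haveI : P'.IsPrime := hP'.1
    haveI : P'.LiesOver q := hP'.2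
    exact Ideal.prime_of_isPrime (Ideal.ne_bot_of_liesOver_of_ne_bot hq0 P') inferInstance
  · intro P' hP'
    rw [Set.mem_toFinset] at hP'
    rw [Ideal.dvd_iff_le]
    exact hle P' hP'

/-- **Invariant ideals with unramified support are extended.** -/
theorem exists_eq_map_of_unram (A : Ideal (𝓞 L)) (hA : A ≠ ⊥)
    (hinv : ∀ σ : L ≃ₐ[K] L, σ • A = A)
    (hunr : ∀ P : Ideal (𝓞 L), P.IsPrime → A ≤ P → P.ramificationIdx (𝓞 K) = 1) :
    ∃ b : Ideal (𝓞 K), b ≠ ⊥ ∧ A = ext b := by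
  revert hA hinv hunr
  refine WellFoundedGT.induction
    (motive := fun A : Ideal (𝓞 L) => A ≠ ⊥ → (∀ σ : L ≃ₐ[K] L, σ • A = A) →
      (∀ P : Ideal (𝓞 L), P.IsPrime → A ≤ P → P.ramificationIdx (𝓞 K) = 1) →
      ∃ b : Ideal (𝓞 K), b ≠ ⊥ ∧ A = ext b) A ?_
  intro A ih hA hinv hunr
  by_cases htop : A = ⊤
  · exact ⟨⊤, top_ne_bot, by rw [htop, ext, Ideal.map_top]⟩
  obtain ⟨P, hPmax, hAP⟩ := Ideal.exists_le_maximal A htop
  haveI : P.IsPrime := hPmax.isPrime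
  have hP0 : P ≠ ⊥ := fun h => hA (le_bot_iff.mp (h ▸ hAP))
  set q : Ideal (𝓞 K) := P.under (𝓞 K) with hq
  have hq0 : q ≠ ⊥ := by
    intro h
    exact hP0 (Ideal.eq_bot_of_comap_eq_bot h)
  obtain ⟨A', hA'⟩ := ext_under_dvd_of_unram hinv hunr P hP0 hAP
  have hqL0 : ext (L := L) q ≠ ⊥ := ext_ne_bot hq0
  have hA'0 : A' ≠ ⊥ := by
    rintro rfl
    exact hA (by rw [hA', Ideal.mul_bot])
  have hqP : ext (L := L) q ≤ P := Ideal.map_le_iff_le_comap.mpr le_rfl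
  have hle : A ≤ A' := hA' ▸ Ideal.mul_le_right
  have hlt : A < A' := by
    refine lt_of_le_of_ne hle ?_
    intro h
    have h1 : ext (L := L) q * A' = 1 * A' := by rw [one_mul, ← hA', h]
    have h2 : ext (L := L) q = 1 := mul_right_cancel₀ hA'0 h1
    exact hPmax.ne_top (top_le_iff.mp (Ideal.one_eq_top (R := 𝓞 L) ▸ h2 ▸ hqP))
  have hinv' : ∀ σ : L ≃ₐ[K] L, σ • A' = A' := by
    intro σ
    have h1 := hinv σ
    rw [hA', smul_mul', smul_map_algebraMap] at h1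
    exact mul_left_cancel₀ hqL0 h1
  have hunr' : ∀ P : Ideal (𝓞 L), P.IsPrime → A' ≤ P → P.ramificationIdx (𝓞 K) = 1 :=
    fun P hP hP' => hunr P hP (hle.trans hP')
  obtain ⟨b', hb'0, hb'⟩ := ih A' hlt hA'0 hinv' hunr'
  refine ⟨q * b', mul_ne_zero hq0 hb'0, ?_⟩
  rw [hA', hb', ext, ext, ext, Ideal.map_mul]

/-! ### Decomposition relative to a finite set of fixed primes -/

/-- **Decomposition**: a `G`-invariant ideal `A` whose prime divisors outside a finite set `T` of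
`G`-fixed primes are unramified is `(b 𝓞 L) * ∏_{Q ∈ T} Q ^ e Q` with `b 𝓞 L` prime to `T`. -/
theorem exists_decomp (T : Finset (Ideal (𝓞 L)))
    (hT : ∀ Q ∈ T, Q.IsPrime ∧ Q ≠ ⊥ ∧ ∀ σ : L ≃ₐ[K] L, σ • Q = Q)
    (A : Ideal (𝓞 L)) (hA : A ≠ ⊥) (hinv : ∀ σ : L ≃ₐ[K] L, σ • A = A)
    (hunr : ∀ P : Ideal (𝓞 L), P.IsPrime → A ≤ P → P ∉ T → P.ramificationIdx (𝓞 K) = 1) :
    ∃ (b : Ideal (𝓞 K)) (e : Ideal (𝓞 L) → ℕ), b ≠ ⊥ ∧ A = ext b * ∏ Q ∈ T, Q ^ e Q ∧
      ∀ Q ∈ T, ¬ ext (L := L) b ≤ Q := by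
  classical
  induction T using Finset.induction_on generalizing A with
  | empty =>
    obtain ⟨b, hb0, hb⟩ := exists_eq_map_of_unram A hA hinv
      (fun P hP hAP => hunr P hP hAP (Finset.notMem_empty _))
    exact ⟨b, fun _ => 0, hb0, by simpa using hb, by simp⟩
  | insert Q T hQT ih =>
    have hQ := hT Q (Finset.mem_insert_self Q T)
    haveI := hQ.1
    have hQirr : Irreducible Q := (Ideal.prime_of_isPrime hQ.2.1 hQ.1).irreducible
    obtain ⟨n, A', hndvd, hAA'⟩ := WfDvdMonoid.max_power_factor (a₀ := A) (x := Q) hA hQirr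
    have hA'0 : A' ≠ ⊥ := right_ne_zero_of_mul (hAA' ▸ hA)
    have hQn0 : Q ^ n ≠ ⊥ := pow_ne_zero n hQ.2.1
    have hinv' : ∀ σ : L ≃ₐ[K] L, σ • A' = A' := by
      intro σ
      have h1 := hinv σ
      rw [hAA', smul_mul', smul_pow', hQ.2.2 σ] at h1
      exact mul_left_cancel₀ hQn0 h1
    have hle : A ≤ A' := hAA' ▸ Ideal.mul_le_right
    have hunr' : ∀ P : Ideal (𝓞 L), P.IsPrime → A' ≤ P → P ∉ T →
        P.ramificationIdx (𝓞 K) = 1 := by
      intro P hP hAP hPT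
      refine hunr P hP (hle.trans hAP) ?_
      rw [Finset.mem_insert, not_or]
      refine ⟨?_, hPT⟩
      rintro rfl
      exact hndvd (Ideal.dvd_iff_le.mpr hAP)
    obtain ⟨b, e, hb0, hdec, hcop⟩ :=
      ih (fun Q' hQ' => hT Q' (Finset.mem_insert_of_mem hQ')) A' hA'0 hinv' hunr'
    refine ⟨b, Function.update e Q n, hb0, ?_, ?_⟩
    · rw [Finset.prod_insert hQT, Function.update_self, hAA']
      have h2 : ∏ x ∈ T, x ^ Function.update e Q n x = ∏ x ∈ T, x ^ e x :=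
        Finset.prod_congr rfl (fun x hx => by
          rw [Function.update_of_ne (ne_of_mem_of_not_mem hx hQT)])
      rw [h2]
      conv_lhs => rw [hdec]
      ring
    · intro Q' hQ'
      rw [Finset.mem_insert] at hQ'
      rcases hQ' with rfl | hQ'
      · intro hle'
        apply hndvd
        rw [Ideal.dvd_iff_le, hdec]
        exact Ideal.mul_le_left.trans hle'
      · exact hcop Q' hQ'

theorem finrank_ringOfIntegers : Module.finrank (𝓞 K) (𝓞 L) = Module.finrank K L :=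
  (IsFractionRing.finrank_eq (𝓞 K) K (𝓞 L) L).symm

/-- **(TH-b)** The relative norm of a `G`-invariant ideal, `L/K` unramified outside the finite set
`T` of `G`-fixed primes: `N(A) = b ^ [L:K] * ∏_{Q ∈ T} N(Q) ^ e Q` where `e Q = v_Q(A)`. -/
theorem relNorm_of_invariant (T : Finset (Ideal (𝓞 L)))
    (hT : ∀ Q ∈ T, Q.IsPrime ∧ Q ≠ ⊥ ∧ ∀ σ : L ≃ₐ[K] L, σ • Q = Q)
    (hunr : ∀ P : Ideal (𝓞 L), P.IsPrime → P ≠ ⊥ → P ∉ T → P.ramificationIdx (𝓞 K) = 1)
    (A : Ideal (𝓞 L)) (hA : A ≠ ⊥) (hinv : ∀ σ : L ≃ₐ[K] L, σ • A = A) :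
    ∃ (b : Ideal (𝓞 K)) (e : Ideal (𝓞 L) → ℕ), b ≠ ⊥ ∧
      (∀ Q ∈ T, A ≤ Q ^ e Q ∧ ¬ A ≤ Q ^ (e Q + 1)) ∧
      Ideal.relNorm (𝓞 K) A = b ^ Module.finrank K L * ∏ Q ∈ T, Ideal.relNorm (𝓞 K) Q ^ e Q := by
  classical
  obtain ⟨b, e, hb0, hdec, hcop⟩ := exists_decomp T hT A hA hinv
    (fun P hP hAP hPT => hunr P hP (fun h => hA (le_bot_iff.mp (h ▸ hAP))) hPT)
  refine ⟨b, e, hb0, ?_, ?_⟩
  · intro Q hQ
    obtain ⟨hQp, hQ0, -⟩ := hT Q hQ
    haveI := hQp
    set R : Ideal (𝓞 L) := ext b * ∏ Q' ∈ T.erase Q, Q' ^ e Q' with hR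
    have hAR : A = Q ^ e Q * R := by
      rw [hdec, hR, ← Finset.mul_prod_erase T _ hQ]
      ring
    have hRQ : ¬ R ≤ Q := by
      intro h
      rcases (Ideal.IsPrime.mul_le hQp).mp h with h1 | h1
      · exact hcop Q hQ h1
      · obtain ⟨Q', hQ', h2⟩ := (Ideal.IsPrime.prod_le hQp).mp h1
        rw [Finset.mem_erase] at hQ'
        obtain ⟨hQ'p, hQ'0, -⟩ := hT Q' hQ'.2
        have h3 : Q' ≤ Q := Ideal.IsPrime.le_of_pow_le h2
        have hmax : Q'.IsMaximal := Ring.DimensionLEOne.maximalOfPrime hQ'0 hQ'p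
        exact hQ'.1 (hmax.eq_of_le hQp.ne_top h3)
    refine ⟨hAR ▸ Ideal.mul_le_left, ?_⟩
    intro h
    apply hRQ
    rw [← Ideal.dvd_iff_le] at h ⊢
    rw [hAR, pow_succ] at h
    exact (mul_dvd_mul_iff_left (pow_ne_zero _ hQ0)).mp h
  · rw [hdec, map_mul, map_prod, ext, Ideal.relNorm_algebraMap, finrank_ringOfIntegers]
    simp_rw [map_pow]

/-! ### The base-indexed form for a principal ideal -/

/-- **(TH-b), shape of `ThaineStatement`**: `S` a finite set of primes of `𝓞 K`, `up q` a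
`G`-fixed prime of `𝓞 L` with `N(up q) = q` for `q ∈ S`, `L/K` unramified at the primes not over
`S`, `(β)` a `G`-invariant principal ideal. Then
`(N β) = J ^ [L:K] * ∏_{q ∈ S} q ^ r q` with `r q = v_{up q}(β)`. -/
theorem span_intNorm_of_invariant (S : Finset (Ideal (𝓞 K))) (up : Ideal (𝓞 K) → Ideal (𝓞 L))
    (hS : ∀ q ∈ S, q.IsPrime)
    (hup : ∀ q ∈ S, (up q).IsPrime ∧ up q ≠ ⊥ ∧ (∀ σ : L ≃ₐ[K] L, σ • up q = up q) ∧
      Ideal.relNorm (𝓞 K) (up q) = q)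
    (hunr : ∀ P : Ideal (𝓞 L), P.IsPrime → P ≠ ⊥ → P.under (𝓞 K) ∉ S →
      P.ramificationIdx (𝓞 K) = 1)
    (β : 𝓞 L) (hβ : β ≠ 0) (hinv : ∀ σ : L ≃ₐ[K] L, σ • Ideal.span {β} = Ideal.span {β}) :
    ∃ (J : Ideal (𝓞 K)) (r : Ideal (𝓞 K) → ℕ), J ≠ ⊥ ∧
      (∀ q ∈ S, β ∈ up q ^ r q ∧ β ∉ up q ^ (r q + 1)) ∧
      Ideal.span {Algebra.intNorm (𝓞 K) (𝓞 L) β} =
        J ^ Module.finrank K L * ∏ q ∈ S, q ^ r q := by
  classical
  -- `up` is injective on `S`
  have hinj : Set.InjOn up S := by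
    intro q hq q' hq' h
    rw [← (hup q hq).2.2.2, ← (hup q' hq').2.2.2, h]
  set T : Finset (Ideal (𝓞 L)) := S.image up with hTdef
  have hT : ∀ Q ∈ T, Q.IsPrime ∧ Q ≠ ⊥ ∧ ∀ σ : L ≃ₐ[K] L, σ • Q = Q := by
    intro Q hQ
    rw [hTdef, Finset.mem_image] at hQ
    obtain ⟨q, hq, rfl⟩ := hQ
    exact ⟨(hup q hq).1, (hup q hq).2.1, (hup q hq).2.2.1⟩
  -- a prime over `q ∈ S` is `up q`
  have hunder : ∀ q ∈ S, (up q).under (𝓞 K) = q := by
    intro q hq
    obtain ⟨hp, h0, -, hN⟩ := hup q hq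
    haveI := hp
    have hq0 : q ≠ ⊥ := by
      rintro rfl
      exact h0 (Ideal.relNorm_eq_bot_iff.mp hN)
    have hle : q ≤ (up q).under (𝓞 K) :=
      calc q = Ideal.relNorm (𝓞 K) (up q) := hN.symm
        _ ≤ (up q).under (𝓞 K) := Ideal.relNorm_le_comap (𝓞 K) (up q)
    have hqprime : q.IsPrime := hS q hq
    haveI := hqprime
    have hmax : q.IsMaximal := Ring.DimensionLEOne.maximalOfPrime hq0 hqprime
    exact (hmax.eq_of_le (Ideal.IsPrime.ne_top inferInstance) hle).symm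
  have hunr' : ∀ P : Ideal (𝓞 L), P.IsPrime → P ≠ ⊥ → P ∉ T → P.ramificationIdx (𝓞 K) = 1 := by
    intro P hP hP0 hPT
    refine hunr P hP hP0 ?_
    intro hmem
    apply hPT
    rw [hTdef, Finset.mem_image]
    refine ⟨P.under (𝓞 K), hmem, ?_⟩
    -- `up (P.under)` and `P` both lie over `P.under`; `up` is `G`-fixed
    set q := P.under (𝓞 K) with hq
    obtain ⟨hp, h0, hfix, -⟩ := hup q hmem
    haveI := hp
    haveI := hP
    haveI : P.LiesOver q := ⟨rfl⟩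
    haveI : (up q).LiesOver q := ⟨(hunder q hmem).symm⟩
    obtain ⟨σ, hσ⟩ := Ideal.exists_smul_eq_of_isGaloisGroup q (up q) P (L ≃ₐ[K] L)
    rw [← hσ, hfix σ]
  have hA : Ideal.span {β} ≠ (⊥ : Ideal (𝓞 L)) := by
    rw [Ne, Ideal.span_singleton_eq_bot]; exact hβ
  obtain ⟨b, e, hb0, hmem, hN⟩ := relNorm_of_invariant T hT hunr' (Ideal.span {β}) hA hinv
  refine ⟨b, fun q => e (up q), hb0, ?_, ?_⟩
  · intro q hq
    have h := hmem (up q) (by rw [hTdef]; exact Finset.mem_image_of_mem up hq)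
    simpa only [Ideal.span_singleton_le_iff_mem] using h
  · rw [← Ideal.relNorm_singleton, hN, hTdef, Finset.prod_image hinj]
    congr 1
    exact Finset.prod_congr rfl fun q hq => by rw [(hup q hq).2.2.2]

end Fermat.Agent.Thaine.InvariantNorm
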