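/-
Program E2 (S14 via Thaine), (E2-THb) helper2: Thaine's unit, Hilbert 90 and the local congruence.
Mathlib only.
* `norm_one_sub_mul` : `N_{K(ζ_ℓ)/K}(1 - z ζ_ℓ) * (1 - z) = 1 - z ^ ℓ` (ℓ prime, `Φ_ℓ` irreducible).
* `isUnit_of_norm_eq_one` : an integer of relative norm `1` is a unit.
* `exists_integral_eq_mul_apply` : Hilbert 90, integral form `β = u * τ β`, `β ≠ 0` integral.
* `local_congr` : abstract local computation `u * w ^ r ≡ 1 mod Q` (Dedekind domain, `τ` inertia at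
  `Q`, uniformizer `π` with `τ π = w π`, `β = u τ β` of exact order `r` at `Q`).
* `thaine_congr` : cyclotomic form `(1 - z) * g ^ r ≡ 1 mod Q` (`τ ζ_ℓ = ζ_ℓ ^ g`, `ℓ ∈ Q`).
* `norm_thaineUnit`, `exists_thaine_beta` : packaging for `u = 1 - z ζ_ℓ`, `z ^ ℓ = z ≠ 1`.
-/
import Mathlib
set_option autoImplicit false
set_option linter.unusedSectionVars false

namespace Fermat.Agent.Thaine.ThaineUnit

open Polynomial Finset

section norm

variable {K L : Type*} [Field K] [Field L] [Algebra K L] {ℓ : ℕ} [NeZero ℓ]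
  [IsCyclotomicExtension {ℓ} K L]

/-- `N_{L/K}(1 - z ζ_ℓ) * (1 - z) = 1 - z ^ ℓ` for `L = K(ζ_ℓ)`, `ℓ` prime, `Φ_ℓ` irreducible over
`K`, `z ∈ K`. -/
theorem norm_one_sub_mul (hℓ : ℓ.Prime) (hirr : Irreducible (cyclotomic ℓ K)) {ζ : L}
    (hζ : IsPrimitiveRoot ζ ℓ) (z : K) :
    Algebra.norm K (1 - algebraMap K L z * ζ) * (1 - z) = 1 - z ^ ℓ := by
  classical
  let E := AlgebraicClosure L
  apply (algebraMap K E).injective
  have := IsCyclotomicExtension.finiteDimensional {ℓ} K L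
  have := IsCyclotomicExtension.isGalois {ℓ} K L
  rw [map_mul, Algebra.norm_eq_prod_embeddings]
  have h1 : ∀ σ : L →ₐ[K] E, σ (1 - algebraMap K L z * ζ) = 1 - (σ ζ) * algebraMap K E z := by
    intro σ
    rw [map_sub, map_one, map_mul, AlgHom.commutes, mul_comm]
  simp_rw [h1]
  have hζE : IsPrimitiveRoot (algebraMap L E ζ) ℓ :=
    hζ.map_of_injective (algebraMap L E).injective
  have Hprod : (∏ σ : L →ₐ[K] E, (1 - σ ζ * algebraMap K E z)) =
      ∏ μ ∈ primitiveRoots ℓ E, (1 - μ * algebraMap K E z) := by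
    rw [← Finset.prod_attach (primitiveRoots ℓ E), ← univ_eq_attach]
    exact Fintype.prod_equiv (hζ.embeddingsEquivPrimitiveRoots E hirr) _ _ fun σ => by simp
  rw [Hprod]
  rw [(map_sub (algebraMap K E) 1 (z ^ ℓ)), map_one, map_pow]
  have h2 := hζE.pow_sub_pow_eq_prod_sub_mul (1 : E) (algebraMap K E z) hℓ.pos
  rw [one_pow] at h2
  have hnot : (1 : E) ∉ primitiveRoots ℓ E := by
    rw [mem_primitiveRoots hℓ.pos]
    intro h
    exact hℓ.one_lt.ne' (h.unique IsPrimitiveRoot.one)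
  rw [h2, nthRootsFinset_eq_of_prime hℓ, Finset.union_comm,
    ← Finset.insert_eq, Finset.prod_insert hnot, one_mul, mul_comm, map_sub, map_one]

end norm

section localLemma

variable {S : Type*} [CommRing S] [IsDedekindDomain S]

/-- `x ∈ Q ^ k ↔ k ≤ emultiplicity Q (span {x})` in a Dedekind domain. -/
theorem mem_pow_iff_le_emultiplicity (Q : Ideal S) (x : S) (k : ℕ) :
    x ∈ Q ^ k ↔ (k : ℕ∞) ≤ emultiplicity Q (Ideal.span {x}) := by
  rw [← pow_dvd_iff_le_emultiplicity, Ideal.dvd_span_singleton]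

/-- The abstract local computation in Thaine's argument: at a prime `Q` on which `τ` acts as
inertia, with uniformizer `π`, `τ π = w π`, and `β = u · τ β` of exact order `r` at `Q`, one has
`u * w ^ r ≡ 1 mod Q`. -/
theorem local_congr (Q : Ideal S) [Q.IsPrime] (hQ : Q ≠ ⊥) (τ : S ≃+* S)
    (hτ : ∀ x, τ x - x ∈ Q) {π w β u : S} (hπ : π ∈ Q) (hπ2 : π ∉ Q ^ 2)
    (hw : τ π = w * π) (hβu : β = u * τ β) {r : ℕ} (hr : β ∈ Q ^ r) (hr' : β ∉ Q ^ (r + 1)) :
    u * w ^ r - 1 ∈ Q := by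
  have hQp : Prime Q := Ideal.prime_of_isPrime hQ inferInstance
  -- multiplicity of `π` is exactly one
  have hm1 : emultiplicity Q (Ideal.span {π}) = 1 := by
    have h1 : (1 : ℕ∞) ≤ emultiplicity Q (Ideal.span {π}) := by
      have := (mem_pow_iff_le_emultiplicity Q π 1).mp (by simpa using hπ)
      simpa using this
    have h2 : ¬ ((2 : ℕ) : ℕ∞) ≤ emultiplicity Q (Ideal.span {π}) := fun h =>
      hπ2 ((mem_pow_iff_le_emultiplicity Q π 2).mpr h)
    have h2' : emultiplicity Q (Ideal.span {π}) < 2 := lt_of_not_ge h2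
    have : emultiplicity Q (Ideal.span {π}) ≤ 1 := ENat.lt_two_iff.mp h2'
    exact le_antisymm this h1
  have hmr : emultiplicity Q (Ideal.span {π ^ r}) = r := by
    rw [← Ideal.span_singleton_pow, emultiplicity_pow hQp, hm1, mul_one]
  have hπr : π ^ r ∈ Q ^ r := (mem_pow_iff_le_emultiplicity Q _ r).mpr hmr.ge
  have hπr' : π ^ r ∉ Q ^ (r + 1) := by
    rw [mem_pow_iff_le_emultiplicity, hmr]
    exact_mod_cast Nat.not_succ_le_self r
  obtain ⟨d, e, he, hde⟩ := Ideal.exists_mul_add_mem_pow_succ hQ (π ^ r) β hπr hπr' hr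
  -- `τ` preserves `Q ^ (r+1)`
  have hτQ : ∀ n : ℕ, ∀ x ∈ Q ^ n, τ x ∈ Q ^ n := by
    intro n x hx
    have hmap : Q.map (τ : S →+* S) ≤ Q := by
      rw [Ideal.map_le_iff_le_comap]
      intro y hy
      rw [Ideal.mem_comap]
      have := Q.add_mem (hτ y) hy
      simpa using this
    have : τ x ∈ (Q ^ n).map (τ : S →+* S) := Ideal.mem_map_of_mem _ hx
    rw [Ideal.map_pow] at this
    exact Ideal.pow_right_mono hmap n this
  have hτe : τ e ∈ Q ^ (r + 1) := hτQ _ e he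
  -- `π ^ r * (d - u * w ^ r * τ d) ∈ Q ^ (r+1)`
  have key : π ^ r * (d - u * w ^ r * τ d) ∈ Q ^ (r + 1) := by
    have hβ2 : β = u * (w ^ r * π ^ r * τ d + τ e) := by
      conv_lhs => rw [hβu, ← hde]
      rw [map_add, map_mul, map_pow, hw, mul_pow]
    have : π ^ r * (d - u * w ^ r * τ d) = u * τ e - e := by
      have h1 : π ^ r * d = β - e := by rw [← hde]; ring
      have h2 : u * w ^ r * π ^ r * τ d = β - u * τ e := by rw [hβ2]; ring
      calc π ^ r * (d - u * w ^ r * τ d) = π ^ r * d - u * w ^ r * π ^ r * τ d := by ring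
        _ = (β - e) - (β - u * τ e) := by rw [h1, h2]
        _ = u * τ e - e := by ring
    rw [this]
    exact sub_mem (Ideal.mul_mem_left _ _ hτe) he
  have hd2 : d - u * w ^ r * τ d ∈ Q := by
    rw [mem_pow_iff_le_emultiplicity, ← Ideal.span_singleton_mul_span_singleton,
      emultiplicity_mul hQp, hmr] at key
    have : (1 : ℕ∞) ≤ emultiplicity Q (Ideal.span {d - u * w ^ r * τ d}) := by
      rw [Nat.cast_add, Nat.cast_one] at key
      exact (ENat.add_le_add_iff_left (ENat.natCast_ne_top r)).mp key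
    have := (mem_pow_iff_le_emultiplicity Q _ 1).mpr (by simpa using this)
    simpa using this
  have hdQ : d ∉ Q := by
    intro hd
    apply hr'
    rw [← hde]
    refine add_mem ?_ he
    rw [pow_succ]
    exact Ideal.mul_mem_mul hπr hd
  have h3 : d * (1 - u * w ^ r) ∈ Q := by
    have : d * (1 - u * w ^ r) = (d - u * w ^ r * τ d) + u * w ^ r * (τ d - d) := by ring
    rw [this]
    exact add_mem hd2 (Ideal.mul_mem_left _ _ (hτ d))
  have h4 := (Ideal.IsPrime.mem_or_mem inferInstance h3).resolve_left hdQ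
  have : u * w ^ r - 1 = -(1 - u * w ^ r) := by ring
  rw [this]
  exact neg_mem h4

/-- `1 - x ^ g = (∑_{i<g} x^i) * (1 - x)`. -/
theorem one_sub_pow_eq_geom_sum_mul {R : Type*} [CommRing R] (x : R) (g : ℕ) :
    1 - x ^ g = (∑ i ∈ Finset.range g, x ^ i) * (1 - x) :=
  (geom_sum_mul_neg x g).symm

/-- If `x ≡ 1 mod Q` then `∑_{i<g} x^i ≡ g mod Q`. -/
theorem geom_sum_sub_natCast_mem {R : Type*} [CommRing R] (Q : Ideal R) {x : R} (hx : x - 1 ∈ Q)
    (g : ℕ) : (∑ i ∈ Finset.range g, x ^ i) - (g : R) ∈ Q := by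
  have h : ∀ i : ℕ, x ^ i - 1 ∈ Q := by
    intro i
    have := sub_dvd_pow_sub_pow x 1 i
    rw [one_pow] at this
    obtain ⟨c, hc⟩ := this
    rw [hc]; exact Q.mul_mem_right _ hx
  have : (∑ i ∈ Finset.range g, x ^ i) - (g : R) = ∑ i ∈ Finset.range g, (x ^ i - 1) := by
    rw [Finset.sum_sub_distrib]; simp
  rw [this]
  exact Q.sum_mem fun i _ => h i

/-- An `ℓ`-th root of unity is `≡ 1` modulo a prime ideal containing the prime `ℓ`. -/
theorem sub_one_mem_of_pow_eq_one {R : Type*} [CommRing R] (Q : Ideal R) [Q.IsPrime] {ℓ : ℕ}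
    (hℓ : ℓ.Prime) (hℓQ : (ℓ : R) ∈ Q) {x : R} (hx : x ^ ℓ = 1) : x - 1 ∈ Q := by
  have h0 : ((ℓ : ℕ) : R ⧸ Q) = 0 := by
    have := Ideal.Quotient.eq_zero_iff_mem.mpr hℓQ
    simpa using this
  have : CharP (R ⧸ Q) ℓ := (CharP.charP_iff_prime_eq_zero hℓ).mpr h0
  have : ExpChar (R ⧸ Q) ℓ := ExpChar.prime hℓ
  have h1 : (Ideal.Quotient.mk Q x - 1) ^ ℓ = 0 := by
    rw [sub_pow_expChar_of_commute ℓ (Commute.all _ _), one_pow, ← map_pow, hx, map_one, sub_self]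
  have h2 : Ideal.Quotient.mk Q x - 1 = 0 := pow_eq_zero_iff hℓ.ne_zero |>.mp h1
  rw [← Ideal.Quotient.eq_zero_iff_mem, map_sub, map_one]
  exact h2

/-- The congruence of Thaine's argument in the cyclotomic situation: `𝔔` a prime of `S` over `ℓ`,
`τ` acting trivially modulo `𝔔`, `τ ζ_ℓ = ζ_ℓ ^ g`, `1 - ζ_ℓ` a uniformizer at `𝔔`,
`u = 1 - z ζ_ℓ`, `β = u τ(β)` of exact order `r` at `𝔔`. Then `(1 - z) g^r ≡ 1 mod 𝔔`. -/
theorem thaine_congr (Q : Ideal S) [Q.IsPrime] (hQ : Q ≠ ⊥) {ℓ : ℕ} (hℓ : ℓ.Prime)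
    (hℓQ : (ℓ : S) ∈ Q) (τ : S ≃+* S) (hτ : ∀ x, τ x - x ∈ Q) {zl : S} (hzl : zl ^ ℓ = 1)
    {g : ℕ} (hg : τ zl = zl ^ g) (hπ2 : 1 - zl ∉ Q ^ 2) (z : S) {β : S}
    (hβu : β = (1 - z * zl) * τ β) {r : ℕ} (hr : β ∈ Q ^ r) (hr' : β ∉ Q ^ (r + 1)) :
    (1 - z) * (g : S) ^ r - 1 ∈ Q := by
  have hz1 : zl - 1 ∈ Q := sub_one_mem_of_pow_eq_one Q hℓ hℓQ hzl
  have hπ : 1 - zl ∈ Q := by
    have := neg_mem hz1; simpa using this
  have hw : τ (1 - zl) = (∑ i ∈ Finset.range g, zl ^ i) * (1 - zl) := by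
    rw [map_sub, map_one, hg, one_sub_pow_eq_geom_sum_mul]
  have h1 := local_congr Q hQ τ hτ hπ hπ2 hw hβu hr hr'
  have hwg := geom_sum_sub_natCast_mem Q hz1 g
  -- replace `w` by `g` and `u` by `1 - z`
  have hwr : (∑ i ∈ Finset.range g, zl ^ i) ^ r - (g : S) ^ r ∈ Q := by
    obtain ⟨c, hc⟩ := sub_dvd_pow_sub_pow (∑ i ∈ Finset.range g, zl ^ i) (g : S) r
    rw [hc]; exact Q.mul_mem_right _ hwg
  have : (1 - z) * (g : S) ^ r - 1 =
      ((1 - z * zl) * (∑ i ∈ Finset.range g, zl ^ i) ^ r - 1)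
      - (1 - z * zl) * ((∑ i ∈ Finset.range g, zl ^ i) ^ r - (g : S) ^ r)
      + z * (g : S) ^ r * (zl - 1) := by ring
  rw [this]
  exact add_mem (sub_mem h1 (Q.mul_mem_left _ hwr)) (Q.mul_mem_left _ hz1)

end localLemma

section hilbert90

open NumberField

variable {K L : Type} [Field K] [Field L] [NumberField K] [NumberField L] [Algebra K L]
  [IsGalois K L] [IsCyclic (L ≃ₐ[K] L)]

/-- Hilbert 90 in integral form: for a cyclic extension of number fields with generator `τ` and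
`u` of relative norm `1` there is a nonzero integer `β` of `L` with `β = u * τ β`. -/
theorem exists_integral_eq_mul_apply {τ : L ≃ₐ[K] L} (hτ : ∀ x, x ∈ Subgroup.zpowers τ) {u : L}
    (hu : Algebra.norm K u = 1) : ∃ β : 𝓞 L, β ≠ 0 ∧ (β : L) = u * τ (β : L) := by
  obtain ⟨y, hy⟩ := groupCohomology.exists_div_of_norm_eq_one hτ hu
  have hy' : (y : L) = u * τ (y : L) := by
    have hne : τ (y : L) ≠ 0 := by simp
    rw [← hy]; field_simp
  have halg : IsAlgebraic ℤ (y : L) :=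
    (IsFractionRing.isAlgebraic_iff ℤ ℚ L).mpr (Algebra.IsAlgebraic.isAlgebraic _)
  obtain ⟨n, hn0, hn⟩ := halg.exists_integral_multiple
  refine ⟨⟨n • (y : L), hn⟩, ?_, ?_⟩
  · intro h
    have h' : n • (y : L) = 0 := congrArg (fun b : 𝓞 L => (b : L)) h
    rw [smul_eq_zero] at h'
    rcases h' with h' | h'
    · exact hn0 h'
    · exact y.ne_zero h'
  · change n • (y : L) = u * τ (n • (y : L))
    rw [map_zsmul, mul_smul_comm, ← hy']

end hilbert90

section unit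

open NumberField

variable {K L : Type*} [Field K] [Field L] [NumberField K] [NumberField L] [Algebra K L]

/-- An integer of `L` of relative norm `1` is a unit. -/
theorem isUnit_of_norm_eq_one {u : 𝓞 L} (hu : Algebra.norm K (u : L) = 1) : IsUnit u := by
  rw [← RingOfIntegers.isUnit_norm K]
  have : RingOfIntegers.norm K u = 1 := by
    apply RingOfIntegers.ext
    rw [RingOfIntegers.coe_norm, hu]; rfl
  rw [this]
  exact isUnit_one

end unit

section package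

open NumberField

variable {K Kl : Type} [Field K] [Field Kl] [NumberField K] [NumberField Kl] [Algebra K Kl]
  {ℓ : ℕ} [NeZero ℓ] [IsCyclotomicExtension {ℓ} K Kl]

/-- Thaine's unit `u = 1 - z ζ_ℓ` (with `z ^ ℓ = z ≠ 1`, e.g. `z = ζ_p`, `ℓ ≡ 1 mod p`) has relative
norm `1`. -/
theorem norm_thaineUnit (hℓ : ℓ.Prime) (hirr : Irreducible (cyclotomic ℓ K)) {zl : 𝓞 Kl}
    (hzl : IsPrimitiveRoot zl ℓ) {z : 𝓞 K} (hz : z ^ ℓ = z) (hz1 : z ≠ 1) :
    Algebra.norm K ((1 - algebraMap (𝓞 K) (𝓞 Kl) z * zl : 𝓞 Kl) : Kl) = 1 := by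
  have hzl' : IsPrimitiveRoot (zl : Kl) ℓ :=
    hzl.map_of_injective RingOfIntegers.coe_injective
  have h := norm_one_sub_mul hℓ hirr hzl' (z : K)
  have hzK : (z : K) ^ ℓ = (z : K) := by
    have := congrArg (fun x : 𝓞 K => (x : K)) hz
    simpa using this
  have hne : (1 : K) - (z : K) ≠ 0 := by
    intro h0
    apply hz1
    apply RingOfIntegers.ext
    have : (z : K) = 1 := (sub_eq_zero.mp h0).symm
    simpa using this
  rw [hzK] at h
  have h' := mul_right_cancel₀ hne (h.trans (one_mul _).symm)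
  have e : ((1 - algebraMap (𝓞 K) (𝓞 Kl) z * zl : 𝓞 Kl) : Kl) =
      1 - algebraMap K Kl (z : K) * (zl : Kl) := by
    push_cast
    rfl
  rw [e]; exact h'

/-- Thaine's unit is a unit, and Hilbert 90 gives `β ≠ 0` integral with `β = u * τ β`. -/
theorem exists_thaine_beta (hℓ : ℓ.Prime) (hirr : Irreducible (cyclotomic ℓ K)) {zl : 𝓞 Kl}
    (hzl : IsPrimitiveRoot zl ℓ) {z : 𝓞 K} (hz : z ^ ℓ = z) (hz1 : z ≠ 1)
    {τ : Kl ≃ₐ[K] Kl} (hτ : ∀ x, x ∈ Subgroup.zpowers τ) :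
    IsUnit (1 - algebraMap (𝓞 K) (𝓞 Kl) z * zl : 𝓞 Kl) ∧
    ∃ β : 𝓞 Kl, β ≠ 0 ∧ β = (1 - algebraMap (𝓞 K) (𝓞 Kl) z * zl) * (τ • β) := by
  have hN := norm_thaineUnit hℓ hirr hzl hz hz1
  refine ⟨isUnit_of_norm_eq_one (K := K) hN, ?_⟩
  have := IsCyclotomicExtension.isGalois {ℓ} K Kl
  have : IsCyclic (Kl ≃ₐ[K] Kl) := ⟨⟨τ, hτ⟩⟩
  obtain ⟨β, hβ0, hβ⟩ := exists_integral_eq_mul_apply hτ hN
  refine ⟨β, hβ0, ?_⟩
  apply RingOfIntegers.ext
  exact hβ

end package

end Fermat.Agent.Thaine.ThaineUnit
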