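/-
Program E2 (S14 via Thaine), helper2: the three "tower" statements of `Thaine/TowerDefs.lean`
that follow from `Thaine/CycloTower.lean` (helper29) and `Thaine/ThaineUnit.lean` (helper2):
`IrredStatement`, `GeneratorStatement`, `UnitStatement`, proved VERBATIM in the `TowerDefs` shapes.
-/
import Mathlib
import Fermat.Agent.Thaine.TowerDefs
import Fermat.Agent.Thaine.CycloTower
import Fermat.Agent.Thaine.ThaineUnit

set_option autoImplicit false
set_option linter.unusedSectionVars false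

namespace Fermat.Agent.Thaine.TowerStatements

open NumberField Polynomial
open Fermat.Agent.Thaine.Defs Fermat.Agent.Thaine.TowerDefs
open scoped Pointwise

variable (p l : ℕ) [hp : Fact p.Prime] [hl : Fact l.Prime]
  (K : Type) [Field K] [NumberField K] [IsCyclotomicExtension {p} ℚ K]
  (Kl : Type) [Field Kl] [NumberField Kl] [Algebra K Kl] [IsCyclotomicExtension {l} K Kl]

/-- `l ≡ 1 mod p` forces `p ≠ l`. -/
theorem ne_of_mod_eq_one (h : l % p = 1) : p ≠ l := by
  rintro rfl
  rw [Nat.mod_self] at h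
  exact zero_ne_one h

/-- (TH-irr) -/
theorem irredStatement : IrredStatement p l K := fun h =>
  CycloTower.irreducible_cyclotomic p l K (ne_of_mod_eq_one p l h)

/-- `ζ_p`, as an integer of `K`, is a primitive `p`-th root of unity. -/
theorem zetaI_prim : IsPrimitiveRoot (zetaI p K) p :=
  (IsCyclotomicExtension.zeta_spec p ℚ K).toInteger_isPrimitiveRoot

/-- `ζ_p ^ l = ζ_p` when `l ≡ 1 mod p`. -/
theorem zetaI_pow (h : l % p = 1) : zetaI p K ^ l = zetaI p K := by
  have h1 : zetaI p K ^ p = 1 := (zetaI_prim p K).pow_eq_one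
  conv_lhs => rw [← Nat.div_add_mod l p, h, pow_add, pow_mul, h1, one_pow, one_mul, pow_one]

/-- `ζ_p ≠ 1`. -/
theorem zetaI_ne_one : zetaI p K ≠ 1 :=
  (zetaI_prim p K).ne_one hp.out.one_lt

/-- (TH-gen) -/
theorem generatorStatement : GeneratorStatement p l K Kl := by
  intro h g hg
  have hpl := ne_of_mod_eq_one p l h
  have hζ : IsPrimitiveRoot (IsCyclotomicExtension.zeta l K Kl) l :=
    IsCyclotomicExtension.zeta_spec l K Kl
  obtain ⟨τ, hτζ, -, hτ⟩ := CycloTower.exists_tau p l K hpl hg hζ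
  refine ⟨τ, hτ, fun z hz => ?_⟩
  apply RingOfIntegers.ext
  have hz' : (z : Kl) ^ l = 1 := by
    have := congrArg (fun x : 𝓞 Kl => (x : Kl)) hz
    simpa using this
  have h1 := CycloTower.apply_root_eq_pow l K hζ τ hτζ hz'
  have e : ((τ • z : 𝓞 Kl) : Kl) = τ (z : Kl) := rfl
  rw [e, h1]
  simp

/-- (TH-unit) -/
theorem unitStatement : UnitStatement p l K Kl := by
  intro h ζl hζl
  have hpl := ne_of_mod_eq_one p l h
  have hirr := CycloTower.irreducible_cyclotomic p l K hpl
  refine ⟨?_, fun τ hτ => ?_⟩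
  · have hgen : ∃ τ : Kl ≃ₐ[K] Kl, ∀ x, x ∈ Subgroup.zpowers τ := by
      have := CycloTower.isCyclic_gal p l K Kl hpl
      obtain ⟨τ, hτ⟩ := this.exists_generator
      exact ⟨τ, hτ⟩
    obtain ⟨τ, hτ⟩ := hgen
    exact (ThaineUnit.exists_thaine_beta hl.out hirr hζl (zetaI_pow p l K h)
      (zetaI_ne_one p K) hτ).1
  · obtain ⟨β, hβ0, hβ⟩ := (ThaineUnit.exists_thaine_beta hl.out hirr hζl (zetaI_pow p l K h)
      (zetaI_ne_one p K) hτ).2
    exact ⟨β, hβ0, hβ.symm⟩

end Fermat.Agent.Thaine.TowerStatements
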